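/-
S36, block [CUSP] (helper17), part 1 — Mathlib only.

**Cusp points of the chart at infinity of level `q² M₀`: the valuation dichotomy of the modular relation
and its consequences.**

Let `a = 1/j`, `b = 1/j'`, `c = 1/j''` (`j' = j(Q^q)`, `j'' = j(Q^{q²})`).  The modular equation of prime
level `q` reads `a^(q+1) + b^(q+1) = a b U` with `U ≡ 1` modulo `(q, a, b)` (and the same for `(b, c)`).
In ANY valuation ring in which `a, b` are non-units and `U` is a unit this forces
`v b = (v a) ^ q` or `v a = (v b) ^ q` (`val_dichotomy`), so a triple `(a, b, c)` has one of the four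
types `(1, q, q²)`, `(1, q, 1)`, `(q, 1, q)`, `(q², q, 1)` (`val_types`).

For a local subring `B` of a field `F`, integrally closed in `F` (= the intersection of the valuation
rings dominating it, Mathlib `LocalSubring.eq_iInf_of_isIntegrallyClosedIn`), with `a, b, c ∈ 𝔪_B`:

* `g20_mem`, `g02_mem` : `a^(q²)/c ∈ B` and `c^(q²)/a ∈ B` (no pole in any of the four types);
* `ratio_mem_of_centre` : if moreover `V ⊇ B` is a valuation ring with centre `⊆ 𝔪_B` on which `a` is a
  unit and `c ≡ a` (the middle component `C₁₁`: `j'' ≡ j`), then `a^(q²)/c, c^(q²)/a ∈ 𝔪_B`, hence only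
  the two middle types occur and **`c / a ∈ Bˣ`** — so `Π := 1 - c/a` is available at the cusp points of
  `C₁₁` (the amendment of the referees to (R3));
* `not_centre_*` : **at a cusp point at most one of the three components passes**.
-/
import Mathlib

set_option autoImplicit false
set_option linter.unusedSectionVars false
set_option linter.unusedVariables false
set_option linter.style.haveILetI false

namespace Fermat.Agent.S36.Cusp.Dichotomy

/-! ### The dichotomy for one valuation -/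

section Val

variable {F : Type*} [Field F] {Γ : Type*} [LinearOrderedCommGroupWithZero Γ] (v : Valuation F Γ)

theorem pow_lt_one_of_lt_one {m : Γ} (hm : m < 1) {n : ℕ} (hn : n ≠ 0) : m ^ n < 1 :=
  pow_lt_one' hm hn

/-- **The dichotomy.**  If `a^(q+1) + b^(q+1) = a b U` with `v a, v b < 1`, `v U = 1`, then
`v b = (v a)^q` or `v a = (v b)^q`. -/
theorem val_dichotomy {q : ℕ} (hq : 2 ≤ q) {a b U : F} (ha : v a < 1) (hb : v b < 1)
    (ha0 : a ≠ 0) (hb0 : b ≠ 0) (hU : v U = 1) (h : a ^ (q + 1) + b ^ (q + 1) = a * b * U) :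
    v b = v a ^ q ∨ v a = v b ^ q := by
  have hva0 : v a ≠ 0 := (Valuation.ne_zero_iff v).2 ha0
  have hvb0 : v b ≠ 0 := (Valuation.ne_zero_iff v).2 hb0
  have hR : v (a * b * U) = v a * v b := by rw [map_mul, map_mul, hU, mul_one]
  rcases lt_trichotomy (v a) (v b) with hlt | heq | hgt
  · -- `v a < v b`: the sum has the valuation of `b^(q+1)`
    right
    have h1 : v (a ^ (q + 1)) < v (b ^ (q + 1)) := by
      rw [map_pow, map_pow]
      exact pow_lt_pow_left₀ hlt zero_le (Nat.succ_ne_zero q)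
    have h2 := Valuation.map_add_eq_of_lt_right v h1
    rw [h, hR, map_pow, pow_succ] at h2
    -- `v a * v b = v b ^ q * v b`
    exact mul_right_cancel₀ hvb0 h2
  · exfalso
    have h1 : v (a ^ (q + 1) + b ^ (q + 1)) ≤ v a ^ (q + 1) := by
      refine Valuation.map_add_le v ?_ ?_
      · rw [map_pow]
      · rw [map_pow, heq]
    rw [h, hR, ← heq] at h1
    -- `m * m ≤ m^(q+1)` is impossible for `0 < m < 1`
    have h3 : v a ^ (q + 1) = v a * v a * v a ^ (q - 1) := by
      rw [← pow_two, ← pow_add]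
      congr 1
      omega
    rw [h3] at h1
    have h4 : v a ^ (q - 1) < 1 := pow_lt_one_of_lt_one ha (by omega)
    have h5 : v a * v a ≠ 0 := mul_ne_zero hva0 hva0
    have h6 : v a * v a * v a ^ (q - 1) < v a * v a * 1 :=
      (mul_lt_mul_iff_right₀ (zero_lt_iff.2 h5)).2 h4
    rw [mul_one] at h6
    exact absurd h1 (not_le.2 h6)
  · left
    have h1 : v (b ^ (q + 1)) < v (a ^ (q + 1)) := by
      rw [map_pow, map_pow]
      exact pow_lt_pow_left₀ hgt zero_le (Nat.succ_ne_zero q)
    have h2 := Valuation.map_add_eq_of_lt_left v h1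
    rw [h, hR, map_pow, pow_succ, mul_comm (v a) (v b)] at h2
    exact mul_right_cancel₀ hva0 h2

/-- Injectivity of powers on the nonzero elements of the value group. -/
theorem eq_of_pow_eq {x z : Γ} {n : ℕ} (hn : n ≠ 0) (h : x ^ n = z ^ n) : x = z := by
  rcases lt_trichotomy x z with hlt | heq | hgt
  · exact absurd h (ne_of_lt (pow_lt_pow_left₀ hlt zero_le hn))
  · exact heq
  · exact absurd h.symm (ne_of_lt (pow_lt_pow_left₀ hgt zero_le hn))

/-- **The four types** of a triple `(a, b, c)` linked by two modular relations. -/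
theorem val_types {q : ℕ} (hq : 2 ≤ q) {a b c U₁ U₂ : F} (ha : v a < 1) (hb : v b < 1)
    (hc : v c < 1) (ha0 : a ≠ 0) (hb0 : b ≠ 0) (hc0 : c ≠ 0) (hU₁ : v U₁ = 1) (hU₂ : v U₂ = 1)
    (h₁ : a ^ (q + 1) + b ^ (q + 1) = a * b * U₁) (h₂ : b ^ (q + 1) + c ^ (q + 1) = b * c * U₂) :
    v c = v a ^ (q ^ 2) ∨ v a = v c ∨ v a = v c ^ (q ^ 2) := by
  have hq0 : q ≠ 0 := by omega
  rcases val_dichotomy v hq ha hb ha0 hb0 hU₁ h₁ with h1 | h1 <;>
    rcases val_dichotomy v hq hb hc hb0 hc0 hU₂ h₂ with h2 | h2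
  · left
    rw [h2, h1, ← pow_mul, pow_two]
  · right; left
    exact eq_of_pow_eq hq0 (h1.symm.trans h2)
  · right; left
    rw [h1, h2]
  · right; right
    rw [h1, h2, ← pow_mul, pow_two]

/-- In all four types `a^(q²)/c` is integral. -/
theorem val_g20_le_one {q : ℕ} (hq : 2 ≤ q) {a c : F} (ha : v a < 1) (hc : v c < 1)
    (ha0 : a ≠ 0) (hc0 : c ≠ 0)
    (ht : v c = v a ^ (q ^ 2) ∨ v a = v c ∨ v a = v c ^ (q ^ 2)) :
    v (a ^ (q ^ 2) / c) ≤ 1 := by
  have hvc0 : v c ≠ 0 := (Valuation.ne_zero_iff v).2 hc0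
  have hq2 : 2 ≤ q ^ 2 := by nlinarith
  rw [map_div₀, map_pow, div_le_one₀ (zero_lt_iff.2 hvc0)]
  rcases ht with h | h | h
  · rw [h]
  · rw [h]
    calc v c ^ (q ^ 2) = v c ^ (q ^ 2 - 1) * v c := by
          rw [← pow_succ]; congr 1; omega
      _ ≤ 1 * v c := by
          refine mul_le_mul_left ?_ _
          exact (pow_lt_one_of_lt_one hc (by omega)).le
      _ = v c := one_mul _
  · rw [h, ← pow_mul]
    calc v c ^ (q ^ 2 * q ^ 2) = v c ^ (q ^ 2 * q ^ 2 - 1) * v c := by
          rw [← pow_succ]; congr 1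
          have : 1 ≤ q ^ 2 * q ^ 2 := by nlinarith
          omega
      _ ≤ 1 * v c := by
          refine mul_le_mul_left ?_ _
          refine (pow_lt_one_of_lt_one hc ?_).le
          have : 4 ≤ q ^ 2 * q ^ 2 := by nlinarith
          omega
      _ = v c := one_mul _

/-- If `a^(q²)/c` and `c^(q²)/a` are both non-units, only the middle types occur: `v a = v c`. -/
theorem val_eq_of_g_lt_one {q : ℕ} {a c : F} (ha0 : a ≠ 0) (hc0 : c ≠ 0)
    (ht : v c = v a ^ (q ^ 2) ∨ v a = v c ∨ v a = v c ^ (q ^ 2))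
    (h20 : v (a ^ (q ^ 2) / c) < 1) (h02 : v (c ^ (q ^ 2) / a) < 1) : v a = v c := by
  have hva0 : v a ≠ 0 := (Valuation.ne_zero_iff v).2 ha0
  have hvc0 : v c ≠ 0 := (Valuation.ne_zero_iff v).2 hc0
  rcases ht with h | h | h
  · exfalso
    rw [map_div₀, map_pow, ← h, div_self hvc0] at h20
    exact lt_irrefl _ h20
  · exact h
  · exfalso
    rw [map_div₀, map_pow, ← h, div_self hva0] at h02
    exact lt_irrefl _ h02

/-- `x ≡ y` implies `x ^ n ≡ y ^ n` (for integral `x`, `y`). -/
theorem val_pow_sub_pow_lt_one {x y : F} (hx : v x ≤ 1) (hy : v y ≤ 1) (h : v (x - y) < 1) (n : ℕ) :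
    v (x ^ n - y ^ n) < 1 := by
  rw [← (Commute.all x y).geom_sum₂_mul n, map_mul]
  have h1 : v (∑ i ∈ Finset.range n, x ^ i * y ^ (n - 1 - i)) ≤ 1 := by
    refine Valuation.map_sum_le _ fun i _ => ?_
    rw [map_mul, map_pow, map_pow]
    exact mul_le_one' (pow_le_one' hx _) (pow_le_one' hy _)
  exact mul_lt_one_of_nonneg_of_lt_one_right h1 zero_le h

end Val

/-! ### Local subrings integrally closed in a field -/

section Local

variable {F : Type*} [Field F] (B : LocalSubring F)

/-- `x` lies in the maximal ideal of the local subring `B`. -/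
def InMax (x : F) : Prop := ∃ hx : x ∈ B.toSubring, ¬ IsUnit (⟨x, hx⟩ : B.toSubring)

/-- `x` is a unit of the local subring `B`. -/
def IsUnitIn (x : F) : Prop := ∃ hx : x ∈ B.toSubring, IsUnit (⟨x, hx⟩ : B.toSubring)

variable {B}

theorem InMax.mem {x : F} (h : InMax B x) : x ∈ B.toSubring := h.1

theorem IsUnitIn.mem {x : F} (h : IsUnitIn B x) : x ∈ B.toSubring := h.1

theorem inMax_or_isUnitIn {x : F} (hx : x ∈ B.toSubring) : InMax B x ∨ IsUnitIn B x := by
  by_cases h : IsUnit (⟨x, hx⟩ : B.toSubring)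
  · exact Or.inr ⟨hx, h⟩
  · exact Or.inl ⟨hx, h⟩

theorem InMax.not_isUnitIn {x : F} (h : InMax B x) : ¬ IsUnitIn B x := fun h' => h.2 h'.2

theorem inMax_iff_mem_maximalIdeal {x : F} (hx : x ∈ B.toSubring) :
    InMax B x ↔ (⟨x, hx⟩ : B.toSubring) ∈ IsLocalRing.maximalIdeal B.toSubring := by
  haveI := B.isLocalRing
  rw [IsLocalRing.mem_maximalIdeal, mem_nonunits_iff]
  exact ⟨fun h => h.2, fun h => ⟨hx, h⟩⟩

theorem InMax.add {x y : F} (hx : InMax B x) (hy : InMax B y) : InMax B (x + y) := by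
  haveI := B.isLocalRing
  have h1 := (inMax_iff_mem_maximalIdeal hx.mem).1 hx
  have h2 := (inMax_iff_mem_maximalIdeal hy.mem).1 hy
  exact (inMax_iff_mem_maximalIdeal (B.toSubring.add_mem hx.mem hy.mem)).2
    ((IsLocalRing.maximalIdeal B.toSubring).add_mem h1 h2)

theorem InMax.mul_mem {x y : F} (hx : InMax B x) (hy : y ∈ B.toSubring) : InMax B (x * y) := by
  haveI := B.isLocalRing
  have h1 := (inMax_iff_mem_maximalIdeal hx.mem).1 hx
  exact (inMax_iff_mem_maximalIdeal (B.toSubring.mul_mem hx.mem hy)).2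
    ((IsLocalRing.maximalIdeal B.toSubring).mul_mem_right ⟨y, hy⟩ h1)

theorem InMax.pow {x : F} (hx : InMax B x) {n : ℕ} (hn : n ≠ 0) : InMax B (x ^ n) := by
  obtain ⟨m, rfl⟩ := Nat.exists_eq_succ_of_ne_zero hn
  rw [pow_succ, mul_comm]
  exact hx.mul_mem (B.toSubring.pow_mem hx.mem m)

theorem InMax.sub {x y : F} (hx : InMax B x) (hy : InMax B y) : InMax B (x - y) := by
  have : InMax B (-y) := by
    have := hy.mul_mem (B.toSubring.neg_mem B.toSubring.one_mem)
    simpa using this
  rw [sub_eq_add_neg]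
  exact hx.add this

/-- `1 + 𝔪_B ⊆ Bˣ`. -/
theorem isUnitIn_of_sub_one_inMax {x : F} (h : InMax B (x - 1)) : IsUnitIn B x := by
  have hx : x ∈ B.toSubring := by
    have := B.toSubring.add_mem h.mem B.toSubring.one_mem
    simpa using this
  rcases inMax_or_isUnitIn hx with h' | h'
  · exfalso
    have h1 : InMax B (x - (x - 1)) := h'.sub h
    rw [sub_sub_cancel] at h1
    exact h1.2 isUnit_one
  · exact h'

/-- In a valuation ring dominating `B`, elements of `𝔪_B` have valuation `< 1`. -/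
theorem valuation_lt_one_of_inMax {V : ValuationSubring F} (hV : B ≤ V.toLocalSubring) {x : F}
    (hx : InMax B x) : V.valuation x < 1 := by
  obtain ⟨hle, hloc⟩ := hV
  obtain ⟨hxB, hnu⟩ := hx
  have hxV : x ∈ V := hle hxB
  have h1 : ¬ IsUnit (⟨x, hxV⟩ : V) := by
    intro hu
    apply hnu
    have : IsUnit (Subring.inclusion hle ⟨x, hxB⟩) := hu
    exact hloc.map_nonunit _ this
  rcases V.valuation_lt_one_or_eq_one ⟨x, hxV⟩ with h | h
  · exact h
  · exact absurd ((V.valuation_eq_one_iff ⟨x, hxV⟩).2 h) h1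

/-- In a valuation ring dominating `B`, units of `B` have valuation `1`. -/
theorem valuation_eq_one_of_isUnitIn {V : ValuationSubring F} (hV : B ≤ V.toLocalSubring) {x : F}
    (hx : IsUnitIn B x) : V.valuation x = 1 := by
  obtain ⟨hle, hloc⟩ := hV
  obtain ⟨hxB, hu⟩ := hx
  have hxV : x ∈ V := hle hxB
  have : IsUnit (⟨x, hxV⟩ : V) := hu.map (Subring.inclusion hle)
  exact (V.valuation_eq_one_iff ⟨x, hxV⟩).1 this

variable [IsIntegrallyClosedIn B.toSubring F]

/-- **An integrally closed local subring is the intersection of the valuation rings dominating it**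
(Mathlib), elementwise. -/
theorem mem_of_forall_dominating {y : F}
    (h : ∀ V : ValuationSubring F, B ≤ V.toLocalSubring → V.valuation y ≤ 1) :
    y ∈ B.toSubring := by
  rw [LocalSubring.eq_iInf_of_isIntegrallyClosedIn (R := B), Subring.mem_iInf]
  rintro ⟨V, hV⟩
  exact (V.valuation_le_one_iff y).1 (h V hV)

/-- `y ∈ 𝔪_B` as soon as `v y < 1` in every valuation ring dominating `B`. -/
theorem inMax_of_forall_dominating {y : F}
    (h : ∀ V : ValuationSubring F, B ≤ V.toLocalSubring → V.valuation y < 1) : InMax B y := by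
  have hy : y ∈ B.toSubring := mem_of_forall_dominating fun V hV => (h V hV).le
  rcases inMax_or_isUnitIn hy with h' | h'
  · exact h'
  · exfalso
    obtain ⟨V, hV⟩ := B.exists_le_valuationSubring
    have := valuation_eq_one_of_isUnitIn hV h'
    exact absurd this (ne_of_lt (h V hV))

/-- `y ∈ Bˣ` as soon as `v y = 1` in every valuation ring dominating `B`. -/
theorem isUnitIn_of_forall_dominating {y : F}
    (h : ∀ V : ValuationSubring F, B ≤ V.toLocalSubring → V.valuation y = 1) : IsUnitIn B y := by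
  have hy : y ∈ B.toSubring := mem_of_forall_dominating fun V hV => (h V hV).le
  rcases inMax_or_isUnitIn hy with h' | h'
  · exfalso
    obtain ⟨V, hV⟩ := B.exists_le_valuationSubring
    have := valuation_lt_one_of_inMax hV h'
    exact absurd (h V hV) (ne_of_lt this)
  · exact h'

end Local

/-! ### The cusp package -/

section Cusp

variable {F : Type*} [Field F] (B : LocalSubring F)

/-- **The modular data at a cusp point**: `a = 1/j`, `b = 1/j'`, `c = 1/j''` in the maximal ideal of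
`B`, linked by the two modular relations of prime level `q` with unit cofactors. -/
structure CuspData (q : ℕ) (a b c : F) : Prop where
  hq : 2 ≤ q
  ha : InMax B a
  hb : InMax B b
  hc : InMax B c
  ha0 : a ≠ 0
  hb0 : b ≠ 0
  hc0 : c ≠ 0
  rel₁ : ∃ U : F, IsUnitIn B U ∧ a ^ (q + 1) + b ^ (q + 1) = a * b * U
  rel₂ : ∃ U : F, IsUnitIn B U ∧ b ^ (q + 1) + c ^ (q + 1) = b * c * U

variable {B} {q : ℕ} {a b c : F}

theorem CuspData.types (D : CuspData B q a b c) {V : ValuationSubring F}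
    (hV : B ≤ V.toLocalSubring) :
    V.valuation c = V.valuation a ^ (q ^ 2) ∨ V.valuation a = V.valuation c ∨
      V.valuation a = V.valuation c ^ (q ^ 2) := by
  obtain ⟨U₁, hU₁, h₁⟩ := D.rel₁
  obtain ⟨U₂, hU₂, h₂⟩ := D.rel₂
  exact val_types V.valuation D.hq (valuation_lt_one_of_inMax hV D.ha)
    (valuation_lt_one_of_inMax hV D.hb) (valuation_lt_one_of_inMax hV D.hc) D.ha0 D.hb0 D.hc0
    (valuation_eq_one_of_isUnitIn hV hU₁) (valuation_eq_one_of_isUnitIn hV hU₂) h₁ h₂

/-- The data are symmetric in `a ↔ c`. -/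
theorem CuspData.symm (D : CuspData B q a b c) : CuspData B q c b a where
  hq := D.hq
  ha := D.hc
  hb := D.hb
  hc := D.ha
  ha0 := D.hc0
  hb0 := D.hb0
  hc0 := D.ha0
  rel₁ := by
    obtain ⟨U, hU, h⟩ := D.rel₂
    exact ⟨U, hU, by rw [add_comm, h]; ring⟩
  rel₂ := by
    obtain ⟨U, hU, h⟩ := D.rel₁
    exact ⟨U, hU, by rw [add_comm, h]; ring⟩

variable [IsIntegrallyClosedIn B.toSubring F]

/-- `a^(q²)/c ∈ B`. -/
theorem CuspData.g20_mem (D : CuspData B q a b c) : a ^ (q ^ 2) / c ∈ B.toSubring :=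
  mem_of_forall_dominating fun V hV =>
    val_g20_le_one V.valuation D.hq (valuation_lt_one_of_inMax hV D.ha)
      (valuation_lt_one_of_inMax hV D.hc) D.ha0 D.hc0 (D.types hV)

/-- `c^(q²)/a ∈ B`. -/
theorem CuspData.g02_mem (D : CuspData B q a b c) : c ^ (q ^ 2) / a ∈ B.toSubring :=
  D.symm.g20_mem

/-- **The centre condition**: `V ⊇ B` and `B ∩ 𝔪_V ⊆ 𝔪_B` ("the component of `V` passes through the
closed point of `B`"). -/
structure Centre (B : LocalSubring F) (V : ValuationSubring F) : Prop where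
  le : B.toSubring ≤ V.toSubring
  centre : ∀ x ∈ B.toSubring, V.valuation x < 1 → InMax B x

/-- On a component through the point on which `c ≡ a ^ n` (`a` a unit there): `a^(q²)/c - a^(q² - n)`
lies in `𝔪_B`. -/
theorem CuspData.g20_sub_inMax (D : CuspData B q a b c) {V : ValuationSubring F} (hV : Centre B V)
    (haV : V.valuation a = 1) {n : ℕ} (hn : n ≤ q ^ 2) (hca : V.valuation (c - a ^ n) < 1) :
    InMax B (a ^ (q ^ 2) / c - a ^ (q ^ 2 - n)) := by
  have hmem : a ^ (q ^ 2) / c - a ^ (q ^ 2 - n) ∈ B.toSubring :=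
    B.toSubring.sub_mem D.g20_mem (B.toSubring.pow_mem D.ha.mem _)
  refine hV.centre _ hmem ?_
  -- `v c = 1`
  have hvc : V.valuation c = 1 := by
    have h1 : V.valuation (a ^ n) = 1 := by rw [map_pow, haV, one_pow]
    have h2 : c = (c - a ^ n) + a ^ n := by ring
    rw [h2, Valuation.map_add_eq_of_lt_right _ (by rw [h1]; exact hca), h1]
  have hid : a ^ (q ^ 2) / c - a ^ (q ^ 2 - n) = a ^ (q ^ 2 - n) * (a ^ n - c) / c := by
    have hc0 := D.hc0
    field_simp
    rw [mul_sub, ← pow_add, Nat.sub_add_cancel hn]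
    ring
  rw [hid, map_div₀, map_mul, map_pow, haV, one_pow, one_mul, hvc, div_one, ← neg_sub,
    Valuation.map_neg]
  exact hca

/-- **On the middle component** (`c ≡ a`, `a` a unit of `V`): `a^(q²)/c ∈ 𝔪_B`. -/
theorem CuspData.g20_inMax_of_mid (D : CuspData B q a b c) {V : ValuationSubring F}
    (hV : Centre B V) (haV : V.valuation a = 1) (hca : V.valuation (c - a) < 1) :
    InMax B (a ^ (q ^ 2) / c) := by
  have hq2 : 1 ≤ q ^ 2 := by have := D.hq; nlinarith
  have h1 := D.g20_sub_inMax hV haV (n := 1) hq2 (by rwa [pow_one])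
  have hq4 : 4 ≤ q ^ 2 := by have := D.hq; nlinarith
  have h2 : InMax B (a ^ (q ^ 2 - 1)) := D.ha.pow (by omega)
  have := h1.add h2
  rwa [sub_add_cancel] at this

/-- **The unit ratio at the cusp points of the middle component**: `c / a ∈ Bˣ`. -/
theorem CuspData.ratio_isUnitIn (D : CuspData B q a b c) {V : ValuationSubring F}
    (hV : Centre B V) (haV : V.valuation a = 1) (hca : V.valuation (c - a) < 1) :
    IsUnitIn B (c / a) := by
  have h20 := D.g20_inMax_of_mid hV haV hca
  have hcV : V.valuation c = 1 := by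
    have h2 : c = (c - a) + a := by ring
    rw [h2, Valuation.map_add_eq_of_lt_right _ (by rw [haV]; exact hca), haV]
  have hac : V.valuation (a - c) < 1 := by rw [← neg_sub, Valuation.map_neg]; exact hca
  have h02 := D.symm.g20_inMax_of_mid hV hcV hac
  refine isUnitIn_of_forall_dominating fun W hW => ?_
  have ht := D.types hW
  have heq := val_eq_of_g_lt_one W.valuation D.ha0 D.hc0 ht (valuation_lt_one_of_inMax hW h20)
    (valuation_lt_one_of_inMax hW h02)
  have hva0 : W.valuation a ≠ 0 := (Valuation.ne_zero_iff _).2 D.ha0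
  rw [map_div₀, ← heq, div_self hva0]

/-- The uniformiser candidate `Π = 1 - c/a` lies in `B ∩ 𝔪_V`. -/
theorem CuspData.one_sub_ratio (D : CuspData B q a b c) {V : ValuationSubring F}
    (hV : Centre B V) (haV : V.valuation a = 1) (hca : V.valuation (c - a) < 1) :
    1 - c / a ∈ B.toSubring ∧ V.valuation (1 - c / a) < 1 := by
  refine ⟨B.toSubring.sub_mem B.toSubring.one_mem (D.ratio_isUnitIn hV haV hca).mem, ?_⟩
  have ha0 := D.ha0
  have : 1 - c / a = -(c - a) / a := by field_simp; ring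
  rw [this, map_div₀, Valuation.map_neg, haV, div_one]
  exact hca

/-! ### At most one component through a cusp point -/

/-- **A cusp point does not lie on both `C₂₀` (`c ≡ a^(q²)`) and `C₁₁` (`c ≡ a`).** -/
theorem CuspData.not_centre_20_11 (D : CuspData B q a b c) {V₂₀ V₁₁ : ValuationSubring F}
    (h20 : Centre B V₂₀) (ha20 : V₂₀.valuation a = 1) (hc20 : V₂₀.valuation (c - a ^ (q ^ 2)) < 1)
    (h11 : Centre B V₁₁) (ha11 : V₁₁.valuation a = 1) (hc11 : V₁₁.valuation (c - a) < 1) :
    False := by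
  -- on `C₂₀` the function `a^(q²)/c` is `≡ 1`, on `C₁₁` it vanishes at the point
  have h1 := D.g20_sub_inMax h20 ha20 (n := q ^ 2) le_rfl hc20
  rw [Nat.sub_self, pow_zero] at h1
  have hu := isUnitIn_of_sub_one_inMax h1
  exact (D.g20_inMax_of_mid h11 ha11 hc11).not_isUnitIn hu

/-- **A cusp point does not lie on both `C₁₁` (`c ≡ a`) and `C₀₂` (`a ≡ c^(q²)`).** -/
theorem CuspData.not_centre_11_02 (D : CuspData B q a b c) {V₁₁ V₀₂ : ValuationSubring F}
    (h11 : Centre B V₁₁) (ha11 : V₁₁.valuation a = 1) (hc11 : V₁₁.valuation (c - a) < 1)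
    (h02 : Centre B V₀₂) (hc02 : V₀₂.valuation c = 1) (ha02 : V₀₂.valuation (a - c ^ (q ^ 2)) < 1) :
    False := by
  have hcV : V₁₁.valuation c = 1 := by
    have h2 : c = (c - a) + a := by ring
    rw [h2, Valuation.map_add_eq_of_lt_right _ (by rw [ha11]; exact hc11), ha11]
  have hac : V₁₁.valuation (a - c) < 1 := by rw [← neg_sub, Valuation.map_neg]; exact hc11
  exact D.symm.not_centre_20_11 h02 hc02 ha02 h11 hcV hac

/-- On a component through the point on which `a ≡ c ^ n` (`c` a unit there, `1 ≤ n`):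
`a^(q²)/c - c^(n q² - 1)` lies in `𝔪_B`. -/
theorem CuspData.g20_sub_inMax' (D : CuspData B q a b c) {V : ValuationSubring F} (hV : Centre B V)
    (hcV : V.valuation c = 1) {n : ℕ} (hn : 1 ≤ n) (hac : V.valuation (a - c ^ n) < 1) :
    InMax B (a ^ (q ^ 2) / c - c ^ (n * q ^ 2 - 1)) := by
  have hmem : a ^ (q ^ 2) / c - c ^ (n * q ^ 2 - 1) ∈ B.toSubring :=
    B.toSubring.sub_mem D.g20_mem (B.toSubring.pow_mem D.hc.mem _)
  refine hV.centre _ hmem ?_
  have hq2 : 1 ≤ q ^ 2 := by have := D.hq; nlinarith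
  have hnq : 1 ≤ n * q ^ 2 := Nat.one_le_iff_ne_zero.2 (Nat.mul_ne_zero (by omega) (by omega))
  have hc0 := D.hc0
  have hid : a ^ (q ^ 2) / c - c ^ (n * q ^ 2 - 1) = (a ^ (q ^ 2) - (c ^ n) ^ (q ^ 2)) / c := by
    rw [sub_div, ← pow_mul]
    congr 1
    rw [eq_div_iff hc0, ← pow_succ, Nat.sub_add_cancel hnq]
  rw [hid, map_div₀, hcV, div_one]
  exact val_pow_sub_pow_lt_one V.valuation ((V.valuation_le_one_iff a).2 (hV.le D.ha.mem))
    (by rw [map_pow, hcV, one_pow]) hac _

/-- **A cusp point does not lie on both `C₂₀` (`c ≡ a^(q²)`) and `C₀₂` (`a ≡ c^(q²)`).** -/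
theorem CuspData.not_centre_20_02 (D : CuspData B q a b c) {V₂₀ V₀₂ : ValuationSubring F}
    (h20 : Centre B V₂₀) (ha20 : V₂₀.valuation a = 1) (hc20 : V₂₀.valuation (c - a ^ (q ^ 2)) < 1)
    (h02 : Centre B V₀₂) (hc02 : V₀₂.valuation c = 1) (ha02 : V₀₂.valuation (a - c ^ (q ^ 2)) < 1) :
    False := by
  have h1 := D.g20_sub_inMax h20 ha20 (n := q ^ 2) le_rfl hc20
  rw [Nat.sub_self, pow_zero] at h1
  have hu := isUnitIn_of_sub_one_inMax h1
  have hq2 : 4 ≤ q ^ 2 := by have := D.hq; nlinarith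
  have h2 := D.g20_sub_inMax' h02 hc02 (n := q ^ 2) (by omega) ha02
  have h3 : InMax B (c ^ (q ^ 2 * q ^ 2 - 1)) := D.hc.pow (by
    have : 16 ≤ q ^ 2 * q ^ 2 := by nlinarith
    omega)
  have := h2.add h3
  rw [sub_add_cancel] at this
  exact this.not_isUnitIn hu

end Cusp

end Fermat.Agent.S36.Cusp.Dichotomy
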