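/-
S36, block [CUSP] (helper17), part 3: **the modular relation at the cusps.**

For a prime `ℓ`, in any commutative ring: if `x a = 1`, `y b = 1` and `Φ_ℓ(x, y) = 0`, then

  `a^(ℓ+1) + b^(ℓ+1) = a b (1 + ℓ r + a s + b t)`

with `r, s, t` in any subring containing `a` and `b` (`modRel`).  Inputs: the shape of `Φ_ℓ`
(`N4.ModPolyShape.modPoly_prime_shape`: monic of degree `ℓ + 1` in both variables, all other monomials of
bidegree `≤ (ℓ, ℓ)`) and Kronecker's congruence (`N4.Kronecker.kronecker`: the coefficient of `X^ℓ Y^ℓ` is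
`≡ -1` modulo `ℓ`).  With `a = 1/j`, `b = 1/j'` this is the hypothesis `rel₁` of
`Cusp.Dichotomy.CuspData` as soon as `ℓ, a, b` lie in the maximal ideal.
-/
import Mathlib
import Fermat.Agent.N4.ModPolyShape

set_option autoImplicit false
set_option linter.unusedSectionVars false
set_option linter.unusedVariables false

open Polynomial

namespace Fermat.Agent.S36.Cusp.ModRel

open Fermat.Agent.N4.Kronecker Fermat.Agent.N4.ModPolyDescent Fermat.Agent.N4.ModPolyShape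

/-! ### Generic expansion of a two-variable evaluation -/

section Generic

variable {A : Type*} [CommRing A]

/-- Expansion of `evZ x y P` as a double sum, for `P` of bidegree `≤ (n, n)`. -/
theorem evZ_eq_sum (P : ℤ[X][X]) (n : ℕ) (hP : P.natDegree ≤ n)
    (hPi : ∀ i, (P.coeff i).natDegree ≤ n) (x y : A) :
    evZ x y P = ∑ i ∈ Finset.range (n + 1), ∑ k ∈ Finset.range (n + 1),
      (((P.coeff i).coeff k : ℤ) : A) * x ^ k * y ^ i := by
  rw [evZ_apply, eval₂_eq_sum_range' _ (Nat.lt_succ_of_le hP)]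
  refine Finset.sum_congr rfl fun i _ => ?_
  rw [coe_eval₂RingHom, eval₂_eq_sum_range' _ (Nat.lt_succ_of_le (hPi i)), Finset.sum_mul]
  refine Finset.sum_congr rfl fun k _ => ?_
  rw [eq_intCast]

/-- Clearing denominators: `a^n b^n P(1/a, 1/b)`. -/
theorem sum_rev_eq_zero (P : ℤ[X][X]) (n : ℕ) (hP : P.natDegree ≤ n)
    (hPi : ∀ i, (P.coeff i).natDegree ≤ n) {x y a b : A} (hxa : x * a = 1) (hyb : y * b = 1)
    (h : evZ x y P = 0) :
    ∑ i ∈ Finset.range (n + 1), ∑ k ∈ Finset.range (n + 1),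
      (((P.coeff i).coeff k : ℤ) : A) * a ^ (n - k) * b ^ (n - i) = 0 := by
  have h1 := congrArg (fun z => z * (a ^ n * b ^ n)) h
  simp only [zero_mul] at h1
  rw [evZ_eq_sum P n hP hPi, Finset.sum_mul] at h1
  rw [← h1]
  refine Finset.sum_congr rfl fun i hi => ?_
  rw [Finset.sum_mul]
  refine Finset.sum_congr rfl fun k hk => ?_
  have hi' : i ≤ n := Nat.lt_succ_iff.1 (Finset.mem_range.1 hi)
  have hk' : k ≤ n := Nat.lt_succ_iff.1 (Finset.mem_range.1 hk)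
  have e1 : x ^ k * a ^ n = a ^ (n - k) := by
    obtain ⟨m, rfl⟩ := Nat.exists_eq_add_of_le hk'
    rw [Nat.add_sub_cancel_left, pow_add, ← mul_assoc, ← mul_pow, hxa, one_pow, one_mul]
  have e2 : y ^ i * b ^ n = b ^ (n - i) := by
    obtain ⟨m, rfl⟩ := Nat.exists_eq_add_of_le hi'
    rw [Nat.add_sub_cancel_left, pow_add, ← mul_assoc, ← mul_pow, hyb, one_pow, one_mul]
  calc ((((P.coeff i).coeff k : ℤ) : A)) * a ^ (n - k) * b ^ (n - i)
      = (((P.coeff i).coeff k : ℤ) : A) * (x ^ k * a ^ n) * (y ^ i * b ^ n) := by rw [e1, e2]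
    _ = (((P.coeff i).coeff k : ℤ) : A) * x ^ k * y ^ i * (a ^ n * b ^ n) := by ring

end Generic

/-! ### The relation for the modular polynomial of prime level -/

section Prime

variable (ℓ : ℕ) [hℓ : Fact ℓ.Prime]

/-- Coefficients of the modular polynomial: `p i k` is the coefficient of `X^i Y^k`. -/
noncomputable def pc (i k : ℕ) : ℤ := ((modPoly ℓ).coeff i).coeff k

theorem natDegree_modPoly_prime : (modPoly ℓ).natDegree = ℓ + 1 := by
  rw [modPoly_natDegree, dedekindPsi_prime]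

theorem natDegree_coeff_le (i : ℕ) : ((modPoly ℓ).coeff i).natDegree ≤ ℓ + 1 := by
  obtain ⟨h0, -, hi, -⟩ := modPoly_prime_shape ℓ
  rcases Nat.eq_zero_or_pos i with rfl | hpos
  · exact h0.le
  · exact (hi i hpos).trans (Nat.le_succ ℓ)

/-- The top coefficient in `X`: `p (ℓ+1) k = δ_{k,0}`. -/
theorem pc_top_left (k : ℕ) : pc ℓ (ℓ + 1) k = if k = 0 then 1 else 0 := by
  have h : (modPoly ℓ).coeff (ℓ + 1) = 1 := by
    rw [← natDegree_modPoly_prime ℓ]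
    exact (modPoly_monic ℓ).coeff_natDegree
  rw [pc, h, coeff_one]

/-- The top coefficient in `Y`: `p i (ℓ+1) = δ_{i,0}`. -/
theorem pc_top_right (i : ℕ) : pc ℓ i (ℓ + 1) = if i = 0 then 1 else 0 := by
  obtain ⟨h0, hm, hi, -⟩ := modPoly_prime_shape ℓ
  by_cases h : i = 0
  · subst h
    rw [if_pos rfl, pc, ← h0]
    exact hm.coeff_natDegree
  · rw [if_neg h, pc]
    exact coeff_eq_zero_of_natDegree_lt
      (lt_of_le_of_lt (hi i (Nat.one_le_iff_ne_zero.2 h)) (Nat.lt_succ_self ℓ))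

/-- Kronecker: `p ℓ ℓ ≡ -1` modulo `ℓ`. -/
theorem pc_mid : ∃ r₀ : ℤ, pc ℓ ℓ ℓ = -1 + ℓ * r₀ := by
  have hp : ℓ.Prime := hℓ.out
  have h := kronecker ℓ
  have h1 : (((modPoly ℓ).map (mapRingHom (Int.castRingHom (ZMod ℓ)))).coeff ℓ).coeff ℓ =
      (((X ^ ℓ - C (X : (ZMod ℓ)[X])) * (X - C ((X : (ZMod ℓ)[X]) ^ ℓ))).coeff ℓ).coeff ℓ := by
    rw [h]
  rw [coeff_map, coe_mapRingHom, coeff_map] at h1
  have hexp : (X ^ ℓ - C (X : (ZMod ℓ)[X])) * (X - C ((X : (ZMod ℓ)[X]) ^ ℓ)) =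
      X ^ (ℓ + 1) - C ((X : (ZMod ℓ)[X]) ^ ℓ) * X ^ ℓ - C (X : (ZMod ℓ)[X]) * X
        + C ((X : (ZMod ℓ)[X]) ^ (ℓ + 1)) := by
    rw [pow_succ, pow_succ (X : (ZMod ℓ)[X]) ℓ, C_mul]
    ring
  rw [hexp] at h1
  have h1ℓ : (1 : ℕ) ≠ ℓ := fun h => hp.one_lt.ne h
  have hc : (X ^ (ℓ + 1) - C ((X : (ZMod ℓ)[X]) ^ ℓ) * X ^ ℓ - C (X : (ZMod ℓ)[X]) * X
        + C ((X : (ZMod ℓ)[X]) ^ (ℓ + 1)) : (ZMod ℓ)[X][X]).coeff ℓ = -(X : (ZMod ℓ)[X]) ^ ℓ := by
    rw [coeff_add, coeff_sub, coeff_sub, coeff_X_pow, coeff_C_mul, coeff_X_pow, coeff_C_mul,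
      coeff_X, coeff_C, if_neg (Nat.lt_succ_self ℓ).ne, if_pos rfl, if_neg h1ℓ,
      if_neg hp.ne_zero]
    ring
  rw [hc, coeff_neg, coeff_X_pow, if_pos rfl] at h1
  -- `(p ℓ ℓ : ZMod ℓ) = -1`
  have h2 : ((pc ℓ ℓ ℓ + 1 : ℤ) : ZMod ℓ) = 0 := by
    push_cast
    rw [pc]
    simp only [eq_intCast] at h1
    rw [h1]
    ring
  rw [ZMod.intCast_zmod_eq_zero_iff_dvd] at h2
  obtain ⟨r₀, hr₀⟩ := h2
  exact ⟨r₀, by linarith⟩

variable {A : Type*} [CommRing A]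

/-- **The modular relation at the cusps.** -/
theorem modRel {x y a b : A} (hxa : x * a = 1) (hyb : y * b = 1)
    (h : evZ x y (modPoly ℓ) = 0) (T : Subring A) (ha : a ∈ T) (hb : b ∈ T) :
    ∃ r ∈ T, ∃ s ∈ T, ∃ t ∈ T,
      a ^ (ℓ + 1) + b ^ (ℓ + 1) = a * b * (1 + (ℓ : A) * r + a * s + b * t) := by
  have hp : ℓ.Prime := hℓ.out
  have hℓ1 : 1 ≤ ℓ := hp.one_lt.le
  have h0 := sum_rev_eq_zero (modPoly ℓ) (ℓ + 1) (natDegree_modPoly_prime ℓ).le
    (natDegree_coeff_le ℓ) hxa hyb h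
  -- notation
  set f : ℕ → ℕ → A := fun i k => ((pc ℓ i k : ℤ) : A) * a ^ (ℓ + 1 - k) * b ^ (ℓ + 1 - i) with hf
  have h0' : ∑ i ∈ Finset.range (ℓ + 1 + 1), ∑ k ∈ Finset.range (ℓ + 1 + 1), f i k = 0 := h0
  -- split off the top row and the top column
  rw [Finset.sum_range_succ] at h0'
  have hrow : ∑ k ∈ Finset.range (ℓ + 1 + 1), f (ℓ + 1) k = a ^ (ℓ + 1) := by
    rw [Finset.sum_eq_single 0]
    · simp only [hf, pc_top_left, if_pos, Nat.sub_zero, Nat.sub_self, pow_zero, mul_one]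
      simp
    · intro k _ hk
      simp only [hf, pc_top_left, if_neg hk]
      simp
    · intro h
      exact absurd (Finset.mem_range.2 (Nat.succ_pos _)) h
  have hcol : ∀ i ∈ Finset.range (ℓ + 1),
      ∑ k ∈ Finset.range (ℓ + 1 + 1), f i k =
        ∑ k ∈ Finset.range (ℓ + 1), f i k + (if i = 0 then b ^ (ℓ + 1) else 0) := by
    intro i _
    rw [Finset.sum_range_succ]
    congr 1
    simp only [hf, pc_top_right, Nat.sub_self, pow_zero, mul_one]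
    by_cases hi : i = 0
    · subst hi
      simp
    · rw [if_neg hi, if_neg hi]
      simp
  rw [hrow, Finset.sum_congr rfl hcol, Finset.sum_add_distrib] at h0'
  have hb' : ∑ i ∈ Finset.range (ℓ + 1), (if i = 0 then b ^ (ℓ + 1) else 0) = b ^ (ℓ + 1) := by
    rw [Finset.sum_ite_eq' (Finset.range (ℓ + 1)) 0 (fun _ => b ^ (ℓ + 1))]
    rw [if_pos (Finset.mem_range.2 (Nat.succ_pos _))]
  rw [hb'] at h0'
  -- the inner double sum is `a b ∑ p_{ik} a^(ℓ-k) b^(ℓ-i)`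
  set g : ℕ → ℕ → A := fun i k => ((pc ℓ i k : ℤ) : A) * a ^ (ℓ - k) * b ^ (ℓ - i) with hg
  have hinner : ∑ i ∈ Finset.range (ℓ + 1), ∑ k ∈ Finset.range (ℓ + 1), f i k =
      a * b * ∑ i ∈ Finset.range (ℓ + 1), ∑ k ∈ Finset.range (ℓ + 1), g i k := by
    rw [Finset.mul_sum]
    refine Finset.sum_congr rfl fun i hi => ?_
    rw [Finset.mul_sum]
    refine Finset.sum_congr rfl fun k hk => ?_
    have hi' : i ≤ ℓ := Nat.lt_succ_iff.1 (Finset.mem_range.1 hi)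
    have hk' : k ≤ ℓ := Nat.lt_succ_iff.1 (Finset.mem_range.1 hk)
    simp only [hf, hg]
    rw [Nat.succ_sub hk', Nat.succ_sub hi', pow_succ, pow_succ]
    ring
  rw [hinner] at h0'
  -- split the sum `S = ∑_{i,k ≤ ℓ} g i k` into `i < ℓ` (factor `b`), `i = ℓ, k < ℓ` (factor `a`), and
  -- the corner `p ℓ ℓ`
  obtain ⟨r₀, hr₀⟩ := pc_mid ℓ
  set S := ∑ i ∈ Finset.range (ℓ + 1), ∑ k ∈ Finset.range (ℓ + 1), g i k with hS
  have hSsplit : S = b * (∑ i ∈ Finset.range ℓ, ∑ k ∈ Finset.range (ℓ + 1),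
        ((pc ℓ i k : ℤ) : A) * a ^ (ℓ - k) * b ^ (ℓ - i - 1))
      + a * (∑ k ∈ Finset.range ℓ, ((pc ℓ ℓ k : ℤ) : A) * a ^ (ℓ - k - 1))
      + ((-1 + (ℓ : ℤ) * r₀ : ℤ) : A) := by
    rw [hS, Finset.sum_range_succ, Finset.sum_range_succ (fun k => g ℓ k)]
    have e1 : ∑ i ∈ Finset.range ℓ, ∑ k ∈ Finset.range (ℓ + 1), g i k =
        b * (∑ i ∈ Finset.range ℓ, ∑ k ∈ Finset.range (ℓ + 1),
          ((pc ℓ i k : ℤ) : A) * a ^ (ℓ - k) * b ^ (ℓ - i - 1)) := by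
      rw [Finset.mul_sum]
      refine Finset.sum_congr rfl fun i hi => ?_
      rw [Finset.mul_sum]
      refine Finset.sum_congr rfl fun k _ => ?_
      have hi' : i < ℓ := Finset.mem_range.1 hi
      simp only [hg]
      have : ℓ - i = (ℓ - i - 1) + 1 := by omega
      rw [this, pow_succ]
      simp only [Nat.add_sub_cancel]
      ring
    have e2 : ∑ k ∈ Finset.range ℓ, g ℓ k =
        a * (∑ k ∈ Finset.range ℓ, ((pc ℓ ℓ k : ℤ) : A) * a ^ (ℓ - k - 1)) := by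
      rw [Finset.mul_sum]
      refine Finset.sum_congr rfl fun k hk => ?_
      have hk' : k < ℓ := Finset.mem_range.1 hk
      simp only [hg, Nat.sub_self, pow_zero, mul_one]
      have : ℓ - k = (ℓ - k - 1) + 1 := by omega
      rw [this, pow_succ]
      simp only [Nat.add_sub_cancel]
      ring
    have e3 : g ℓ ℓ = ((-1 + (ℓ : ℤ) * r₀ : ℤ) : A) := by
      simp only [hg, Nat.sub_self, pow_zero, mul_one, hr₀]
    rw [e1, e2, e3]
    ring
  set s' : A := ∑ k ∈ Finset.range ℓ, ((pc ℓ ℓ k : ℤ) : A) * a ^ (ℓ - k - 1) with hs'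
  set t' : A := ∑ i ∈ Finset.range ℓ, ∑ k ∈ Finset.range (ℓ + 1),
        ((pc ℓ i k : ℤ) : A) * a ^ (ℓ - k) * b ^ (ℓ - i - 1) with ht'
  have hs'T : s' ∈ T := by
    refine T.sum_mem fun k _ => ?_
    exact T.mul_mem (intCast_mem T _) (T.pow_mem ha _)
  have ht'T : t' ∈ T := by
    refine T.sum_mem fun i _ => T.sum_mem fun k _ => ?_
    exact T.mul_mem (T.mul_mem (intCast_mem T _) (T.pow_mem ha _)) (T.pow_mem hb _)
  refine ⟨-(r₀ : A), T.neg_mem (intCast_mem T r₀), -s', T.neg_mem hs'T, -t', T.neg_mem ht'T, ?_⟩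
  rw [hSsplit] at h0'
  push_cast at h0'
  linear_combination h0'

end Prime

end Fermat.Agent.S36.Cusp.ModRel
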