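/-
S36, block [CUSP] (helper17), part 4: **`CuspData` from the modular equations.**

`F` a field, `B` a local subring integrally closed in `F` with `q ∈ 𝔪_B` (`q` prime), `j, j', j'' ∈ Fˣ`
with `Φ_q(j, j') = 0 = Φ_q(j', j'')` and `1/j ∈ 𝔪_B` (a cusp point).  Then `1/j', 1/j'' ∈ 𝔪_B`
(valuative criterion: `j'` is integral over `ℤ[j]` and conversely) and the two modular relations hold
with unit cofactors: `cuspData_of_modular : CuspData B q j⁻¹ j'⁻¹ j''⁻¹`.
-/
import Mathlib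
import Fermat.Agent.S36.Cusp.Dichotomy
import Fermat.Agent.S36.Cusp.ModRel

set_option autoImplicit false
set_option linter.unusedSectionVars false
set_option linter.unusedVariables false

open Polynomial

namespace Fermat.Agent.S36.Cusp.Package

open Fermat.Agent.N4.Kronecker Fermat.Agent.N4.ModPolyDescent Fermat.Agent.N4.ModPolyShape
open Fermat.Agent.S36.Cusp.Dichotomy Fermat.Agent.S36.Cusp.ModRel

variable {F : Type*} [Field F]

/-- If `P ∈ ℤ[Y][X]` is monic in `X` and `P(x, y) = 0`, then `y` lies in every valuation ring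
containing `x`. -/
theorem mem_of_evZ_eq_zero (V : ValuationSubring F) {P : ℤ[X][X]} (hP : P.Monic) {x y : F}
    (h : evZ x y P = 0) (hx : x ∈ V) : y ∈ V := by
  -- the polynomial `P(x, ·)` over `V`
  let φ : ℤ[X] →+* V := eval₂RingHom (Int.castRingHom V) ⟨x, hx⟩
  have hint : IsIntegral V y := by
    refine ⟨P.map φ, hP.map φ, ?_⟩
    rw [eval₂_map]
    have hcomp : (algebraMap V F).comp φ = eval₂RingHom (Int.castRingHom F) x := by
      refine Polynomial.ringHom_ext' (RingHom.ext_int _ _) ?_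
      simp only [φ, RingHom.comp_apply, coe_eval₂RingHom, eval₂_X]
      rfl
    rw [hcomp]
    exact h
  obtain ⟨z, hz⟩ := IsIntegrallyClosed.isIntegral_iff.1 hint
  rw [← hz]
  exact z.2

variable (q : ℕ) [hq : Fact q.Prime]

/-- The swapped modular equation. -/
theorem evZ_modPoly_comm {x y : F} (h : evZ x y (modPoly q) = 0) : evZ y x (modPoly q) = 0 := by
  rw [← evZ_swap, swap_modPoly_of_one_lt q hq.out.one_lt]
  exact h

/-- In a valuation ring, `1/j` is a non-unit iff `1/j'` is. -/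
theorem valuation_inv_lt_one (V : ValuationSubring F) {j j' : F} (hj0 : j ≠ 0) (hj'0 : j' ≠ 0)
    (h : evZ j j' (modPoly q) = 0) (ha : V.valuation j⁻¹ < 1) : V.valuation j'⁻¹ < 1 := by
  by_contra hcon
  rw [not_lt, map_inv₀, one_le_inv₀ (zero_lt_iff.2 ((Valuation.ne_zero_iff _).2 hj'0))] at hcon
  have hj' : j' ∈ V := (V.valuation_le_one_iff j').1 hcon
  have hj : j ∈ V := mem_of_evZ_eq_zero V (modPoly_monic q) (evZ_modPoly_comm q h) hj'
  have h1 : V.valuation j ≤ 1 := (V.valuation_le_one_iff j).2 hj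
  rw [map_inv₀, inv_lt_one₀ (zero_lt_iff.2 ((Valuation.ne_zero_iff _).2 hj0))] at ha
  exact absurd h1 (not_le.2 ha)

variable {B : LocalSubring F} [IsIntegrallyClosedIn B.toSubring F]

/-- At a cusp point, `1/j'` lies in the maximal ideal as soon as `1/j` does. -/
theorem inMax_inv_of_inMax_inv {j j' : F} (hj0 : j ≠ 0) (hj'0 : j' ≠ 0)
    (h : evZ j j' (modPoly q) = 0) (ha : InMax B j⁻¹) : InMax B j'⁻¹ :=
  inMax_of_forall_dominating fun V hV =>
    valuation_inv_lt_one q V hj0 hj'0 h (valuation_lt_one_of_inMax hV ha)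

/-- One modular relation with a unit cofactor. -/
theorem exists_rel {j j' : F} (hj0 : j ≠ 0) (hj'0 : j' ≠ 0) (h : evZ j j' (modPoly q) = 0)
    (hqB : InMax B (q : F)) (ha : InMax B j⁻¹) (hb : InMax B j'⁻¹) :
    ∃ U : F, IsUnitIn B U ∧ j⁻¹ ^ (q + 1) + j'⁻¹ ^ (q + 1) = j⁻¹ * j'⁻¹ * U := by
  obtain ⟨r, hr, s, hs, t, ht, hrel⟩ := modRel q (mul_inv_cancel₀ hj0) (mul_inv_cancel₀ hj'0) h
    B.toSubring ha.mem hb.mem
  refine ⟨_, ?_, hrel⟩
  apply isUnitIn_of_sub_one_inMax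
  have : (1 + (q : F) * r + j⁻¹ * s + j'⁻¹ * t) - 1 = (q : F) * r + j⁻¹ * s + j'⁻¹ * t := by ring
  rw [this]
  exact ((hqB.mul_mem hr).add (ha.mul_mem hs)).add (hb.mul_mem ht)

/-- **`CuspData` at a cusp point from the two modular equations.** -/
theorem cuspData_of_modular {j j' j'' : F} (hj0 : j ≠ 0) (hj'0 : j' ≠ 0) (hj''0 : j'' ≠ 0)
    (h₁ : evZ j j' (modPoly q) = 0) (h₂ : evZ j' j'' (modPoly q) = 0)
    (hqB : InMax B (q : F)) (ha : InMax B j⁻¹) : CuspData B q j⁻¹ j'⁻¹ j''⁻¹ := by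
  have hb : InMax B j'⁻¹ := inMax_inv_of_inMax_inv q hj0 hj'0 h₁ ha
  have hc : InMax B j''⁻¹ := inMax_inv_of_inMax_inv q hj'0 hj''0 h₂ hb
  exact
    { hq := hq.out.two_le
      ha := ha
      hb := hb
      hc := hc
      ha0 := inv_ne_zero hj0
      hb0 := inv_ne_zero hj'0
      hc0 := inv_ne_zero hj''0
      rel₁ := exists_rel q hj0 hj'0 h₁ hqB ha hb
      rel₂ := exists_rel q hj'0 hj''0 h₂ hqB hb hc }

end Fermat.Agent.S36.Cusp.Package
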