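/-
S36, block [CUSP] (helper17), part 2 — Mathlib only (+ part 1).

**From a uniformiser candidate to regularity at a closed point lying on ONE vertical component.**

`B` a local subring of a field `F` (the local ring `R_x` of a chart at a closed point `x` of the special
fibre), `V ⊇ B` a valuation ring with centre in `𝔪_B` (the only vertical component through `x`),
`p ∈ B` (the residue characteristic).

* `Sat B V p` : local saturation `B[1/p] ∩ V = B` (one step: `y ∈ V`, `p y ∈ B ⇒ y ∈ B`);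
  `sat_pow` (any power of `p`); `sat_of_global` : it follows from the GLOBAL saturation of the chart `R`
  with respect to `V ⊓ V' ⊓ V''` as soon as some `g ∈ R`, a unit at `x`, is small on `V'` and `V''`
  (the other two components do not pass through `x`);
* `isUnitIn_of_residue_inv` : `w ∈ B` is a unit of `B` as soon as its residue on `V` has an inverse coming
  from `B`;
* `div_mem_of_pow_eq` : **(principal generator)** if `ϖ ∈ B` generates `𝔪_V`, `ϖ ^ n = p w` with
  `w ∈ Bˣ`, `1 ≤ n`, and `Sat B V p`, then `B ∩ 𝔪_V = ϖ B`;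
* `div_mem_of_unif` : the reduced case (`p` itself generates `𝔪_V`): `B ∩ 𝔪_V = p B`;
* `exists_eq_add_of_span` : with `s ∈ 𝔪_B` generating `𝔪_B` modulo `𝔪_V`: `𝔪_B = (ϖ, s)`: `B` is regular.
-/
import Mathlib
import Fermat.Agent.S36.Cusp.Dichotomy

set_option autoImplicit false
set_option linter.unusedSectionVars false
set_option linter.unusedVariables false

namespace Fermat.Agent.S36.Cusp.Principal

open Fermat.Agent.S36.Cusp.Dichotomy

variable {F : Type*} [Field F] {B : LocalSubring F} {V : ValuationSubring F}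

/-- Local saturation: `y ∈ V` and `p y ∈ B` imply `y ∈ B`. -/
def Sat (B : LocalSubring F) (V : ValuationSubring F) (p : F) : Prop :=
  ∀ y : F, V.valuation y ≤ 1 → p * y ∈ B.toSubring → y ∈ B.toSubring

theorem sat_pow {p : F} (h : Sat B V p) (hpV : V.valuation p ≤ 1) (k : ℕ) {y : F}
    (hy : V.valuation y ≤ 1) (hk : p ^ k * y ∈ B.toSubring) : y ∈ B.toSubring := by
  induction k generalizing y with
  | zero => simpa using hk
  | succ k ih =>
    apply h y hy
    apply ih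
    · rw [map_mul]
      exact mul_le_one' hpV hy
    · rw [← mul_assoc, ← pow_succ]
      exact hk

/-- **Local saturation from the global saturation of the chart `R`** (`B` a localisation of `R`):
if `g ∈ R` is a unit of `B` and is small on the other two components `V'`, `V''` (which are of rank
one: every element is killed into them by a power of `g`), then `B[1/p] ∩ V = B`. -/
theorem sat_of_global {R : Subring F} (hRB : R ≤ B.toSubring)
    (hfrac : ∀ y ∈ B.toSubring, ∃ s ∈ R, IsUnitIn B s ∧ s * y ∈ R)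
    {V' V'' : ValuationSubring F} (hRV : R ≤ V.toSubring) (hRV' : R ≤ V'.toSubring)
    (hRV'' : R ≤ V''.toSubring) {p : F}
    (hglob : ∀ y : F, V.valuation y ≤ 1 → V'.valuation y ≤ 1 → V''.valuation y ≤ 1 →
      p * y ∈ R → y ∈ R)
    {g : F} (hgR : g ∈ R) (hgB : IsUnitIn B g)
    (hg' : ∀ y : F, ∃ N : ℕ, V'.valuation (g ^ N * y) ≤ 1)
    (hg'' : ∀ y : F, ∃ N : ℕ, V''.valuation (g ^ N * y) ≤ 1) :
    Sat B V p := by
  intro y hy hpy
  obtain ⟨s, hsR, hsB, hs⟩ := hfrac _ hpy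
  obtain ⟨N', hN'⟩ := hg' y
  obtain ⟨N'', hN''⟩ := hg'' y
  have hgV : V.valuation g ≤ 1 := (V.valuation_le_one_iff g).2 (hRV hgR)
  have hgV' : V'.valuation g ≤ 1 := (V'.valuation_le_one_iff g).2 (hRV' hgR)
  have hgV'' : V''.valuation g ≤ 1 := (V''.valuation_le_one_iff g).2 (hRV'' hgR)
  have hsV : V.valuation s ≤ 1 := (V.valuation_le_one_iff s).2 (hRV hsR)
  have hsV' : V'.valuation s ≤ 1 := (V'.valuation_le_one_iff s).2 (hRV' hsR)
  have hsV'' : V''.valuation s ≤ 1 := (V''.valuation_le_one_iff s).2 (hRV'' hsR)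
  set N := N' + N'' with hN
  set z := s * (g ^ N * y) with hz
  have h1 : V.valuation z ≤ 1 := by
    rw [hz, map_mul, map_mul, map_pow]
    exact mul_le_one' hsV (mul_le_one' (pow_le_one' hgV _) hy)
  have h2 : V'.valuation z ≤ 1 := by
    have : z = s * (g ^ N'' * (g ^ N' * y)) := by rw [hz, hN, pow_add]; ring
    rw [this, map_mul, map_mul, map_pow]
    exact mul_le_one' hsV' (mul_le_one' (pow_le_one' hgV' _) hN')
  have h3 : V''.valuation z ≤ 1 := by
    have : z = s * (g ^ N' * (g ^ N'' * y)) := by rw [hz, hN, pow_add]; ring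
    rw [this, map_mul, map_mul, map_pow]
    exact mul_le_one' hsV'' (mul_le_one' (pow_le_one' hgV'' _) hN'')
  have h4 : p * z ∈ R := by
    have : p * z = g ^ N * (s * (p * y)) := by rw [hz]; ring
    rw [this]
    exact R.mul_mem (R.pow_mem hgR _) hs
  have hzR : z ∈ R := hglob z h1 h2 h3 h4
  -- `y = z / (s g^N)` with `s g^N ∈ Bˣ`
  obtain ⟨hsB', hsu⟩ := hsB
  obtain ⟨hgB', hgu⟩ := hgB
  have hu : IsUnit ((⟨s, hsB'⟩ : B.toSubring) * (⟨g, hgB'⟩ : B.toSubring) ^ N) :=
    hsu.mul (hgu.pow N)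
  obtain ⟨u, hu'⟩ := hu
  have hcoe : ((u : B.toSubring) : F) = s * g ^ N := by rw [hu']; rfl
  have hy' : y = (((u⁻¹ : (B.toSubring)ˣ) : B.toSubring) : F) * z := by
    have h5 : ((((u⁻¹ : (B.toSubring)ˣ) : B.toSubring) : F)) * (s * g ^ N) = 1 := by
      rw [← hcoe]
      have h6 : (((u⁻¹ : (B.toSubring)ˣ) : B.toSubring) * (u : B.toSubring) : B.toSubring) = 1 :=
        Units.inv_mul u
      have h7 := congrArg (Subtype.val) h6
      rwa [Subring.coe_mul, Subring.coe_one] at h7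
    have : z = (s * g ^ N) * y := by rw [hz]; ring
    rw [this, ← mul_assoc, h5, one_mul]
  rw [hy']
  exact B.toSubring.mul_mem (SetLike.coe_mem _) (hRB hzR)

/-- `w ∈ B` is a unit of `B` as soon as its residue on `V` has an inverse coming from `B`. -/
theorem isUnitIn_of_residue_inv (hV : Centre B V) {w w' : F} (hw : w ∈ B.toSubring)
    (hw' : w' ∈ B.toSubring) (h : V.valuation (w * w' - 1) < 1) : IsUnitIn B w := by
  have h1 : InMax B (w * w' - 1) :=
    hV.centre _ (B.toSubring.sub_mem (B.toSubring.mul_mem hw hw') B.toSubring.one_mem) h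
  obtain ⟨hmem, hu⟩ := isUnitIn_of_sub_one_inMax h1
  refine ⟨hw, ?_⟩
  have : (⟨w * w', hmem⟩ : B.toSubring) = ⟨w, hw⟩ * ⟨w', hw'⟩ := rfl
  rw [this] at hu
  exact isUnit_of_mul_isUnit_left hu

/-- The inverse of a unit of `B` lies in `B`. -/
theorem inv_mem_of_isUnitIn {w : F} (hw : IsUnitIn B w) : w⁻¹ ∈ B.toSubring := by
  obtain ⟨hmem, hu⟩ := hw
  obtain ⟨u, hu'⟩ := hu
  have h1 : ((u : B.toSubring) : F) = w := by rw [hu']
  have h2 : (((u⁻¹ : (B.toSubring)ˣ) : B.toSubring) : F) * w = 1 := by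
    rw [← h1]
    have h6 : (((u⁻¹ : (B.toSubring)ˣ) : B.toSubring) * (u : B.toSubring) : B.toSubring) = 1 :=
      Units.inv_mul u
    have h7 := congrArg (Subtype.val) h6
    rwa [Subring.coe_mul, Subring.coe_one] at h7
  have hw0 : w ≠ 0 := by
    rintro rfl
    rw [mul_zero] at h2
    exact zero_ne_one h2
  have : w⁻¹ = (((u⁻¹ : (B.toSubring)ˣ) : B.toSubring) : F) := by
    rw [eq_comm, ← mul_eq_one_iff_eq_inv₀ hw0]
    exact h2
  rw [this]
  exact SetLike.coe_mem _

/-- **Principal generator.**  If `ϖ ∈ B` generates `𝔪_V`, `ϖ ^ n = p w` with `w ∈ Bˣ`, `1 ≤ n`, and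
`B[1/p] ∩ V = B`, then every element of `B ∩ 𝔪_V` is divisible by `ϖ` in `B`. -/
theorem div_mem_of_pow_eq {p ϖ w : F} (hϖ : ϖ ∈ B.toSubring)
    (hϖV : ∀ y : F, V.valuation y < 1 → V.valuation (y / ϖ) ≤ 1) {n : ℕ} (hn : 1 ≤ n)
    (hw : IsUnitIn B w) (hpow : ϖ ^ n = p * w) (hp0 : p ≠ 0) (hsat : Sat B V p) {y : F}
    (hy : y ∈ B.toSubring) (hyV : V.valuation y < 1) : y / ϖ ∈ B.toSubring := by
  apply hsat _ (hϖV y hyV)
  have hw0 : w ≠ 0 := by
    rintro rfl
    obtain ⟨hm, hu⟩ := hw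
    have h0 : (⟨0, hm⟩ : B.toSubring) = 0 := rfl
    rw [h0] at hu
    exact not_isUnit_zero hu
  have hϖ0 : ϖ ≠ 0 := by
    rintro rfl
    rw [zero_pow (by omega)] at hpow
    exact (mul_ne_zero hp0 hw0) hpow.symm
  have hp : p = ϖ ^ n * w⁻¹ := by
    rw [hpow, mul_assoc, mul_inv_cancel₀ hw0, mul_one]
  have : p * (y / ϖ) = y * ϖ ^ (n - 1) * w⁻¹ := by
    rw [hp]
    obtain ⟨m, rfl⟩ := Nat.exists_eq_add_of_le hn
    rw [Nat.add_sub_cancel_left, pow_add, pow_one]
    field_simp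
  rw [this]
  exact B.toSubring.mul_mem (B.toSubring.mul_mem hy (B.toSubring.pow_mem hϖ _)) (inv_mem_of_isUnitIn hw)

/-- The reduced case: if `p` itself generates `𝔪_V` and `B[1/p] ∩ V = B`, then `B ∩ 𝔪_V = p B`. -/
theorem div_mem_of_unif {p : F} (hpV : ∀ y : F, V.valuation y < 1 → V.valuation (y / p) ≤ 1)
    (hp0 : p ≠ 0) (hsat : Sat B V p) {y : F} (hy : y ∈ B.toSubring) (hyV : V.valuation y < 1) :
    y / p ∈ B.toSubring := by
  apply hsat _ (hpV y hyV)
  rw [mul_div_cancel₀ _ hp0]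
  exact hy

/-- **Regularity**: if `B ∩ 𝔪_V = ϖ B` and `s` generates `𝔪_B` modulo `𝔪_V`, then `𝔪_B = (ϖ, s)`. -/
theorem exists_eq_add_of_span {ϖ s : F} (hϖ0 : ϖ ≠ 0)
    (hdiv : ∀ y ∈ B.toSubring, V.valuation y < 1 → y / ϖ ∈ B.toSubring)
    (hs : s ∈ B.toSubring)
    (hgen : ∀ y : F, InMax B y → ∃ z ∈ B.toSubring, V.valuation (y - s * z) < 1)
    {y : F} (hy : InMax B y) :
    ∃ z₁ ∈ B.toSubring, ∃ z₂ ∈ B.toSubring, y = ϖ * z₁ + s * z₂ := by
  obtain ⟨z, hz, hval⟩ := hgen y hy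
  have hmem : y - s * z ∈ B.toSubring := B.toSubring.sub_mem hy.mem (B.toSubring.mul_mem hs hz)
  refine ⟨(y - s * z) / ϖ, hdiv _ hmem hval, z, hz, ?_⟩
  rw [mul_div_cancel₀ _ hϖ0]
  ring

end Fermat.Agent.S36.Cusp.Principal
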