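/-
S36, block [CUSP] (helper17), part 5: **the cusp points of the middle component `C₁₁` are regular**
(abstract final form, in the vocabulary `locAt 𝔫` / `vCentre` / `LocalRoot.centre` of blocks [ONE], [L]).

`R` a chart (noetherian integrally closed domain, `Frac R = F`; in the application the chart at infinity
`chartAlg O F₂ {1/j}` of level `q² M₀'`), `V 0 = V₂₀`, `V 1 = V₁₁`, `V 2 = V₀₂` the three vertical valuation
rings, `ϖ ∈ R` with `ϖ = q` in `F`, saturation `hsat` / `hpow` exactly as in `One/OneBranch`,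
`j, j', j'' ∈ Fˣ` with `Φ_q(j, j') = 0 = Φ_q(j', j'')`, `a ∈ R` the coordinate `1/j`, and the residue
relations `j'' ≡ j^(q²)` on `V₂₀`, `j'' ≡ j` on `V₁₁`, `j ≡ j''^(q²)` on `V₀₂` (in the inverted form).

* `locSub 𝔫` : `R_𝔫 ⊆ F` as a Mathlib `LocalSubring` (bridge to `Cusp/Dichotomy`);
* `cuspData_at` : the `CuspData` at a cusp point `𝔫 ∋ ϖ, a`;
* `cusp_only` : **at a cusp point at most one of the three components passes** (the hypothesis `honly` of
  `One/OneBranch.one_branch` for the cusp points of `C₂₀`, `C₀₂`);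
* `sat_at` : local saturation at a point on one (possibly non-reduced) branch;
* **`cusp_branch`** : at a cusp point of `C₁₁`, if `x^(q-1)/q ∈ V₁₁` for `x ∈ 𝔪_{V₁₁}` (`e ≤ q - 1`) and the
  residue of `w = (1 - j/j'')^(q-1)/q` on `V₁₁` is `- T/S` with `S, T ∈ R ∖ 𝔫`, then `τ = 1 - j/j''` is a
  prime element of `R_𝔫` generating the centre of `V₁₁`, `R_𝔫` is factorial and `R_𝔫 ⧸ centre` is a
  principal ideal ring: the conclusion of `One/OneBranch.one_branch`, i.e. (I-R)(R-a) + (R-b) of block [L].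
-/
import Mathlib
import Fermat.Agent.S36.Cusp.Package
import Fermat.Agent.S36.Cusp.Principal
import Fermat.Agent.S36.One.OneBranch

set_option autoImplicit false
set_option linter.unusedSectionVars false
set_option linter.unusedVariables false
set_option linter.style.haveILetI false

namespace Fermat.Agent.S36.Cusp.Regular

open Fermat.Agent.N4.Cover.Globalize Fermat.Agent.P3G.Krull
open Fermat.Agent.N4.Kronecker Fermat.Agent.N4.ModPolyDescent Fermat.Agent.N4.ModPolyShape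
open Fermat.Agent.S36.Cusp.Dichotomy Fermat.Agent.S36.Cusp.Principal Fermat.Agent.S36.Cusp.Package
open Fermat.Agent.S36.One.OneBranch Fermat.Agent.S36.Local.LocalRoot

/-! ### The bridge `locAt 𝔫` ↔ `LocalSubring` -/

section Bridge

variable {R F : Type*} [CommRing R] [IsDomain R] [IsNoetherianRing R] [Field F] [Algebra R F]
  [IsFractionRing R F] (𝔫 : Ideal R) [h𝔫 : 𝔫.IsPrime]

/-- `R_𝔫 ⊆ F` as a `LocalSubring`. -/
noncomputable def locSub : LocalSubring F :=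
  @LocalSubring.mk F _ (locAt (F := F) 𝔫).toSubring (isLocalRing_locAt 𝔫)

theorem mem_locSub_iff {x : F} : x ∈ (locSub (F := F) 𝔫).toSubring ↔ x ∈ locAt (F := F) 𝔫 := Iff.rfl

theorem inMax_locSub_iff {x : F} :
    InMax (locSub (F := F) 𝔫) x ↔
      ∃ p s : R, p ∈ 𝔫 ∧ s ∉ 𝔫 ∧ x * algebraMap R F s = algebraMap R F p := by
  haveI hloc : IsLocalRing (locAt (F := F) 𝔫) := isLocalRing_locAt 𝔫
  constructor
  · rintro ⟨hx, hnu⟩
    have hx' : x ∈ locAt (F := F) 𝔫 := hx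
    have hm : (⟨x, hx'⟩ : locAt (F := F) 𝔫) ∈ IsLocalRing.maximalIdeal (locAt (F := F) 𝔫) := by
      rw [IsLocalRing.mem_maximalIdeal, mem_nonunits_iff]
      exact hnu
    exact (mem_maximalIdeal_locAt_iff 𝔫 hloc ⟨x, hx'⟩).1 hm
  · rintro ⟨p, s, hp, hs, h⟩
    have hx' : x ∈ locAt (F := F) 𝔫 := (mem_locAt_iff 𝔫 x).2 ⟨p, s, hs, h⟩
    refine ⟨hx', ?_⟩
    have hm : (⟨x, hx'⟩ : locAt (F := F) 𝔫) ∈ IsLocalRing.maximalIdeal (locAt (F := F) 𝔫) :=
      (mem_maximalIdeal_locAt_iff 𝔫 hloc ⟨x, hx'⟩).2 ⟨p, s, hp, hs, h⟩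
    rw [IsLocalRing.mem_maximalIdeal, mem_nonunits_iff] at hm
    exact hm

theorem inMax_of_mem {r : R} (hr : r ∈ 𝔫) : InMax (locSub (F := F) 𝔫) (algebraMap R F r) :=
  (inMax_locSub_iff 𝔫).2 ⟨r, 1, hr, fun h => h𝔫.ne_top ((Ideal.eq_top_iff_one _).2 h), by
    rw [map_one, mul_one]⟩

theorem mem_of_inMax {r : R} (h : InMax (locSub (F := F) 𝔫) (algebraMap R F r)) : r ∈ 𝔫 := by
  obtain ⟨p, s, hp, hs, h⟩ := (inMax_locSub_iff 𝔫).1 h
  rw [← map_mul] at h
  have h' : r * s = p := IsFractionRing.injective R F h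
  have : r * s ∈ 𝔫 := h' ▸ hp
  exact (h𝔫.mem_or_mem this).resolve_right hs

theorem isUnitIn_of_notMem {r : R} (hr : r ∉ 𝔫) : IsUnitIn (locSub (F := F) 𝔫) (algebraMap R F r) := by
  have hmem : algebraMap R F r ∈ (locSub (F := F) 𝔫).toSubring := algebraMap_mem_locAt 𝔫 r
  rcases inMax_or_isUnitIn hmem with h | h
  · exact absurd (mem_of_inMax 𝔫 h) hr
  · exact h

/-- A valuation ring `W ⊇ R` whose centre lies in `𝔫` is centred at the closed point of `R_𝔫`. -/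
theorem centre_locSub (W : ValuationSubring F) (hW : ∀ r : R, algebraMap R F r ∈ W)
    (hle : vCentre W hW ≤ 𝔫) : Centre (locSub (F := F) 𝔫) W where
  le := fun x hx => mem_of_mem_locAt W hW 𝔫 hle ⟨x, hx⟩
  centre := by
    intro x hx hval
    have hx' : x ∈ locAt (F := F) 𝔫 := hx
    obtain ⟨p, s, hs, h⟩ := (mem_locAt_iff 𝔫 x).1 hx'
    refine (inMax_locSub_iff 𝔫).2 ⟨p, s, ?_, hs, h⟩
    apply hle
    rw [mem_vCentre_iff, ← h, ValuationSubring.mem_nonunits_iff, map_mul]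
    have h2 : W.valuation (algebraMap R F s) ≤ 1 := (W.valuation_le_one_iff _).2 (hW s)
    calc W.valuation x * W.valuation (algebraMap R F s) ≤ W.valuation x * 1 := by gcongr
      _ = W.valuation x := mul_one _
      _ < 1 := hval

/-- Conversely, a valuation ring centred at the closed point of `R_𝔫` has its centre in `𝔫`. -/
theorem vCentre_le_of_centre (W : ValuationSubring F) (hW : ∀ r : R, algebraMap R F r ∈ W)
    (h : Centre (locSub (F := F) 𝔫) W) : vCentre W hW ≤ 𝔫 := by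
  intro r hr
  rw [mem_vCentre_iff, ValuationSubring.mem_nonunits_iff] at hr
  exact mem_of_inMax 𝔫 (h.centre _ (algebraMap_mem_locAt 𝔫 r) hr)

theorem isIntegrallyClosedIn_locSub [IsIntegrallyClosed R] :
    IsIntegrallyClosedIn (locSub (F := F) 𝔫).toSubring F := by
  haveI : IsIntegrallyClosed (locAt (F := F) 𝔫) :=
    isIntegrallyClosed_of_isLocalization _ 𝔫.primeCompl 𝔫.primeCompl_le_nonZeroDivisors
  haveI : IsFractionRing (locAt (F := F) 𝔫) F :=
    IsFractionRing.isFractionRing_of_isDomain_of_isLocalization 𝔫.primeCompl (locAt (F := F) 𝔫) F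
  have h : IsIntegrallyClosedIn (locAt (F := F) 𝔫) F :=
    (isIntegrallyClosed_iff_isIntegrallyClosedIn F).1 inferInstance
  exact h

end Bridge

/-! ### Local saturation at a point on one (possibly non-reduced) branch -/

section Saturation

variable {R F : Type*} [CommRing R] [IsDomain R] [IsNoetherianRing R] [Field F] [Algebra R F]
  [IsFractionRing R F]
variable {ι : Type*} [Finite ι] (V : ι → ValuationSubring F)
  (hV : ∀ i (r : R), algebraMap R F r ∈ V i) (ϖ : R)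
  (hsat : ∀ r : R, (∀ i, algebraMap R F r * (algebraMap R F ϖ)⁻¹ ∈ V i) → ϖ ∣ r)
  (E : ℕ) (hpow : ∀ i (x : F), x ∈ (V i).nonunits → x ^ E * (algebraMap R F ϖ)⁻¹ ∈ V i)
  (𝔫 : Ideal R) [h𝔫 : 𝔫.IsPrime] (i₀ : ι)
  (honly : ∀ i, vCentre (V i) (hV i) ≤ 𝔫 → i = i₀)

include hsat hpow honly in
/-- **Saturation at a point on one branch** (no hypothesis on the ramification of the branch): if
`y ∈ V i₀` and `ϖ y ∈ R_𝔫` then `y ∈ R_𝔫`. -/
theorem sat_at {y : F} (hy : y ∈ V i₀) (hϖy : algebraMap R F ϖ * y ∈ locAt (F := F) 𝔫) :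
    y ∈ locAt (F := F) 𝔫 := by
  classical
  haveI := Fintype.ofFinite ι
  have hϖ0 : ϖ ≠ 0 := by
    rintro rfl
    have h := hsat 1 (fun i => by rw [map_zero, inv_zero, mul_zero]; exact (V i).zero_mem)
    exact one_ne_zero (zero_dvd_iff.1 h)
  have hϖF : algebraMap R F ϖ ≠ 0 := algebraMap_ne_zero hϖ0
  obtain ⟨r, s, hs, hrs⟩ := (mem_locAt_iff 𝔫 _).1 hϖy
  -- an element outside `𝔫` lying in the centre of every `V i`, `i ≠ i₀`
  have hex : ∀ i, ∃ c : R, c ∉ 𝔫 ∧ (i ≠ i₀ → c ∈ vCentre (V i) (hV i)) := by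
    intro i
    by_cases hi : vCentre (V i) (hV i) ≤ 𝔫
    · exact ⟨1, fun h => h𝔫.ne_top ((Ideal.eq_top_iff_one _).2 h), fun h => absurd (honly i hi) h⟩
    · obtain ⟨c, hc, hcn⟩ := Set.not_subset.1 hi
      exact ⟨c, hcn, fun _ => hc⟩
  choose c hc hc' using hex
  set C : R := ∏ i, c i ^ E with hC
  have hCn : C ∉ 𝔫 := by
    intro h
    obtain ⟨i, -, hi⟩ := (Ideal.IsPrime.prod_mem_iff (hp := h𝔫)).1 h
    exact hc i (h𝔫.mem_of_pow_mem E hi)
  have hmem : ∀ i, algebraMap R F (C * r) * (algebraMap R F ϖ)⁻¹ ∈ V i := by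
    intro i
    by_cases hi : i = i₀
    · subst hi
      have : algebraMap R F (C * r) * (algebraMap R F ϖ)⁻¹ =
          algebraMap R F C * algebraMap R F s * y := by
        rw [map_mul, ← hrs]
        field_simp
      rw [this]
      exact mul_mem (mul_mem (hV i C) (hV i s)) hy
    · have h1 := hpow i _ ((mem_vCentre_iff (V i) (hV i)).1 (hc' i hi))
      have hCe : C = c i ^ E * ∏ k ∈ Finset.univ.erase i, c k ^ E := by
        rw [hC, ← Finset.mul_prod_erase Finset.univ (fun k => c k ^ E) (Finset.mem_univ i)]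
      have : algebraMap R F (C * r) * (algebraMap R F ϖ)⁻¹ =
          (algebraMap R F (c i) ^ E * (algebraMap R F ϖ)⁻¹) *
            algebraMap R F ((∏ k ∈ Finset.univ.erase i, c k ^ E) * r) := by
        rw [hCe, map_mul, map_mul, map_mul, map_pow]; ring
      rw [this]
      exact mul_mem h1 (hV i _)
  obtain ⟨b, hb⟩ := hsat _ hmem
  have hCs : C * s ∉ 𝔫 := fun h => (h𝔫.mem_or_mem h).elim hCn hs
  have hCs0 := algebraMap_ne_zero_of_notMem (F := F) 𝔫 hCs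
  have hy' : y = algebraMap R F b / algebraMap R F (C * s) := by
    rw [eq_div_iff hCs0]
    apply mul_left_cancel₀ hϖF
    have h1 : algebraMap R F ϖ * (y * algebraMap R F (C * s)) =
        algebraMap R F C * (algebraMap R F ϖ * y * algebraMap R F s) := by
      rw [map_mul]; ring
    rw [h1, hrs, ← map_mul, ← map_mul, hb]
  rw [hy']
  exact div_mem_locAt 𝔫 b hCs

end Saturation

/-! ### The cusp points -/

section Cusp

variable {R F : Type*} [CommRing R] [IsDomain R] [IsNoetherianRing R] [IsIntegrallyClosed R]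
  [Field F] [Algebra R F] [IsFractionRing R F]
variable (V : Fin 3 → ValuationSubring F) (hV : ∀ i (r : R), algebraMap R F r ∈ V i) (ϖ : R)
  (q : ℕ) [hq : Fact q.Prime] (hϖq : algebraMap R F ϖ = (q : F))
  {j j' j'' : F} (hj0 : j ≠ 0) (hj'0 : j' ≠ 0) (hj''0 : j'' ≠ 0)
  (h₁ : evZ j j' (modPoly q) = 0) (h₂ : evZ j' j'' (modPoly q) = 0)
  (a : R) (haj : algebraMap R F a = j⁻¹)
  (h20a : (V 0).valuation j⁻¹ = 1) (h20c : (V 0).valuation (j''⁻¹ - j⁻¹ ^ (q ^ 2)) < 1)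
  (h11a : (V 1).valuation j⁻¹ = 1) (h11c : (V 1).valuation (j''⁻¹ - j⁻¹) < 1)
  (h02c : (V 2).valuation j''⁻¹ = 1) (h02a : (V 2).valuation (j⁻¹ - j''⁻¹ ^ (q ^ 2)) < 1)
  (𝔫 : Ideal R) [h𝔫 : 𝔫.IsPrime] (hϖ𝔫 : ϖ ∈ 𝔫) (ha𝔫 : a ∈ 𝔫)

include hϖq hj0 hj'0 hj''0 h₁ h₂ haj hϖ𝔫 ha𝔫 in
/-- **The modular data at a cusp point.** -/
theorem cuspData_at : CuspData (locSub (F := F) 𝔫) q j⁻¹ j'⁻¹ j''⁻¹ := by
  haveI := isIntegrallyClosedIn_locSub (F := F) 𝔫
  have hqB : InMax (locSub (F := F) 𝔫) (q : F) := by rw [← hϖq]; exact inMax_of_mem 𝔫 hϖ𝔫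
  have haB : InMax (locSub (F := F) 𝔫) j⁻¹ := by rw [← haj]; exact inMax_of_mem 𝔫 ha𝔫
  exact cuspData_of_modular q hj0 hj'0 hj''0 h₁ h₂ hqB haB

include hϖq hj0 hj'0 hj''0 h₁ h₂ haj hϖ𝔫 ha𝔫 h20a h20c h11a h11c h02c h02a in
/-- **At a cusp point at most one of the three components passes.** -/
theorem cusp_only {i k : Fin 3} (hi : vCentre (V i) (hV i) ≤ 𝔫) (hk : vCentre (V k) (hV k) ≤ 𝔫) :
    i = k := by
  haveI := isIntegrallyClosedIn_locSub (F := F) 𝔫
  have D := cuspData_at (F := F) ϖ q hϖq hj0 hj'0 hj''0 h₁ h₂ a haj 𝔫 hϖ𝔫 ha𝔫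
  have C := fun (i : Fin 3) (h : vCentre (V i) (hV i) ≤ 𝔫) => centre_locSub 𝔫 (V i) (hV i) h
  fin_cases i <;> fin_cases k
  · rfl
  · exact (D.not_centre_20_11 (C 0 hi) h20a h20c (C 1 hk) h11a h11c).elim
  · exact (D.not_centre_20_02 (C 0 hi) h20a h20c (C 2 hk) h02c h02a).elim
  · exact (D.not_centre_20_11 (C 0 hk) h20a h20c (C 1 hi) h11a h11c).elim
  · rfl
  · exact (D.not_centre_11_02 (C 1 hi) h11a h11c (C 2 hk) h02c h02a).elim
  · exact (D.not_centre_20_02 (C 0 hk) h20a h20c (C 2 hi) h02c h02a).elim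
  · exact (D.not_centre_11_02 (C 1 hk) h11a h11c (C 2 hi) h02c h02a).elim
  · rfl

end Cusp

/-! ### The main theorem -/

section Main

variable {R F : Type*} [CommRing R] [IsDomain R] [IsNoetherianRing R] [IsIntegrallyClosed R]
  [Field F] [Algebra R F] [IsFractionRing R F]

/-- A unit of `B` is a unit of every valuation ring containing `B`. -/
theorem valuation_eq_one_of_le {B : LocalSubring F} {W : ValuationSubring F}
    (hle : B.toSubring ≤ W.toSubring) {x : F} (hx : IsUnitIn B x) : W.valuation x = 1 := by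
  have h1 : W.valuation x ≤ 1 := (W.valuation_le_one_iff x).2 (hle hx.mem)
  have h2 : W.valuation x⁻¹ ≤ 1 := (W.valuation_le_one_iff _).2 (hle (inv_mem_of_isUnitIn hx))
  have hx0 : x ≠ 0 := by
    rintro rfl
    obtain ⟨hm, hu⟩ := hx
    have h0 : (⟨0, hm⟩ : B.toSubring) = 0 := rfl
    rw [h0] at hu
    exact not_isUnit_zero hu
  have hpos : 0 < W.valuation x := (Valuation.pos_iff _).2 hx0
  rw [map_inv₀] at h2
  exact le_antisymm h1 ((inv_le_one₀ hpos).1 h2)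

variable (V : Fin 3 → ValuationSubring F) (hV : ∀ i (r : R), algebraMap R F r ∈ V i) (ϖ : R)
  (hsat : ∀ r : R, (∀ i, algebraMap R F r * (algebraMap R F ϖ)⁻¹ ∈ V i) → ϖ ∣ r)
  (E : ℕ) (hpow : ∀ i (x : F), x ∈ (V i).nonunits → x ^ E * (algebraMap R F ϖ)⁻¹ ∈ V i)
  (q : ℕ) [hq : Fact q.Prime] (hϖq : algebraMap R F ϖ = (q : F))
  {j j' j'' : F} (hj0 : j ≠ 0) (hj'0 : j' ≠ 0) (hj''0 : j'' ≠ 0)
  (h₁ : evZ j j' (modPoly q) = 0) (h₂ : evZ j' j'' (modPoly q) = 0)
  (a : R) (haj : algebraMap R F a = j⁻¹)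
  (h20a : (V 0).valuation j⁻¹ = 1) (h20c : (V 0).valuation (j''⁻¹ - j⁻¹ ^ (q ^ 2)) < 1)
  (h11a : (V 1).valuation j⁻¹ = 1) (h11c : (V 1).valuation (j''⁻¹ - j⁻¹) < 1)
  (h02c : (V 2).valuation j''⁻¹ = 1) (h02a : (V 2).valuation (j⁻¹ - j''⁻¹ ^ (q ^ 2)) < 1)
  (hram : ∀ x : F, x ∈ (V 1).nonunits → x ^ (q - 1) * (q : F)⁻¹ ∈ V 1)
  (𝔫 : Ideal R) [h𝔫 : 𝔫.IsMaximal] (hϖ𝔫 : ϖ ∈ 𝔫) (ha𝔫 : a ∈ 𝔫)
  (h11 : vCentre (V 1) (hV 1) ≤ 𝔫)
  (S T : R) (hS : S ∉ 𝔫) (hT : T ∉ 𝔫)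
  (hres : (1 - j / j'') ^ (q - 1) * (q : F)⁻¹ * algebraMap R F S + algebraMap R F T ∈
    (V 1).nonunits)
  (hD : IsDedekindDomain (R ⧸ vCentre (V 1) (hV 1)))
  (hnf : ¬ IsField (R ⧸ vCentre (V 1) (hV 1)))

include hsat hpow hϖq hj0 hj'0 hj''0 h₁ h₂ haj h20a h20c h11a h11c h02c h02a hram hϖ𝔫 ha𝔫 hS hT hres
  hD hnf in
/-- **Cusp points of the middle component.**  `τ = 1 - j/j''` is a prime element of `R_𝔫` generating the
centre of `V₁₁`; `R_𝔫` is factorial and the branch is smooth at the point. -/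
theorem cusp_branch :
    ∃ τ : locAt (F := F) 𝔫, (τ : F) = 1 - j / j'' ∧ Prime τ ∧
      centre (V 1) (mem_of_mem_locAt (V 1) (hV 1) 𝔫 h11) = Ideal.span {τ} ∧
      UniqueFactorizationMonoid (locAt (F := F) 𝔫) ∧
      IsPrincipalIdealRing
        (locAt (F := F) 𝔫 ⧸ centre (V 1) (mem_of_mem_locAt (V 1) (hV 1) 𝔫 h11)) := by
  haveI := isIntegrallyClosedIn_locSub (F := F) 𝔫
  have D : CuspData (locSub (F := F) 𝔫) q j⁻¹ j'⁻¹ j''⁻¹ :=
    cuspData_at (F := F) ϖ q hϖq hj0 hj'0 hj''0 h₁ h₂ a haj 𝔫 hϖ𝔫 ha𝔫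
  have C11 : Centre (locSub (F := F) 𝔫) (V 1) := centre_locSub 𝔫 (V 1) (hV 1) h11
  have honly : ∀ i, vCentre (V i) (hV i) ≤ 𝔫 → i = 1 := fun i hi =>
    cusp_only V hV ϖ q hϖq hj0 hj'0 hj''0 h₁ h₂ a haj h20a h20c h11a h11c h02c h02a 𝔫 hϖ𝔫 ha𝔫 hi h11
  have hϖ0 : ϖ ≠ 0 := uniformiser_ne_zero V ϖ hsat
  have hqF : (q : F) ≠ 0 := by rw [← hϖq]; exact algebraMap_ne_zero hϖ0
  -- local saturation
  have hSat : Sat (locSub (F := F) 𝔫) (V 1) (q : F) := by
    intro y hy hqy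
    have hy' : y ∈ V 1 := ((V 1).valuation_le_one_iff y).1 hy
    exact sat_at V hV ϖ hsat E hpow 𝔫 1 honly hy' (by rw [hϖq]; exact hqy)
  -- the generator
  have hratio : j''⁻¹ / j⁻¹ = j / j'' := by field_simp
  obtain ⟨hτB, hτV⟩ := D.one_sub_ratio C11 h11a h11c
  rw [hratio] at hτB hτV
  set τ' : F := 1 - j / j'' with hτ'
  set w : F := τ' ^ (q - 1) * (q : F)⁻¹ with hw
  have hwV : w ∈ V 1 := hram τ' ((V 1).mem_nonunits_iff.2 hτV)
  have hqw : τ' ^ (q - 1) = (q : F) * w := by rw [hw]; field_simp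
  have hwB : w ∈ (locSub (F := F) 𝔫).toSubring :=
    hSat w (((V 1).valuation_le_one_iff w).2 hwV)
      (by rw [← hqw]; exact (locSub (F := F) 𝔫).toSubring.pow_mem hτB _)
  -- `w` is a unit of `R_𝔫`
  have hSu := isUnitIn_of_notMem (F := F) 𝔫 hS
  have hTu := isUnitIn_of_notMem (F := F) 𝔫 hT
  have hT0 : algebraMap R F T ≠ 0 := algebraMap_ne_zero_of_notMem 𝔫 hT
  have hwu : IsUnitIn (locSub (F := F) 𝔫) w := by
    refine isUnitIn_of_residue_inv C11 hwB
      (w' := -(algebraMap R F S) * (algebraMap R F T)⁻¹) ?_ ?_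
    · exact (locSub (F := F) 𝔫).toSubring.mul_mem
        ((locSub (F := F) 𝔫).toSubring.neg_mem hSu.mem) (inv_mem_of_isUnitIn hTu)
    · have : w * (-(algebraMap R F S) * (algebraMap R F T)⁻¹) - 1 =
          -(w * algebraMap R F S + algebraMap R F T) * (algebraMap R F T)⁻¹ := by
        field_simp
        ring
      rw [this, map_mul, Valuation.map_neg, map_inv₀, valuation_eq_one_of_le C11.le hTu, inv_one,
        mul_one]
      exact (V 1).mem_nonunits_iff.1 hres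
  have hwv : (V 1).valuation w = 1 := valuation_eq_one_of_le C11.le hwu
  -- `τ'` is a uniformiser of `V₁₁`
  have hq1 : q - 1 ≠ 0 := by have := hq.out.two_le; omega
  have hτ0' : τ' ≠ 0 := by
    intro h0
    have hw0 : w = 0 := by rw [hw, h0, zero_pow hq1, zero_mul]
    rw [hw0, map_zero] at hwv
    exact zero_ne_one hwv
  have hvq : (V 1).valuation (q : F) = (V 1).valuation τ' ^ (q - 1) := by
    have := congrArg (V 1).valuation hqw
    rw [map_pow, map_mul, hwv, mul_one] at this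
    exact this.symm
  have hunif : ∀ y : F, (V 1).valuation y < 1 → (V 1).valuation (y / τ') ≤ 1 := by
    intro y hy
    have h1 := hram y ((V 1).mem_nonunits_iff.2 hy)
    have h2 : (V 1).valuation (y ^ (q - 1) * (q : F)⁻¹) ≤ 1 := ((V 1).valuation_le_one_iff _).2 h1
    have hvq0 : 0 < (V 1).valuation (q : F) := (Valuation.pos_iff _).2 hqF
    rw [map_mul, map_inv₀, ← div_eq_mul_inv, div_le_one₀ hvq0, map_pow, hvq] at h2
    have h3 : (V 1).valuation y ≤ (V 1).valuation τ' :=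
      (pow_le_pow_iff_left₀ zero_le zero_le hq1).1 h2
    have hpos : 0 < (V 1).valuation τ' := (Valuation.pos_iff _).2 hτ0'
    rw [map_div₀, div_le_one₀ hpos]
    exact h3
  have hdiv : ∀ y ∈ (locSub (F := F) 𝔫).toSubring, (V 1).valuation y < 1 →
      y / τ' ∈ (locSub (F := F) 𝔫).toSubring := fun y hy hyV =>
    div_mem_of_pow_eq hτB hunif (n := q - 1) (by have := hq.out.two_le; omega) hwu hqw hqF hSat
      hy hyV
  -- the generator in `R_𝔫`
  let τ : locAt (F := F) 𝔫 := ⟨τ', hτB⟩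
  have hτ0 : τ ≠ 0 := fun h => hτ0' (congrArg Subtype.val h)
  have hc : centre (V 1) (mem_of_mem_locAt (V 1) (hV 1) 𝔫 h11) = Ideal.span {τ} := by
    apply le_antisymm
    · intro b hb
      rw [mem_centre] at hb
      have hb' : (V 1).valuation (b : F) < 1 := (V 1).mem_nonunits_iff.1 hb
      have hz := hdiv (b : F) b.2 hb'
      rw [Ideal.mem_span_singleton]
      refine ⟨⟨(b : F) / τ', hz⟩, Subtype.ext ?_⟩
      show (b : F) = τ' * ((b : F) / τ')
      rw [mul_div_cancel₀ _ hτ0']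
    · rw [Ideal.span_singleton_le_iff_mem, mem_centre]
      exact (V 1).mem_nonunits_iff.2 hτV
  have hmap : (vCentre (V 1) (hV 1)).map (algebraMap R (locAt (F := F) 𝔫)) = Ideal.span {τ} := by
    rw [← centre_eq_map (V 1) (hV 1) 𝔫 h11]
    exact hc
  obtain ⟨hp1, hp2⟩ := prime_and_pid_of_map_eq (vCentre (V 1) (hV 1)) hD hnf 𝔫 h11 τ hτ0 hmap
  refine ⟨τ, rfl, hp1, hc, ?_, ?_⟩
  · exact uniqueFactorizationMonoid_of_map_eq (vCentre (V 1) (hV 1)) hD hnf 𝔫 h11 τ hτ0 hmap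
  · rw [hc]
    exact hp2

end Main

end Fermat.Agent.S36.Cusp.Regular
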