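/-
S36, block [CUSP] (helper17), part 7: **(I-R) at EVERY cusp point of the chart at infinity of level
`q² M₀'`** — the "cusp half" of `Alg/ChartTransfer` (no `Rinf` twins away from the cusps).

Setting as in `Cusp/Regular` (`R` the chart, `V 0 = V₂₀`, `V 1 = V₁₁`, `V 2 = V₀₂`, `ϖ = q`, saturation
`hsat`/`hpow` in the shape of `One/OneBranch`, the two modular equations, `a = 1/j ∈ R`, the six residue
relations).  At a maximal ideal `𝔫 ∋ ϖ, a`: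

* exactly one component `i₀` passes through `𝔫` (`Points/Classify.OnlyOne`);
* `locAt 𝔫` is factorial and `locAt 𝔫 ⧸ centre (V i₀)` is a principal ideal ring:
  `i₀ = 1` : `Cusp/Regular.cusp_branch` (generator `1 - j/j''`);
  `i₀ = 0, 2` : `One/OneBranch.one_branch` (generator `ϖ`, multiplicity one).

Inputs beyond `Cusp/Regular`: `ϖ` is a uniformiser of `V₂₀` and of `V₀₂`, and the coordinate rings
`R ⧸ vCentre (V i)` are Dedekind and not fields (block [BRANCH]).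
-/
import Mathlib
import Fermat.Agent.S36.Cusp.Regular
import Fermat.Agent.S36.One.Dictionary
import Fermat.Agent.S36.Points.Classify

set_option autoImplicit false
set_option linter.unusedSectionVars false
set_option linter.unusedVariables false
set_option linter.style.haveILetI false

namespace Fermat.Agent.S36.Cusp.AllCusps

open Fermat.Agent.N4.Cover.Globalize Fermat.Agent.P3G.Krull
open Fermat.Agent.N4.Kronecker Fermat.Agent.N4.ModPolyDescent Fermat.Agent.N4.ModPolyShape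
open Fermat.Agent.S36.Cusp.Regular
open Fermat.Agent.S36.One.OneBranch Fermat.Agent.S36.One.Dictionary
open Fermat.Agent.S36.Local.LocalRoot Fermat.Agent.S36.Points.Classify

variable {R F : Type*} [CommRing R] [IsDomain R] [IsNoetherianRing R] [IsIntegrallyClosed R]
  [Field F] [Algebra R F] [IsFractionRing R F]
variable (V : Fin 3 → ValuationSubring F) (hV : ∀ i (r : R), algebraMap R F r ∈ V i) (ϖ : R)
  (hsat : ∀ r : R, (∀ i, algebraMap R F r * (algebraMap R F ϖ)⁻¹ ∈ V i) → ϖ ∣ r)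
  (E : ℕ) (hpow : ∀ i (x : F), x ∈ (V i).nonunits → x ^ E * (algebraMap R F ϖ)⁻¹ ∈ V i)
  (q : ℕ) [hq : Fact q.Prime] (hϖq : algebraMap R F ϖ = (q : F))
  {j j' j'' : F} (hj0 : j ≠ 0) (hj'0 : j' ≠ 0) (hj''0 : j'' ≠ 0)
  (h₁ : evZ j j' (modPoly q) = 0) (h₂ : evZ j' j'' (modPoly q) = 0)
  (a : R) (haj : algebraMap R F a = j⁻¹)
  (h20a : (V 0).valuation j⁻¹ = 1) (h20c : (V 0).valuation (j''⁻¹ - j⁻¹ ^ (q ^ 2)) < 1)
  (h11a : (V 1).valuation j⁻¹ = 1) (h11c : (V 1).valuation (j''⁻¹ - j⁻¹) < 1)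
  (h02c : (V 2).valuation j''⁻¹ = 1) (h02a : (V 2).valuation (j⁻¹ - j''⁻¹ ^ (q ^ 2)) < 1)
  (hϖV : ∀ i, algebraMap R F ϖ ∈ (V i).nonunits)
  (hunif20 : ∀ x : F, x ∈ (V 0).nonunits → x * (algebraMap R F ϖ)⁻¹ ∈ V 0)
  (hunif02 : ∀ x : F, x ∈ (V 2).nonunits → x * (algebraMap R F ϖ)⁻¹ ∈ V 2)
  (hram : ∀ x : F, x ∈ (V 1).nonunits → x ^ (q - 1) * (q : F)⁻¹ ∈ V 1)
  (S T : R) (hST : ∀ 𝔫 : Ideal R, 𝔫.IsPrime → a ∈ 𝔫 → S ∉ 𝔫 ∧ T ∉ 𝔫)
  (hres : (1 - j / j'') ^ (q - 1) * (q : F)⁻¹ * algebraMap R F S + algebraMap R F T ∈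
    (V 1).nonunits)
  (hD : ∀ i, IsDedekindDomain (R ⧸ vCentre (V i) (hV i)))
  (hnf : ∀ i, ¬ IsField (R ⧸ vCentre (V i) (hV i)))
  (𝔫 : Ideal R) [h𝔫 : 𝔫.IsMaximal] (hϖ𝔫 : ϖ ∈ 𝔫) (ha𝔫 : a ∈ 𝔫)

include hsat hpow hϖq hj0 hj'0 hj''0 h₁ h₂ haj h20a h20c h11a h11c h02c h02a hϖ𝔫 ha𝔫 in
/-- **Exactly one component through a cusp point.** -/
theorem exists_onlyOne : ∃ i₀ : Fin 3, OnlyOne V hV i₀ 𝔫 := by
  obtain ⟨i₀, hi₀⟩ := exists_vCentre_le V hV ϖ hsat E hpow 𝔫 hϖ𝔫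
  refine ⟨i₀, hi₀, fun k hk hle => hk ?_⟩
  exact cusp_only V hV ϖ q hϖq hj0 hj'0 hj''0 h₁ h₂ a haj h20a h20c h11a h11c h02c h02a 𝔫 hϖ𝔫 ha𝔫
    hle hi₀

include hsat hpow hϖq hj0 hj'0 hj''0 h₁ h₂ haj h20a h20c h11a h11c h02c h02a hϖV hunif20 hunif02 hram
  hST hres hD hnf hϖ𝔫 ha𝔫 in
/-- **(I-R) at every cusp point**: exactly one component `i₀` passes, `locAt 𝔫` is factorial and the
branch is smooth at the point. -/
theorem cusp_point :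
    ∃ (i₀ : Fin 3) (h : OnlyOne V hV i₀ 𝔫), UniqueFactorizationMonoid (locAt (F := F) 𝔫) ∧
      IsPrincipalIdealRing
        (locAt (F := F) 𝔫 ⧸ centre (V i₀) (mem_of_mem_locAt (V i₀) (hV i₀) 𝔫 h.1)) := by
  obtain ⟨i₀, h⟩ := exists_onlyOne V hV ϖ hsat E hpow q hϖq hj0 hj'0 hj''0 h₁ h₂ a haj h20a h20c
    h11a h11c h02c h02a 𝔫 hϖ𝔫 ha𝔫
  refine ⟨i₀, h, ?_⟩
  have honly : ∀ i, vCentre (V i) (hV i) ≤ 𝔫 → i = i₀ := by
    intro i hi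
    by_contra hne
    exact h.2 i hne hi
  obtain ⟨hS, hT⟩ := hST 𝔫 h𝔫.isPrime ha𝔫
  fin_cases i₀
  · obtain ⟨-, -, h3, h4⟩ := one_branch V hV ϖ hsat E hpow 𝔫 0 h.1 honly hunif20 (hϖV 0)
      (hD 0) (hnf 0)
    exact ⟨h3, h4⟩
  · obtain ⟨τ, -, -, -, h3, h4⟩ := cusp_branch V hV ϖ hsat E hpow q hϖq hj0 hj'0 hj''0 h₁ h₂ a haj
      h20a h20c h11a h11c h02c h02a hram 𝔫 hϖ𝔫 ha𝔫 h.1 S T hS hT hres (hD 1) (hnf 1)
    exact ⟨h3, h4⟩
  · obtain ⟨-, -, h3, h4⟩ := one_branch V hV ϖ hsat E hpow 𝔫 2 h.1 honly hunif02 (hϖV 2)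
      (hD 2) (hnf 2)
    exact ⟨h3, h4⟩

end Fermat.Agent.S36.Cusp.AllCusps
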