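/-
S36, block [CUSP] (helper17), part 9: **the cusp points in the vocabulary of `D/ChartRoots.ChartHyp`** —
the three per-point hypotheses `hone`, `hUFD`, `hPID` of
`Descent/LocalRootsInst.localRoots_chart_onlyOne` (= `hcusp` of `Alg/ChartTransfer.localRoots_inv`)
at EVERY cusp point `𝔫 ∋ π, a` (`a = 1/j`) of a chart `R` with `H : ChartHyp V hV π E`,
`V : Fin 3 → ValuationSubring F` (`V 0 = V₂₀`, `V 1 = V₁₁`, `V 2 = V₀₂`).
-/
import Mathlib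
import Fermat.Agent.S36.Cusp.AllCusps
import Fermat.Agent.S36.D.ChartRoots
import Fermat.Agent.S36.Points.ClassifyChart

set_option autoImplicit false
set_option linter.unusedSectionVars false
set_option linter.unusedVariables false
set_option linter.style.haveILetI false

namespace Fermat.Agent.S36.Cusp.Plug

open Fermat.Agent.N4.Cover.Globalize Fermat.Agent.P3G.Krull
open Fermat.Agent.N4.Kronecker Fermat.Agent.N4.ModPolyDescent Fermat.Agent.N4.ModPolyShape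
open Fermat.Agent.S36.Cusp.Regular Fermat.Agent.S36.Cusp.AllCusps
open Fermat.Agent.S36.Local.LocalRoot Fermat.Agent.S36.Local.Spread
  Fermat.Agent.S36.Local.ChartSpread Fermat.Agent.S36.D.ChartRoots
  Fermat.Agent.S36.Points.Classify Fermat.Agent.S36.Points.ClassifyChart

universe u

variable {O : Type*} [CommRing O] [IsDomain O] [IsDiscreteValuationRing O]
variable {R : Type*} [CommRing R] [IsDomain R] [IsNoetherianRing R] [IsIntegrallyClosed R]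
  [Algebra O R]
variable {F : Type u} [Field F] [Algebra R F] [IsFractionRing R F]
variable {V : Fin 3 → ValuationSubring F} {hV : ∀ i (r : R), algebraMap R F r ∈ V i}
  {π : O} {E : ℕ}

/-- `ChartHyp.sat` in the shape of `One/OneBranch`. -/
theorem hsat_of_chartHyp' (H : ChartHyp V hV π E) :
    ∀ r : R, (∀ i, algebraMap R F r * (algebraMap R F (algebraMap O R π))⁻¹ ∈ V i) →
      algebraMap O R π ∣ r := by
  intro r hr
  have h0 : algebraMap R F (algebraMap O R π) ≠ 0 := algebraMap_ne_zero H.ne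
  exact H.sat r (fun i => ⟨_, hr i, by field_simp⟩)

/-- `ChartHyp.pow` in the shape of `One/OneBranch`. -/
theorem hpow_of_chartHyp' (H : ChartHyp V hV π E) :
    ∀ i (x : F), x ∈ (V i).nonunits → x ^ E * (algebraMap R F (algebraMap O R π))⁻¹ ∈ V i := by
  intro i x hx
  have h0 : algebraMap R F (algebraMap O R π) ≠ 0 := algebraMap_ne_zero H.ne
  obtain ⟨w, hw, hxw⟩ := H.pow i x hx
  have : x ^ E * (algebraMap R F (algebraMap O R π))⁻¹ = w := by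
    rw [hxw]; field_simp
  rw [this]
  exact hw

variable (H : ChartHyp V hV π E)
  (q : ℕ) [hq : Fact q.Prime] (hπq : algebraMap R F (algebraMap O R π) = (q : F))
  {j j' j'' : F} (hj0 : j ≠ 0) (hj'0 : j' ≠ 0) (hj''0 : j'' ≠ 0)
  (h₁ : evZ j j' (modPoly q) = 0) (h₂ : evZ j' j'' (modPoly q) = 0)
  (a : R) (haj : algebraMap R F a = j⁻¹)
  (h20a : (V 0).valuation j⁻¹ = 1) (h20c : (V 0).valuation (j''⁻¹ - j⁻¹ ^ (q ^ 2)) < 1)
  (h11a : (V 1).valuation j⁻¹ = 1) (h11c : (V 1).valuation (j''⁻¹ - j⁻¹) < 1)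
  (h02c : (V 2).valuation j''⁻¹ = 1) (h02a : (V 2).valuation (j⁻¹ - j''⁻¹ ^ (q ^ 2)) < 1)
  (hunif20 : ∀ x : F, x ∈ (V 0).nonunits → x * (algebraMap R F (algebraMap O R π))⁻¹ ∈ V 0)
  (hunif02 : ∀ x : F, x ∈ (V 2).nonunits → x * (algebraMap R F (algebraMap O R π))⁻¹ ∈ V 2)
  (hram : ∀ x : F, x ∈ (V 1).nonunits → x ^ (q - 1) * (q : F)⁻¹ ∈ V 1)
  (S T : R) (hST : ∀ 𝔫 : Ideal R, 𝔫.IsPrime → a ∈ 𝔫 → S ∉ 𝔫 ∧ T ∉ 𝔫)
  (hres : (1 - j / j'') ^ (q - 1) * (q : F)⁻¹ * algebraMap R F S + algebraMap R F T ∈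
    (V 1).nonunits)
  (hD : ∀ i, IsDedekindDomain (R ⧸ vCentre (V i) (hV i)))
  (hnf : ∀ i, ¬ IsField (R ⧸ vCentre (V i) (hV i)))

include H hπq hj0 hj'0 hj''0 h₁ h₂ haj h20a h20c h11a h11c h02c h02a in
/-- **`hone` at the cusp points.** -/
theorem hone_cusp (𝔫 : Ideal R) [𝔫.IsPrime] (h𝔫 : 𝔫.IsMaximal) (hπ𝔫 : algebraMap O R π ∈ 𝔫)
    (ha𝔫 : a ∈ 𝔫) :
    ∃ i₀, centre (V i₀) (hV i₀) ≤ 𝔫 ∧ ∀ k, k ≠ i₀ → ¬ centre (V k) (hV k) ≤ 𝔫 := by
  haveI := h𝔫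
  obtain ⟨i₀, h1, h2⟩ := exists_onlyOne V hV (algebraMap O R π) (hsat_of_chartHyp' H) E
    (hpow_of_chartHyp' H) q hπq hj0 hj'0 hj''0 h₁ h₂ a haj h20a h20c h11a h11c h02c h02a 𝔫 hπ𝔫 ha𝔫
  refine ⟨i₀, ?_, fun k hk hle => h2 k hk ?_⟩
  · rw [← vCentre_eq_centre']; exact h1
  · rw [vCentre_eq_centre']; exact hle

include H hπq hj0 hj'0 hj''0 h₁ h₂ haj h20a h20c h11a h11c h02c h02a hunif20 hunif02 hram hST hres
  hD hnf in
/-- **`hUFD` at the cusp points.** -/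
theorem hUFD_cusp (𝔫 : Ideal R) [𝔫.IsPrime] (h𝔫 : 𝔫.IsMaximal) (hπ𝔫 : algebraMap O R π ∈ 𝔫)
    (ha𝔫 : a ∈ 𝔫) : UniqueFactorizationMonoid (locAt (F := F) 𝔫) := by
  haveI := h𝔫
  obtain ⟨i₀, h, h1, -⟩ := cusp_point V hV (algebraMap O R π) (hsat_of_chartHyp' H) E
    (hpow_of_chartHyp' H) q hπq hj0 hj'0 hj''0 h₁ h₂ a haj h20a h20c h11a h11c h02c h02a H.mem
    hunif20 hunif02 hram S T hST hres hD hnf 𝔫 hπ𝔫 ha𝔫
  exact h1

include H hπq hj0 hj'0 hj''0 h₁ h₂ haj h20a h20c h11a h11c h02c h02a hunif20 hunif02 hram hST hres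
  hD hnf in
/-- **`hPID` at the cusp points.** -/
theorem hPID_cusp (𝔫 : Ideal R) [𝔫.IsPrime] (h𝔫 : 𝔫.IsMaximal) (hπ𝔫 : algebraMap O R π ∈ 𝔫)
    (ha𝔫 : a ∈ 𝔫) (i : Fin 3) (hi : centre (V i) (hV i) ≤ 𝔫) :
    IsPrincipalIdealRing (locAt (F := F) 𝔫 ⧸
      centre (V i) (fun b => locAt_le 𝔫 (V i) (hV i) hi b)) := by
  haveI := h𝔫
  obtain ⟨i₀, h, -, h2⟩ := cusp_point V hV (algebraMap O R π) (hsat_of_chartHyp' H) E
    (hpow_of_chartHyp' H) q hπq hj0 hj'0 hj''0 h₁ h₂ a haj h20a h20c h11a h11c h02c h02a H.mem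
    hunif20 hunif02 hram S T hST hres hD hnf 𝔫 hπ𝔫 ha𝔫
  have hii : i = i₀ := by
    by_contra hne
    exact h.2 i hne (by rw [vCentre_eq_centre']; exact hi)
  subst hii
  exact h2

end Fermat.Agent.S36.Cusp.Plug
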