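/-
S36, block [CUSP] (helper17), part 8: **the concrete modular data in `FF K (M₀ q²)`** for the plug of
`Cusp/AllCusps.cusp_point` on the chart at infinity `Rinf K (M₀ q²) O`.

`jj = α₂ α₁ j = j`, `jj' = α₂ β₁ j = j(Q^q)`, `jj'' = β₂ β₁ j = j(Q^{q²})` in `FF K (M₀ q²)`:
`Φ_q(jj, jj') = 0 = Φ_q(jj', jj'')`, all three nonzero, `jj = jF K (M₀ q²)`, and the coordinate
`jInvInf` of the chart at infinity is `1/jj`.
-/
import Mathlib
import Fermat.Agent.N4F.E.Integrality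
import Fermat.Agent.N4F.E.GaussResidueQ
import Fermat.Agent.N4.Setting

set_option autoImplicit false
set_option linter.unusedSectionVars false

namespace Fermat.Agent.S36.Cusp.ModEqFF

open ModularCurve Fermat.Agent.N4.Setting Fermat.Agent.N4.Kronecker
open Fermat.Agent.N4.ModPolyDescent Fermat.Agent.N4F.E.DegreeLevelRaise

variable (K : Type) [Field K] (M0 q : ℕ) [NeZero M0] [NeZero q]

/-- `j` in `FF K (M₀ q²)`, as `α₂ α₁ j`. -/
noncomputable def jj : FF K (M0 * q * q) :=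
  alphaF K (M0 * q) q (alphaF K M0 q (jF K M0))

/-- `j(Q^q)` in `FF K (M₀ q²)`, as `α₂ β₁ j`. -/
noncomputable def jj' : FF K (M0 * q * q) :=
  alphaF K (M0 * q) q (betaF K M0 q (jF K M0))

/-- `j(Q^{q²})` in `FF K (M₀ q²)`, as `β₂ β₁ j`. -/
noncomputable def jj'' : FF K (M0 * q * q) :=
  betaF K (M0 * q) q (betaF K M0 q (jF K M0))

theorem jj_eq : jj K M0 q = jF K (M0 * q * q) := by
  unfold jj
  rw [alphaF_jF, alphaF_jF]

theorem jj_ne_zero : jj K M0 q ≠ 0 := by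
  rw [jj_eq]
  exact jF_ne_zero K _

theorem jj'_ne_zero : jj' K M0 q ≠ 0 := by
  unfold jj'
  rw [map_ne_zero, map_ne_zero]
  exact jF_ne_zero K _

theorem jj''_ne_zero : jj'' K M0 q ≠ 0 := by
  unfold jj''
  rw [map_ne_zero, map_ne_zero]
  exact jF_ne_zero K _

/-- `Φ_q(j, j(Q^q)) = 0`. -/
theorem evZ_jj_jj' : evZ (jj K M0 q) (jj' K M0 q) (modPoly q) = 0 := by
  have h := Fermat.Agent.N4F.E.Integrality.evZ_modPoly_alpha_beta K M0 q
  have h2 := congrArg (alphaF K (M0 * q) q : FF K (M0 * q) →+* FF K (M0 * q * q)) h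
  rw [map_evZ, map_zero] at h2
  exact h2

/-- `Φ_q(j(Q^q), j(Q^{q²})) = 0`. -/
theorem evZ_jj'_jj'' : evZ (jj' K M0 q) (jj'' K M0 q) (modPoly q) = 0 := by
  unfold jj' jj''
  rw [betaF_jF]
  exact Fermat.Agent.N4F.E.GaussResidueQ.evZ_modPoly_alpha_beta_jdF K (M0 * q) q (dvd_mul_left q M0)

variable (O : Subring K)

/-- The coordinate of the chart at infinity is `1/j`. -/
theorem algebraMap_jInvInf :
    algebraMap ↥(Rinf K (M0 * q * q) O) (FF K (M0 * q * q)) (jInvInf K (M0 * q * q) O) =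
      (jj K M0 q)⁻¹ := by
  rw [jj_eq]
  rfl

end Fermat.Agent.S36.Cusp.ModEqFF
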