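/-
S36, block [CUSP] (helper17), part 6: **the residue hypothesis `hres` of `Cusp/Regular.cusp_branch`.**

* `exists_theta_pow_int` : for every prime `q` there are `m, A, B` and a MONIC `S ∈ ℤ[X]` of degree `m`
  with `A + B = (q - 1) + 2 m` and, over every field `κ` of characteristic `q`,
  `(θ j̄)^(q-1) · S(j̄)² = j̄^A (j̄ - 1728)^B` (`j̄ = jqModC κ`).  (`q ≥ 5`: the supersingular polynomial of
  `R3/ThetaPow.exists_thetaL_pow` over `𝔽_q`, lifted to `ℤ`; `q ∈ {2, 3}`: `S = 1`, `θ j̄ = - j̄`.)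
* `ev_residue_eq_zero` : pure algebra in the target `L` of a place `ev`: if `ev (1/j) = ev (1/j'') = 1/J`,
  `ev w₀ = -Θ^n` and `Θ^n · S(J)² = J^A (J - 1728)^B`, `A + B = n + 2 deg S`, then
  `ev (w₀ (1/j'')^n · S̃(1/j)² + (1 - 1728/j)^B) = 0` with `S̃` the reversed polynomial.
* `hres_of_place` : the hypothesis `hres` for `V₁₁` given a place `ev : V₁₁ → L` with
  `ev y = 0 ↔ y ∈ 𝔪`, `ev j = ev j'' = J ≠ 0`, `ev ((j'' - j)^(q-1)/q) = -Θ^(q-1)`.
-/
import Mathlib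
import Fermat.Agent.S36.R3.ThetaPow
import Fermat.Prelude.Def_ModularCurve_X0ModL

set_option autoImplicit false
set_option linter.unusedSectionVars false
set_option linter.unusedVariables false

open Polynomial

namespace Fermat.Agent.S36.Cusp.Residue

open ModularCurve
open Fermat.Agent.S36.R3.PiSeries Fermat.Agent.S36.R3.ThetaJ Fermat.Agent.S36.R3.ThetaPow

/-! ### The closed form of `(θ j̄)^(q-1)` with an integral supersingular polynomial -/

universe u

section Int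

variable (q : ℕ) [hq : Fact q.Prime]

/-- Base change of the closed form from `𝔽_q` to any field of characteristic `q`. -/
theorem theta_pow_baseChange (κ : Type*) [Field κ] [CharP κ q] (S : ℤ[X]) {n A B : ℕ}
    (h : thetaL (jqModC (ZMod q)) ^ n * eval₂ (Int.castRingHom _) (jqModC (ZMod q)) S ^ 2 =
      jqModC (ZMod q) ^ A * (jqModC (ZMod q) - 1728) ^ B) :
    thetaL (jqModC κ) ^ n * eval₂ (Int.castRingHom _) (jqModC κ) S ^ 2 =
      jqModC κ ^ A * (jqModC κ - 1728) ^ B := by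
  let f : ZMod q →+* κ := ZMod.castHom (dvd_refl q) κ
  have h1 := congrArg (coeffMap f) h
  have hj : coeffMap f (jqModC (ZMod q)) = jqModC κ := map_jqModC f
  have haev : coeffMap f (eval₂ (Int.castRingHom _) (jqModC (ZMod q)) S) =
      eval₂ (Int.castRingHom _) (jqModC κ) S := by
    rw [hom_eval₂, hj]
    congr 1
    exact RingHom.ext_int _ _
  rw [map_mul, map_pow, map_pow, coeffMap_thetaL, haev, hj, map_mul, map_pow, map_pow, map_sub, hj,
    map_ofNat] at h1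
  exact h1

/-- `eval₂` of an integral lift. -/
theorem eval₂_map_intCast {k A : Type*} [CommRing k] [CommRing A] [Algebra k A] (x : A) (S : ℤ[X]) :
    aeval x (S.map (Int.castRingHom k)) = eval₂ (Int.castRingHom A) x S := by
  rw [aeval_def, eval₂_map]
  congr 1
  exact RingHom.ext_int _ _

/-- **The closed form of `(θ j̄)^(q-1)` with an integral monic polynomial**, all primes `q`. -/
theorem exists_theta_pow_int :
    ∃ (m A B : ℕ) (S : ℤ[X]), S.Monic ∧ S.natDegree = m ∧ A + B = (q - 1) + 2 * m ∧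
      ∀ (κ : Type u) [Field κ] [CharP κ q],
        thetaL (jqModC κ) ^ (q - 1) * eval₂ (Int.castRingHom _) (jqModC κ) S ^ 2 =
          jqModC κ ^ A * (jqModC κ - 1728) ^ B := by
  by_cases h5 : 5 ≤ q
  · obtain ⟨m, δ, ε, S₀, hδ, hε, hqm, hS1, hS2, -, hid⟩ := exists_thetaL_pow q (ZMod q) h5
    have hsurj : Function.Surjective (Int.castRingHom (ZMod q)) := ZMod.intCast_surjective
    have hlift : S₀ ∈ Polynomial.lifts (Int.castRingHom (ZMod q)) :=
      (Polynomial.mem_lifts _).2 (Polynomial.map_surjective _ hsurj S₀)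
    obtain ⟨S, hSmap, hSdeg, hSmonic⟩ := Polynomial.lifts_and_degree_eq_and_monic hlift hS1
    have hnat : S.natDegree = m := by
      rw [← hS2]
      exact natDegree_eq_natDegree hSdeg
    refine ⟨m, 8 * m + 2 * δ + 4 * ε, 6 * m + 2 * δ + 2 * ε, S, hSmonic, hnat, by omega, ?_⟩
    intro κ _ _
    apply theta_pow_baseChange q κ S
    have h := eval₂_map_intCast (k := ZMod q) (jqModC (ZMod q)) S
    rw [hSmap] at h
    rw [← h]
    exact hid
  · have hq6 : q ∣ 6 := by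
      have h2 := hq.out.two_le
      have hlt : q < 5 := by omega
      interval_cases q
      · decide
      · decide
      · exact absurd hq.out (by decide)
    have hq2 : q = 2 ∨ q = 3 := by
      have h2 := hq.out.two_le
      have hlt : q < 5 := by omega
      interval_cases q
      · left; rfl
      · right; rfl
      · exact absurd hq.out (by decide)
    refine ⟨0, q - 1, 0, 1, monic_one, natDegree_one, by omega, ?_⟩
    intro κ _ _
    rw [thetaL_jqModC_of_charP κ q hq6, eval₂_one, one_pow, mul_one, pow_zero, mul_one]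
    rcases hq2 with rfl | rfl
    · -- characteristic `2`
      have h2 : (2 : LaurentSeries κ) = 0 := by
        have h : ((2 : ℕ) : κ) = 0 := CharP.cast_eq_zero κ 2
        have h' : (2 : κ) = 0 := by exact_mod_cast h
        rw [← map_ofNat (HahnSeries.C (Γ := ℤ) (R := κ)) 2, h', map_zero]
      have : -jqModC κ = jqModC κ := by
        rw [neg_eq_iff_add_eq_zero, ← two_mul, h2, zero_mul]
      simp only [Nat.add_one_sub_one, pow_one]
      exact this
    · exact Even.neg_pow (by decide) _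

end Int

/-! ### The residue computation in the target of a place -/

section Place

/-- **Pure algebra in the target of the place.** -/
theorem ev_residue_eq_zero {W₀ L : Type*} [CommRing W₀] [Field L] (ev : W₀ →+* L)
    (jinv kinv w0 : W₀) (J Θ : L) (hJ0 : J ≠ 0) (hjinv : ev jinv = J⁻¹) (hkinv : ev kinv = J⁻¹)
    {n : ℕ} (hw0 : ev w0 = -Θ ^ n) (S : ℤ[X]) {A B : ℕ} (hAB : A + B = n + 2 * S.natDegree)
    (hΘ : Θ ^ n * eval₂ (Int.castRingHom L) J S ^ 2 = J ^ A * (J - 1728) ^ B) :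
    ev (w0 * kinv ^ n * eval₂ (Int.castRingHom W₀) jinv S.reverse ^ 2 +
      (1 - 1728 * jinv) ^ B) = 0 := by
  have hcomp : ev.comp (Int.castRingHom W₀) = Int.castRingHom L := RingHom.ext_int _ _
  have hrevW : ev (eval₂ (Int.castRingHom W₀) jinv S.reverse) =
      eval₂ (Int.castRingHom L) J⁻¹ S.reverse := by
    rw [hom_eval₂, hcomp, hjinv]
  let _ : Invertible J := invertibleOfNonzero hJ0
  have hrev : eval₂ (Int.castRingHom L) J⁻¹ S.reverse * J ^ S.natDegree =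
      eval₂ (Int.castRingHom L) J S := by
    have := eval₂_reverse_mul_pow (Int.castRingHom L) J S
    rwa [invOf_eq_inv] at this
  set Pr := eval₂ (Int.castRingHom L) J⁻¹ S.reverse with hPr
  set P := eval₂ (Int.castRingHom L) J S with hP
  set m := S.natDegree with hm
  rw [map_add, map_mul, map_mul, map_pow, map_pow, map_pow, hw0, hkinv, hrevW, map_sub, map_one,
    map_mul, hjinv, map_ofNat]
  have hpow : J ^ (A + B) ≠ 0 := pow_ne_zero _ hJ0
  apply (mul_left_inj' hpow).1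
  rw [zero_mul, add_mul]
  have e1 : (1 - 1728 * J⁻¹) * J = J - 1728 := by field_simp
  have e2 : J⁻¹ * J = 1 := inv_mul_cancel₀ hJ0
  have t1 : -Θ ^ n * J⁻¹ ^ n * Pr ^ 2 * J ^ (A + B) = -(Θ ^ n * (Pr * J ^ m) ^ 2) * (J⁻¹ * J) ^ n := by
    rw [hAB]
    ring
  have t2 : (1 - 1728 * J⁻¹) ^ B * J ^ (A + B) = ((1 - 1728 * J⁻¹) * J) ^ B * J ^ A := by
    rw [mul_pow, pow_add]
    ring
  rw [t1, t2, hrev, e2, one_pow, mul_one, hΘ, e1]
  ring

variable {R F : Type*} [CommRing R] [Field F] [Algebra R F] (W : ValuationSubring F)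
  {L : Type*} [Field L] (ev : W →+* L) (hev : ∀ y : W, ev y = 0 ↔ (y : F) ∈ W.nonunits)

include hev in
/-- An element of `W` with nonzero residue is a unit of `W`. -/
theorem inv_mem_of_ev_ne_zero {y : F} (hy : y ∈ W) (h : ev ⟨y, hy⟩ ≠ 0) : y⁻¹ ∈ W := by
  have h1 : y ∉ W.nonunits := fun hn => h ((hev ⟨y, hy⟩).2 hn)
  rw [W.mem_nonunits_iff, not_lt] at h1
  have h2 : W.valuation y = 1 := le_antisymm ((W.valuation_le_one_iff y).2 hy) h1
  rw [← W.valuation_le_one_iff, map_inv₀, h2, inv_one]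

include hev in
/-- **The hypothesis `hres` of `Cusp/Regular.cusp_branch` from a place of `V₁₁`.** -/
theorem hres_of_place (q : ℕ) (hq0 : (q : F) ≠ 0) {j j'' : F} (hjW : j ∈ W) (hj''W : j'' ∈ W)
    (J Θ : L) (hJ0 : J ≠ 0) (hj : ev ⟨j, hjW⟩ = J) (hj'' : ev ⟨j'', hj''W⟩ = J)
    (hw0W : (j'' - j) ^ (q - 1) * (q : F)⁻¹ ∈ W)
    (hw0 : ev ⟨(j'' - j) ^ (q - 1) * (q : F)⁻¹, hw0W⟩ = -Θ ^ (q - 1))
    (S : ℤ[X]) {A B : ℕ} (hAB : A + B = (q - 1) + 2 * S.natDegree)
    (hΘ : Θ ^ (q - 1) * eval₂ (Int.castRingHom L) J S ^ 2 = J ^ A * (J - 1728) ^ B)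
    (a : R) (haj : algebraMap R F a = j⁻¹) :
    (1 - j / j'') ^ (q - 1) * (q : F)⁻¹ *
        algebraMap R F (eval₂ (Int.castRingHom R) a S.reverse ^ 2) +
      algebraMap R F ((1 - 1728 * a) ^ B) ∈ W.nonunits := by
  have hjne : ev ⟨j, hjW⟩ ≠ 0 := by rw [hj]; exact hJ0
  have hj''ne : ev ⟨j'', hj''W⟩ ≠ 0 := by rw [hj'']; exact hJ0
  have hjinvW : j⁻¹ ∈ W := inv_mem_of_ev_ne_zero W ev hev hjW hjne
  have hj''invW : j''⁻¹ ∈ W := inv_mem_of_ev_ne_zero W ev hev hj''W hj''ne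
  have hj0 : j ≠ 0 := by
    rintro rfl
    apply hjne
    have : (⟨0, hjW⟩ : W) = 0 := rfl
    rw [this, map_zero]
  have hj''0 : j'' ≠ 0 := by
    rintro rfl
    apply hj''ne
    have : (⟨0, hj''W⟩ : W) = 0 := rfl
    rw [this, map_zero]
  have hjinv : ev ⟨j⁻¹, hjinvW⟩ = J⁻¹ := by
    have h1 : (⟨j, hjW⟩ : W) * ⟨j⁻¹, hjinvW⟩ = 1 := Subtype.ext (mul_inv_cancel₀ hj0)
    have h2 := congrArg ev h1
    rw [map_mul, map_one, hj] at h2
    exact eq_inv_of_mul_eq_one_right h2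
  have hkinv : ev ⟨j''⁻¹, hj''invW⟩ = J⁻¹ := by
    have h1 : (⟨j'', hj''W⟩ : W) * ⟨j''⁻¹, hj''invW⟩ = 1 := Subtype.ext (mul_inv_cancel₀ hj''0)
    have h2 := congrArg ev h1
    rw [map_mul, map_one, hj''] at h2
    exact eq_inv_of_mul_eq_one_right h2
  have key := ev_residue_eq_zero ev ⟨j⁻¹, hjinvW⟩ ⟨j''⁻¹, hj''invW⟩ ⟨_, hw0W⟩ J Θ hJ0 hjinv hkinv hw0 S
    hAB hΘ
  have hmem := (hev _).1 key
  have hsub : (W.subtype).comp (Int.castRingHom W) = Int.castRingHom F := RingHom.ext_int _ _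
  have halg : (algebraMap R F).comp (Int.castRingHom R) = Int.castRingHom F := RingHom.ext_int _ _
  have hcoe : ((eval₂ (Int.castRingHom W) (⟨j⁻¹, hjinvW⟩ : W) S.reverse : W) : F) =
      eval₂ (Int.castRingHom F) j⁻¹ S.reverse := by
    have := hom_eval₂ S.reverse (Int.castRingHom W) W.subtype (⟨j⁻¹, hjinvW⟩ : W)
    rw [hsub] at this
    exact this
  have hR : algebraMap R F (eval₂ (Int.castRingHom R) a S.reverse) =
      eval₂ (Int.castRingHom F) j⁻¹ S.reverse := by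
    rw [hom_eval₂, halg, haj]
  have hτ : 1 - j / j'' = (j'' - j) * j''⁻¹ := by field_simp
  have hval : (((⟨_, hw0W⟩ : W) * (⟨j''⁻¹, hj''invW⟩ : W) ^ (q - 1) *
        eval₂ (Int.castRingHom W) (⟨j⁻¹, hjinvW⟩ : W) S.reverse ^ 2 +
          (1 - 1728 * (⟨j⁻¹, hjinvW⟩ : W)) ^ B : W) : F) =
      (j'' - j) ^ (q - 1) * (q : F)⁻¹ * j''⁻¹ ^ (q - 1) *
        eval₂ (Int.castRingHom F) j⁻¹ S.reverse ^ 2 + (1 - 1728 * j⁻¹) ^ B := by
    rw [← hcoe]
    push_cast
    rfl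
  rw [hval] at hmem
  have hfin : (1 - j / j'') ^ (q - 1) * (q : F)⁻¹ *
        algebraMap R F (eval₂ (Int.castRingHom R) a S.reverse ^ 2) +
      algebraMap R F ((1 - 1728 * a) ^ B) =
      (j'' - j) ^ (q - 1) * (q : F)⁻¹ * j''⁻¹ ^ (q - 1) *
        eval₂ (Int.castRingHom F) j⁻¹ S.reverse ^ 2 + (1 - 1728 * j⁻¹) ^ B := by
    rw [map_pow, hR, map_pow, map_sub, map_one, map_mul, haj, map_ofNat, hτ, mul_pow]
    ring
  rw [hfin]
  exact hmem

end Place

/-! ### The final form: `S, T ∉ 𝔫` at every cusp point -/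

section Final

theorem eval₂_sub_coeff_zero_mem {R : Type*} [CommRing R] (a : R) (p : ℤ[X]) :
    eval₂ (Int.castRingHom R) a p - ((p.coeff 0 : ℤ) : R) ∈ Ideal.span {a} := by
  have h : eval₂ (Int.castRingHom R) a p =
      eval₂ (Int.castRingHom R) a p.divX * a + ((p.coeff 0 : ℤ) : R) := by
    conv_lhs => rw [← divX_mul_X_add p]
    rw [eval₂_add, eval₂_mul, eval₂_X, eval₂_C]
    rfl
  rw [h, add_sub_cancel_right]
  exact Ideal.mul_mem_left _ _ (Ideal.mem_span_singleton_self a)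

theorem pow_notMem_of_sub_one_mem {R : Type*} [CommRing R] {𝔫 : Ideal R} (h𝔫 : 𝔫.IsPrime) {a x : R}
    (ha : a ∈ 𝔫) (hx : x - 1 ∈ Ideal.span {a}) (n : ℕ) : x ^ n ∉ 𝔫 := by
  intro h
  have hx𝔫 : x - 1 ∈ 𝔫 := (Ideal.span_singleton_le_iff_mem (I := 𝔫)).2 ha hx
  have h1 : x ∈ 𝔫 := by
    rcases Nat.eq_zero_or_pos n with rfl | hn
    · rw [pow_zero] at h
      exact absurd ((Ideal.eq_top_iff_one _).2 h) h𝔫.ne_top
    · exact h𝔫.mem_of_pow_mem n h
  have h2 : (1 : R) = x - (x - 1) := by ring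
  exact h𝔫.ne_top ((Ideal.eq_top_iff_one _).2 (h2 ▸ 𝔫.sub_mem h1 hx𝔫))

variable {R F : Type*} [CommRing R] [Field F] [Algebra R F] (q : ℕ) [hq : Fact q.Prime]
  {κ : Type u} [Field κ] [CharP κ q] (W : ValuationSubring F)
  (ev : W →+* LaurentSeries κ) (hev : ∀ y : W, ev y = 0 ↔ (y : F) ∈ W.nonunits)

include hev in
/-- **The residue hypothesis of `cusp_branch`, all cusp points at once.**  If the place `ev` of `V₁₁`
sends `j, j''` to `j̄ = jqModC κ` and `(j'' - j)^(q-1)/q` to `-(θ j̄)^(q-1)`, there are `S, T ∈ R`,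
outside every prime containing `a = 1/j`, with `w S + T ∈ 𝔪_{V₁₁}`, `w = (1 - j/j'')^(q-1)/q`. -/
theorem exists_hres (hq0 : (q : F) ≠ 0) {j j'' : F} (hjW : j ∈ W) (hj''W : j'' ∈ W)
    (hj : ev ⟨j, hjW⟩ = jqModC κ) (hj'' : ev ⟨j'', hj''W⟩ = jqModC κ)
    (hw0W : (j'' - j) ^ (q - 1) * (q : F)⁻¹ ∈ W)
    (hw0 : ev ⟨(j'' - j) ^ (q - 1) * (q : F)⁻¹, hw0W⟩ = -thetaL (jqModC κ) ^ (q - 1))
    (a : R) (haj : algebraMap R F a = j⁻¹) :
    ∃ S T : R, (∀ 𝔫 : Ideal R, 𝔫.IsPrime → a ∈ 𝔫 → S ∉ 𝔫 ∧ T ∉ 𝔫) ∧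
      (1 - j / j'') ^ (q - 1) * (q : F)⁻¹ * algebraMap R F S + algebraMap R F T ∈ W.nonunits := by
  obtain ⟨m, A, B, S, hSm, hSd, hAB, hid⟩ := exists_theta_pow_int.{u} q
  refine ⟨eval₂ (Int.castRingHom R) a S.reverse ^ 2, (1 - 1728 * a) ^ B, ?_, ?_⟩
  · intro 𝔫 h𝔫 ha
    constructor
    · apply pow_notMem_of_sub_one_mem h𝔫 ha
      have h := eval₂_sub_coeff_zero_mem a S.reverse
      rwa [coeff_zero_reverse, hSm.leadingCoeff, Int.cast_one] at h
    · apply pow_notMem_of_sub_one_mem h𝔫 ha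
      have : (1 - 1728 * a) - 1 = (-1728) * a := by ring
      rw [this]
      exact Ideal.mul_mem_left _ _ (Ideal.mem_span_singleton_self a)
  · exact hres_of_place W ev hev q hq0 hjW hj''W (jqModC κ) (thetaL (jqModC κ))
      (jqModC_ne_zero_of_nontrivial κ) hj hj'' hw0W hw0 S (by rw [hSd]; exact hAB) (hid κ) a haj

end Final

end Fermat.Agent.S36.Cusp.Residue
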