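/-
S36, block [CUSP] (helper17), part 13: **the cusp data of `Cusp/Plug` from a `ThreeVal`.**

For `T : ThreeVal K M₀ q O sv` (helper24, `V/ThreeVal`), `jj = α₂α₁ j`, `jj'' = β₂β₁ j`
(`Cusp/ModEqFF`), `J = jqModC κ`:

* the values of the three places: `θ₂ jj = J`, `θ₂ jj'' = J^(q²)`; `ev11 jj = J = ev11 jj''`;
  `ev02 jj'' = J`, `ev02 jj = J^(q²)`;
* the SIX residue relations of `Cusp/Plug` (`h20a h20c h11a h11c h02c h02a`) for
  `V 0 = gaussVS K (M₀q²) O`, `V 1 = T.V11`, `V 2 = T.V02`;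
* `hram` for `T.V11` (from `T.unif_V11`, `T.ram_V11`);
* the residue hypothesis `hres` (`exists_hres_threeVal`) from `T.wilson` at `g = j`.
-/
import Mathlib
import Fermat.Agent.S36.V.ThreeVal
import Fermat.Agent.S36.Cusp.ModEqFF
import Fermat.Agent.S36.Cusp.Residue
import Fermat.Agent.P3G.FibreTwo

set_option autoImplicit false
set_option linter.unusedSectionVars false
set_option linter.unusedVariables false
set_option linter.style.haveILetI false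

open ModularCurve Fermat.Agent.S28.Gauss Fermat.Agent.N4.Chart Fermat.Agent.N4.Setting
  Fermat.Agent.N4.FibreEmbedding Fermat.Agent.N4F.E.GaussDVR Fermat.Agent.N4F.E.DegreeLevelRaise
  Fermat.Agent.P3G.SecondValuation Fermat.Agent.S36.V.MidVal Fermat.Agent.S36.R3.PiSeries
  Fermat.Agent.S36.V.ThreeVal Fermat.Agent.S36.Cusp.ModEqFF Fermat.Agent.N4.Kronecker

namespace Fermat.Agent.S36.Cusp.RelThreeVal

/-! ### Generic: residue relations from the values of a place -/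

section Place

variable {F : Type*} [Field F] (W : ValuationSubring F) {Ω : Type*} [Field Ω] (ev : W →+* Ω)
  (hev : ∀ y : W, ev y = 0 ↔ (y : F) ∈ W.nonunits)

include hev in
theorem valuation_eq_one_of_ev_ne_zero {x : F} (hx : x ∈ W) (h : ev ⟨x, hx⟩ ≠ 0) :
    W.valuation x = 1 := by
  apply le_antisymm ((W.valuation_le_one_iff x).2 hx)
  rw [← not_lt]
  intro hlt
  exact h ((hev ⟨x, hx⟩).2 ((ValuationSubring.mem_nonunits_iff W).2 hlt))

theorem ne_zero_of_ev_ne_zero {x : F} (hx : x ∈ W) (h : ev ⟨x, hx⟩ ≠ 0) : x ≠ 0 := by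
  rintro rfl
  apply h
  have : (⟨0, hx⟩ : W) = 0 := rfl
  rw [this, map_zero]

include hev in
theorem valuation_inv_eq_one_of_ev_ne_zero {x : F} (hx : x ∈ W) (h : ev ⟨x, hx⟩ ≠ 0) :
    W.valuation x⁻¹ = 1 := by
  rw [map_inv₀, valuation_eq_one_of_ev_ne_zero W ev hev hx h, inv_one]

include hev in
/-- `ev y = (ev x)^n ≠ 0` gives `1/y ≡ (1/x)^n` modulo the maximal ideal. -/
theorem valuation_inv_sub_inv_pow_lt_one {x y : F} (hx : x ∈ W) (hy : y ∈ W)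
    (hx0 : ev ⟨x, hx⟩ ≠ 0) (n : ℕ) (hxy : ev ⟨y, hy⟩ = ev ⟨x, hx⟩ ^ n) :
    W.valuation (y⁻¹ - x⁻¹ ^ n) < 1 := by
  have hy0 : ev ⟨y, hy⟩ ≠ 0 := by rw [hxy]; exact pow_ne_zero n hx0
  have hxne : x ≠ 0 := ne_zero_of_ev_ne_zero W ev hx hx0
  have hyne : y ≠ 0 := ne_zero_of_ev_ne_zero W ev hy hy0
  have hd : (⟨x, hx⟩ : W) ^ n - ⟨y, hy⟩ ∈ RingHom.ker ev := by
    rw [RingHom.mem_ker, map_sub, map_pow, hxy, sub_self]
  have hd' : W.valuation (x ^ n - y) < 1 := by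
    have := (hev _).1 hd
    exact (ValuationSubring.mem_nonunits_iff W).1 this
  have hfac : y⁻¹ - x⁻¹ ^ n = (x ^ n - y) * (y⁻¹ * x⁻¹ ^ n) := by
    rw [inv_pow]
    have hxn : x ^ n ≠ 0 := pow_ne_zero n hxne
    field_simp
  rw [hfac, map_mul, map_mul, map_pow, valuation_inv_eq_one_of_ev_ne_zero W ev hev hx hx0,
    valuation_inv_eq_one_of_ev_ne_zero W ev hev hy hy0, one_pow, mul_one, mul_one]
  exact hd'

end Place

/-! ### The concrete data -/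

variable (K : Type) [Field K] [CharZero K] (M0 q : ℕ) [NeZero M0] [hq : Fact q.Prime]
  (O : Subring K) [IsDiscreteValuationRing ↥O] [IsFractionRing ↥O K]

set_option quotPrecheck false in
local notation "κ" => IsLocalRing.ResidueField ↥O

/-- In characteristic `q`, `J(Q^q) = J^q`. -/
theorem qExpand_jqModC [CharP κ q] : qExpand κ q (jqModC κ) = jqModC κ ^ q := by
  rw [pow_char_eq_qExpand q (jqModC κ), coeffMap_jqModC]

/-- In characteristic `q`, `J(Q^{q²}) = J^(q²)`. -/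
theorem qExpand_qExpand_jqModC [CharP κ q] :
    qExpand κ q (qExpand κ q (jqModC κ)) = jqModC κ ^ (q ^ 2) := by
  rw [qExpand_jqModC K q O, map_pow, qExpand_jqModC K q O, ← pow_mul, sq]

theorem jF_mem (N : ℕ) [NeZero N] : jF K N ∈ gaussSubalgebra K N O :=
  jF_mem_gaussSubalgebra K N O

/-! #### The Gauss valuation `V₂₀` -/

theorem jj_mem_gauss : jj K M0 q ∈ gaussSubalgebra K (M0 * q * q) O := by
  rw [jj_eq]; exact jF_mem_gaussSubalgebra K _ O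

theorem theta_jj : theta K (M0 * q * q) O ⟨jj K M0 q, jj_mem_gauss K M0 q O⟩ = jqModC κ := by
  have h : (⟨jj K M0 q, jj_mem_gauss K M0 q O⟩ : gaussSubalgebra K (M0 * q * q) O) =
      ⟨jF K (M0 * q * q), jF_mem_gaussSubalgebra K _ O⟩ := Subtype.ext (jj_eq K M0 q)
  rw [h, theta_jF]

theorem jj''_mem_gauss : jj'' K M0 q ∈ gaussSubalgebra K (M0 * q * q) O :=
  betaF_mem K O (M0 * q) q (betaF_mem K O M0 q (jF_mem_gaussSubalgebra K M0 O))

theorem theta_jj'' [CharP κ q] :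
    theta K (M0 * q * q) O ⟨jj'' K M0 q, jj''_mem_gauss K M0 q O⟩ = jqModC κ ^ (q ^ 2) := by
  have h1 := theta_betaF K O (M0 * q) q
    ⟨betaF K M0 q (jF K M0), betaF_mem K O M0 q (jF_mem_gaussSubalgebra K M0 O)⟩
  have h2 := theta_betaF K O M0 q ⟨jF K M0, jF_mem_gaussSubalgebra K M0 O⟩
  have h3 : theta K (M0 * q * q) O ⟨jj'' K M0 q, jj''_mem_gauss K M0 q O⟩ =
      qExpand κ q (qExpand κ q (theta K M0 O ⟨jF K M0, jF_mem_gaussSubalgebra K M0 O⟩)) := by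
    rw [← h2]
    exact h1
  rw [h3, theta_jF, qExpand_qExpand_jqModC K q O]

/-- The place of the Gauss valuation, on `↥(gaussVS K N O)`. -/
noncomputable def evG (N : ℕ) [NeZero N] : ↥(gaussVS K N O) →+* LaurentSeries κ := theta K N O

theorem evG_eq_zero_iff (N : ℕ) [NeZero N] (y : ↥(gaussVS K N O)) :
    evG K O N y = 0 ↔ (y : FF K N) ∈ (gaussVS K N O).nonunits :=
  (Fermat.Agent.P3G.FibreTwo.mem_nonunits_gaussVS_iff K N O y.2).symm

theorem evG_jj : evG K O (M0 * q * q) ⟨jj K M0 q, jj_mem_gauss K M0 q O⟩ = jqModC κ :=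
  theta_jj K M0 q O

theorem evG_jj'' [CharP κ q] :
    evG K O (M0 * q * q) ⟨jj'' K M0 q, jj''_mem_gauss K M0 q O⟩ = jqModC κ ^ (q ^ 2) :=
  theta_jj'' K M0 q O

/-- (h20a) `1/j` is a unit of `V₂₀`. -/
theorem h20a : (gaussVS K (M0 * q * q) O).valuation (jj K M0 q)⁻¹ = 1 :=
  valuation_inv_eq_one_of_ev_ne_zero _ (evG K O _) (evG_eq_zero_iff K O _) (jj_mem_gauss K M0 q O)
    (by rw [evG_jj]; exact jqModC_ne_zero_of_nontrivial _)

/-- (h20c) on `V₂₀`, `1/j'' ≡ (1/j)^(q²)`. -/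
theorem h20c [CharP κ q] :
    (gaussVS K (M0 * q * q) O).valuation ((jj'' K M0 q)⁻¹ - (jj K M0 q)⁻¹ ^ (q ^ 2)) < 1 :=
  valuation_inv_sub_inv_pow_lt_one _ (evG K O _) (evG_eq_zero_iff K O _) (jj_mem_gauss K M0 q O)
    (jj''_mem_gauss K M0 q O) (by rw [evG_jj]; exact jqModC_ne_zero_of_nontrivial _) (q ^ 2)
    (by rw [evG_jj'', evG_jj])

/-! #### The valuations `V₁₁`, `V₀₂` of a `ThreeVal` -/

variable {K M0 q O}
variable {sv : SecondVal K M0 q O} (T : ThreeVal K M0 q O sv)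

theorem alpha_mem_V11 {x : FF K (M0 * q)} (hx : x ∈ gaussSubalgebra K (M0 * q) O) :
    alphaF K (M0 * q) q x ∈ T.V11 := by
  have h : x ∈ gaussVS K (M0 * q) O := hx
  rw [← T.comap_alpha_V11, ValuationSubring.mem_comap] at h
  exact h

theorem beta_mem_V11 {x : FF K (M0 * q)} (hx : x ∈ sv.V) : betaF K (M0 * q) q x ∈ T.V11 := by
  rw [← T.comap_beta_V11, ValuationSubring.mem_comap] at hx
  exact hx

theorem alpha_mem_V02 {x : FF K (M0 * q)} (hx : x ∈ sv.V) : alphaF K (M0 * q) q x ∈ T.V02 := by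
  rw [← T.comap_alpha_V02, ValuationSubring.mem_comap] at hx
  exact hx

theorem beta_mem_V02 {x : FF K (M0 * q)} (hx : x ∈ sv.V) : betaF K (M0 * q) q x ∈ T.V02 := by
  rw [← T.comap_beta_V02, ValuationSubring.mem_comap] at hx
  exact hx

theorem jj_mem_V11 : jj K M0 q ∈ T.V11 :=
  alpha_mem_V11 T (alphaF_mem K O M0 q (jF_mem_gaussSubalgebra K M0 O))

theorem jj''_mem_V11 : jj'' K M0 q ∈ T.V11 :=
  beta_mem_V11 T (sv.beta_mem _ (jF_mem_gaussSubalgebra K M0 O))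

theorem jj_mem_V02 : jj K M0 q ∈ T.V02 :=
  alpha_mem_V02 T (sv.alpha_mem _ (jF_mem_gaussSubalgebra K M0 O))

theorem jj''_mem_V02 : jj'' K M0 q ∈ T.V02 :=
  beta_mem_V02 T (sv.beta_mem _ (jF_mem_gaussSubalgebra K M0 O))

theorem ev11_jj : T.ev11 ⟨jj K M0 q, jj_mem_V11 T⟩ = jqModC κ := by
  have h := T.ev11_alpha (alphaF K M0 q (jF K M0))
    (alphaF_mem K O M0 q (jF_mem_gaussSubalgebra K M0 O)) (jj_mem_V11 T)
  rw [theta_alphaF K O M0 q ⟨jF K M0, jF_mem_gaussSubalgebra K M0 O⟩, theta_jF] at h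
  exact h

theorem ev11_jj'' : T.ev11 ⟨jj'' K M0 q, jj''_mem_V11 T⟩ = jqModC κ := by
  have h := T.ev11_beta (betaF K M0 q (jF K M0)) (sv.beta_mem _ (jF_mem_gaussSubalgebra K M0 O))
    (jj''_mem_V11 T)
  rw [sv.ev_beta (jF K M0) (jF_mem_gaussSubalgebra K M0 O), theta_jF] at h
  exact h

theorem ev02_jj'' : T.ev02 ⟨jj'' K M0 q, jj''_mem_V02 T⟩ = jqModC κ := by
  have h := T.ev02_beta (betaF K M0 q (jF K M0)) (sv.beta_mem _ (jF_mem_gaussSubalgebra K M0 O))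
    (jj''_mem_V02 T)
  rw [sv.ev_beta (jF K M0) (jF_mem_gaussSubalgebra K M0 O), theta_jF] at h
  exact h

theorem ev02_jj [CharP κ q] : T.ev02 ⟨jj K M0 q, jj_mem_V02 T⟩ = jqModC κ ^ (q ^ 2) := by
  have h := T.ev02_alpha (alphaF K M0 q (jF K M0)) (sv.alpha_mem _ (jF_mem_gaussSubalgebra K M0 O))
    (jj_mem_V02 T)
  rw [sv.ev_alpha (jF K M0) (jF_mem_gaussSubalgebra K M0 O), theta_jF,
    qExpand_qExpand_jqModC K q O] at h
  exact h

/-- (h11a) `1/j` is a unit of `V₁₁`. -/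
theorem h11a : T.V11.valuation (jj K M0 q)⁻¹ = 1 :=
  valuation_inv_eq_one_of_ev_ne_zero _ T.ev11 T.ev11_eq_zero_iff (jj_mem_V11 T)
    (by rw [ev11_jj]; exact jqModC_ne_zero_of_nontrivial _)

/-- (h11c) on `V₁₁`, `1/j'' ≡ 1/j`. -/
theorem h11c : T.V11.valuation ((jj'' K M0 q)⁻¹ - (jj K M0 q)⁻¹) < 1 := by
  have h := valuation_inv_sub_inv_pow_lt_one _ T.ev11 T.ev11_eq_zero_iff (jj_mem_V11 T)
    (jj''_mem_V11 T) (by rw [ev11_jj]; exact jqModC_ne_zero_of_nontrivial _) 1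
    (by rw [ev11_jj'', ev11_jj, pow_one])
  rwa [pow_one] at h

/-- (h02c) `1/j''` is a unit of `V₀₂`. -/
theorem h02c : T.V02.valuation (jj'' K M0 q)⁻¹ = 1 :=
  valuation_inv_eq_one_of_ev_ne_zero _ T.ev02 T.ev02_eq_zero_iff (jj''_mem_V02 T)
    (by rw [ev02_jj'']; exact jqModC_ne_zero_of_nontrivial _)

/-- (h02a) on `V₀₂`, `1/j ≡ (1/j'')^(q²)`. -/
theorem h02a [CharP κ q] :
    T.V02.valuation ((jj K M0 q)⁻¹ - (jj'' K M0 q)⁻¹ ^ (q ^ 2)) < 1 :=
  valuation_inv_sub_inv_pow_lt_one _ T.ev02 T.ev02_eq_zero_iff (jj''_mem_V02 T) (jj_mem_V02 T)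
    (by rw [ev02_jj'']; exact jqModC_ne_zero_of_nontrivial _) (q ^ 2)
    (by rw [ev02_jj, ev02_jj''])

/-! #### Ramification of `V₁₁` -/

theorem natCast_q_ne_zero : ((q : ℕ) : FF K (M0 * q * q)) ≠ 0 := by
  haveI : CharZero (FF K (M0 * q * q)) :=
    charZero_of_injective_algebraMap (algebraMap K (FF K (M0 * q * q))).injective
  exact Nat.cast_ne_zero.2 hq.out.ne_zero

/-- `x ∈ 𝔪(V₁₁) ⇒ x^(q-1)/q ∈ V₁₁`. -/
theorem hram (x : FF K (M0 * q * q)) (hx : x ∈ T.V11.nonunits) :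
    x ^ (q - 1) * ((q : ℕ) : FF K (M0 * q * q))⁻¹ ∈ T.V11 := by
  obtain ⟨w, hw, hwi, hqw⟩ := T.ram_V11
  have hy := T.unif_V11 x hx
  have hq0 := natCast_q_ne_zero (K := K) (M0 := M0) (q := q)
  have hP0 : PiElt K M0 q ≠ 0 := by
    intro h0
    have hq1 : q - 1 ≠ 0 := by have := hq.out.two_le; omega
    rw [h0, zero_pow hq1, mul_zero] at hqw
    exact hq0 hqw
  have hw0 : w ≠ 0 := by
    rintro rfl
    rw [zero_mul] at hqw
    exact hq0 hqw
  have hPp : PiElt K M0 q ^ (q - 1) ≠ 0 := pow_ne_zero _ hP0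
  have he : x ^ (q - 1) * ((q : ℕ) : FF K (M0 * q * q))⁻¹ =
      (x * (PiElt K M0 q)⁻¹) ^ (q - 1) * w⁻¹ := by
    rw [hqw, mul_pow, inv_pow]
    field_simp
  rw [he]
  exact T.V11.mul_mem _ _ (T.V11.pow_mem hy _) hwi

/-! #### The residue hypothesis -/

/-- **`hres` of `Cusp/Plug` from the Wilson residue of a `ThreeVal`.** -/
theorem exists_hres_threeVal [CharP κ q] {R : Type*} [CommRing R] [Algebra R (FF K (M0 * q * q))]
    (a : R) (haj : algebraMap R (FF K (M0 * q * q)) a = (jj K M0 q)⁻¹) :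
    ∃ S T' : R, (∀ 𝔫 : Ideal R, 𝔫.IsPrime → a ∈ 𝔫 → S ∉ 𝔫 ∧ T' ∉ 𝔫) ∧
      (1 - jj K M0 q / jj'' K M0 q) ^ (q - 1) * ((q : ℕ) : FF K (M0 * q * q))⁻¹ *
        algebraMap R (FF K (M0 * q * q)) S + algebraMap R (FF K (M0 * q * q)) T' ∈
          T.V11.nonunits := by
  obtain ⟨hw, hev⟩ := T.wilson (jF K M0) (jF_mem_gaussSubalgebra K M0 O)
  rw [theta_jF] at hev
  exact Fermat.Agent.S36.Cusp.Residue.exists_hres q T.V11 T.ev11 T.ev11_eq_zero_iff
    (natCast_q_ne_zero (K := K) (M0 := M0) (q := q)) (jj_mem_V11 T) (jj''_mem_V11 T) (ev11_jj T)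
    (ev11_jj'' T) hw hev a haj

end Fermat.Agent.S36.Cusp.RelThreeVal
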