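/-
S36, block [CUSP] (helper17), part 12: **two charts with the same local ring at a point.**

`R_s = chartAlg O F {s}`, `R_t = chartAlg O F {t}` (integral closures of `O[s]`, `O[t]` in `F`), `𝔫` a prime of
`R_s` with `t ∈ (R_s)_𝔫`.  Then `R_t ⊆ (R_s)_𝔫` (`chartAlg_le_locAt`), the contraction
`twin 𝔫 = 𝔪((R_s)_𝔫) ∩ R_t` is a prime of `R_t` with `(R_t)_{twin} ⊆ (R_s)_𝔫`, and if moreover
`s ∈ (R_t)_{twin}` the two local rings COINCIDE inside `F` (`mem_locAt_twin_iff`).  Constants lie in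
`twin 𝔫` iff they lie in `𝔫`; if `t ∈ 𝔪((R_s)_𝔫)`, `π ∈ 𝔫` and `(π)` is maximal in `O`, then `twin 𝔫` is a
maximal ideal.

Application (the cusps, `Cusp/InvLevel`): `s = 1/j`, `t = 1/j_N = w_N(1/j)`: every cusp point of the chart
at infinity is also a point of the Fricke-twisted chart `w_N(Rinf) = chartAlg O F {1/j_N}`, with the
same local ring.
-/
import Mathlib
import Fermat.Agent.N4.Chart
import Fermat.Agent.N4.Cover.Globalize
import Fermat.Agent.P3G.Krull
import Fermat.Agent.S36.Alg.ChartTransferMax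

set_option autoImplicit false
set_option linter.unusedSectionVars false
set_option linter.unusedVariables false
set_option linter.style.haveILetI false

namespace Fermat.Agent.S36.Cusp.TwoCharts

open Fermat.Agent.N4.Chart Fermat.Agent.N4.Cover.Globalize

variable {O F : Type*} [CommRing O] [Field F] [Algebra O F] {s t : F}
  [IsFractionRing (chartAlg O F {s}) F] [IsFractionRing (chartAlg O F {t}) F]

/-- A chart is integrally closed. -/
theorem isIntegrallyClosed_chartAlg (s : F) [IsFractionRing (chartAlg O F {s}) F] :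
    IsIntegrallyClosed (chartAlg O F {s}) :=
  (isIntegrallyClosed_iff F).2 fun {x} hx => ⟨⟨x, isIntegral_chartAlg_iff.1 hx⟩, rfl⟩

variable (𝔫 : Ideal (chartAlg O F {s})) [h𝔫 : 𝔫.IsPrime]

theorem isLocalRing_locAt' : IsLocalRing (locAt (F := F) 𝔫) :=
  IsLocalization.AtPrime.isLocalRing (locAt (F := F) 𝔫) 𝔫

theorem isIntegrallyClosed_locAt' : IsIntegrallyClosed (locAt (F := F) 𝔫) :=
  haveI := isIntegrallyClosed_chartAlg (O := O) s
  isIntegrallyClosed_of_isLocalization _ 𝔫.primeCompl 𝔫.primeCompl_le_nonZeroDivisors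

/-- Constants lie in `locAt 𝔫`. -/
theorem algebraMap_mem_locAt' (c : O) : algebraMap O F c ∈ locAt (F := F) 𝔫 :=
  (locAt (F := F) 𝔫).algebraMap_mem (algebraMap O (chartAlg O F {s}) c)

/-- `O[t] ⊆ (R_s)_𝔫` as soon as `t ∈ (R_s)_𝔫`. -/
theorem adjoin_le_locAt (ht : t ∈ locAt (F := F) 𝔫) :
    ∀ x ∈ Algebra.adjoin O ({t} : Set F), x ∈ locAt (F := F) 𝔫 := by
  intro x hx
  induction hx using Algebra.adjoin_induction with
  | mem y hy =>
    rw [Set.mem_singleton_iff] at hy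
    rw [hy]; exact ht
  | algebraMap c => exact algebraMap_mem_locAt' 𝔫 c
  | add y z _ _ hy hz => exact add_mem hy hz
  | mul y z _ _ hy hz => exact mul_mem hy hz

/-- **`R_t ⊆ (R_s)_𝔫`** as soon as `t ∈ (R_s)_𝔫`. -/
theorem chartAlg_le_locAt (ht : t ∈ locAt (F := F) 𝔫) :
    ∀ x ∈ chartAlg O F {t}, x ∈ locAt (F := F) 𝔫 := by
  intro x hx
  haveI := isIntegrallyClosed_locAt' (F := F) 𝔫
  haveI : IsFractionRing (locAt (F := F) 𝔫) F :=
    IsFractionRing.isFractionRing_of_isDomain_of_isLocalization 𝔫.primeCompl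
      (locAt (F := F) 𝔫) F
  rw [mem_chartAlg_iff] at hx
  -- `x` is integral over `locAt 𝔫`
  let φ : Algebra.adjoin O ({t} : Set F) →+* locAt (F := F) 𝔫 :=
    (Algebra.adjoin O ({t} : Set F)).val.toRingHom.codRestrict (locAt (F := F) 𝔫).toSubring
      (fun y => adjoin_le_locAt 𝔫 ht y y.2)
  have hint : IsIntegral (locAt (F := F) 𝔫) x := by
    have := hx.map_of_comp_eq φ (RingHom.id F) (by ext y; rfl)
    simpa using this
  obtain ⟨z, hz⟩ := IsIntegrallyClosed.isIntegral_iff.1 hint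
  rw [← hz]
  exact z.2

/-! ### The twin prime -/

section Twin

open Fermat.Agent.P3G.Krull

variable (ht : t ∈ locAt (F := F) 𝔫)

/-- The inclusion `R_t → (R_s)_𝔫`. -/
noncomputable def incl : chartAlg O F {t} →+* locAt (F := F) 𝔫 :=
  (chartAlg O F {t}).val.toRingHom.codRestrict (locAt (F := F) 𝔫).toSubring
    (fun y => chartAlg_le_locAt 𝔫 ht y y.2)

@[simp] theorem coe_incl (y : chartAlg O F {t}) : ((incl 𝔫 ht y : locAt (F := F) 𝔫) : F) = y := rfl

/-- The twin prime of `R_t`: the contraction of the maximal ideal of `(R_s)_𝔫`. -/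
noncomputable def twin : Ideal (chartAlg O F {t}) :=
  (@IsLocalRing.maximalIdeal (locAt (F := F) 𝔫) _ (isLocalRing_locAt' 𝔫)).comap (incl 𝔫 ht)

theorem mem_twin_iff (y : chartAlg O F {t}) : y ∈ twin 𝔫 ht ↔ ¬ IsUnit (incl 𝔫 ht y) := by
  haveI := isLocalRing_locAt' (F := F) 𝔫
  unfold twin
  rw [Ideal.mem_comap, IsLocalRing.mem_maximalIdeal, mem_nonunits_iff]

instance twin_isPrime : (twin 𝔫 ht).IsPrime := by
  haveI := isLocalRing_locAt' (F := F) 𝔫
  unfold twin
  exact Ideal.comap_isPrime _ _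

/-- An element of `R_s` outside `𝔫` is a unit of `(R_s)_𝔫`. -/
theorem isUnit_of_notMem {b : chartAlg O F {s}} (hb : b ∉ 𝔫) :
    IsUnit (algebraMap (chartAlg O F {s}) (locAt (F := F) 𝔫) b) :=
  IsLocalization.map_units (locAt (F := F) 𝔫) (⟨b, hb⟩ : 𝔫.primeCompl)

/-- A unit of a subring of `F`, in terms of the inverse in `F`. -/
theorem inv_mem_of_isUnit {A : Subalgebra (chartAlg O F {s}) F} {x : A} (hx : IsUnit x) :
    ((x : F))⁻¹ ∈ A := by
  obtain ⟨u, rfl⟩ := hx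
  have h1 : ((u : A) : F) * (((u⁻¹ : Aˣ) : A) : F) = 1 := by
    rw [← Subalgebra.coe_mul, Units.mul_inv]; rfl
  rw [inv_eq_of_mul_eq_one_right h1]
  exact ((u⁻¹ : Aˣ) : A).2

theorem isUnit_of_inv_mem {A : Subalgebra (chartAlg O F {s}) F} {x : A} (hx0 : (x : F) ≠ 0)
    (hx : ((x : F))⁻¹ ∈ A) : IsUnit x :=
  IsUnit.of_mul_eq_one ⟨_, hx⟩ (Subtype.ext (mul_inv_cancel₀ hx0))

/-- **`(R_t)_{twin} ⊆ (R_s)_𝔫`.** -/
theorem locAt_twin_le {x : F} (hx : x ∈ locAt (F := F) (twin 𝔫 ht)) : x ∈ locAt (F := F) 𝔫 := by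
  obtain ⟨a, b, hb, hxb⟩ := (mem_locAt_iff (twin 𝔫 ht) x).1 hx
  rw [mem_twin_iff, not_not] at hb
  have hbinv := inv_mem_of_isUnit hb
  rw [coe_incl] at hbinv
  have hb0 : (b : F) ≠ 0 := by
    intro h0
    have : incl 𝔫 ht b = 0 := Subtype.ext (by rw [coe_incl, h0]; rfl)
    rw [this] at hb
    haveI := isLocalRing_locAt' (F := F) 𝔫
    exact not_isUnit_zero hb
  have hxe : x = (a : F) * ((b : F))⁻¹ := by
    have h1 : x * (b : F) = (a : F) := hxb
    rw [← h1, mul_assoc, mul_inv_cancel₀ hb0, mul_one]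
  rw [hxe]
  exact mul_mem (chartAlg_le_locAt 𝔫 ht a a.2) hbinv

/-- **The two local rings coincide** if moreover `s ∈ (R_t)_{twin}`. -/
theorem mem_locAt_twin_iff (hs : s ∈ locAt (F := F) (twin 𝔫 ht)) (x : F) :
    x ∈ locAt (F := F) (twin 𝔫 ht) ↔ x ∈ locAt (F := F) 𝔫 := by
  refine ⟨locAt_twin_le 𝔫 ht, fun hx => ?_⟩
  obtain ⟨a, b, hb, hxb⟩ := (mem_locAt_iff 𝔫 x).1 hx
  have haT : (a : F) ∈ locAt (F := F) (twin 𝔫 ht) := chartAlg_le_locAt (twin 𝔫 ht) hs a a.2
  have hbT : (b : F) ∈ locAt (F := F) (twin 𝔫 ht) := chartAlg_le_locAt (twin 𝔫 ht) hs b b.2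
  have hb0 : (b : F) ≠ 0 := algebraMap_ne_zero_of_notMem (F := F) 𝔫 hb
  -- `b = c / d` with `c, d ∈ R_t`, `d ∉ twin`; then `c ∉ twin` as well
  obtain ⟨c, d, hd, hbd⟩ := (mem_locAt_iff (twin 𝔫 ht) (b : F)).1 hbT
  have hbd' : (b : F) * (d : F) = (c : F) := hbd
  have hd' := hd
  rw [mem_twin_iff, not_not] at hd'
  have hbu : IsUnit (algebraMap (chartAlg O F {s}) (locAt (F := F) 𝔫) b) := isUnit_of_notMem 𝔫 hb
  have hcu : IsUnit (incl 𝔫 ht c) := by
    have : incl 𝔫 ht c = algebraMap (chartAlg O F {s}) (locAt (F := F) 𝔫) b * incl 𝔫 ht d :=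
      Subtype.ext (by
        rw [coe_incl]
        show (c : F) = (b : F) * (d : F)
        exact hbd'.symm)
    rw [this]
    exact hbu.mul hd'
  have hc : c ∉ twin 𝔫 ht := by rw [mem_twin_iff, not_not]; exact hcu
  have hcinv : ((c : F))⁻¹ ∈ locAt (F := F) (twin 𝔫 ht) := inv_mem_locAt (twin 𝔫 ht) hc
  have hd0 : (d : F) ≠ 0 := algebraMap_ne_zero_of_notMem (F := F) (twin 𝔫 ht) hd
  have hc0 : (c : F) ≠ 0 := by rw [← hbd']; exact mul_ne_zero hb0 hd0
  have hbinv : ((b : F))⁻¹ = (d : F) * ((c : F))⁻¹ := by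
    rw [← hbd']
    field_simp
  have hxe : x = (a : F) * ((b : F))⁻¹ := by
    have h1 : x * (b : F) = (a : F) := hxb
    rw [← h1, mul_assoc, mul_inv_cancel₀ hb0, mul_one]
  rw [hxe, hbinv]
  exact mul_mem haT (mul_mem ((locAt (F := F) (twin 𝔫 ht)).algebraMap_mem d) hcinv)

/-- Constants: `c ∈ twin 𝔫 ↔ c ∈ 𝔫`. -/
theorem algebraMap_mem_twin_iff (c : O) :
    algebraMap O (chartAlg O F {t}) c ∈ twin 𝔫 ht ↔ algebraMap O (chartAlg O F {s}) c ∈ 𝔫 := by
  rw [mem_twin_iff]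
  have heq : incl 𝔫 ht (algebraMap O (chartAlg O F {t}) c) =
      algebraMap (chartAlg O F {s}) (locAt (F := F) 𝔫) (algebraMap O (chartAlg O F {s}) c) :=
    Subtype.ext rfl
  rw [heq]
  constructor
  · intro h
    by_contra hc
    exact h (isUnit_of_notMem 𝔫 hc)
  · intro h hu
    have := (IsLocalization.AtPrime.isUnit_to_map_iff (locAt (F := F) 𝔫) 𝔫
      (algebraMap O (chartAlg O F {s}) c)).1 hu
    exact this h

/-- The generator: `t ∈ twin 𝔫 ↔ t` is a non-unit of `(R_s)_𝔫`. -/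
theorem gen_mem_twin_iff :
    (chartGen (O := O) (Set.mem_singleton t) : chartAlg O F {t}) ∈ twin 𝔫 ht ↔
      ¬ IsUnit (⟨t, ht⟩ : locAt (F := F) 𝔫) := by
  rw [mem_twin_iff]
  rfl

end Twin

/-! ### Maximality of a prime of a chart containing `π` and the coordinate -/

section Maximal

open Fermat.Agent.S36.Alg.ChartTransfer Fermat.Agent.S36.Alg.ChartTransferMax

variable {O F : Type*} [CommRing O] [Field F] [Algebra O F] {t : F}

/-- Modulo an ideal of `O[t]` containing `t`, every element of `O[t]` is a constant. -/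
theorem exists_const_sub_mem (I : Ideal (Algebra.adjoin O ({t} : Set F)))
    (ht : (⟨t, Algebra.subset_adjoin (Set.mem_singleton t)⟩ : Algebra.adjoin O ({t} : Set F)) ∈ I)
    (x : Algebra.adjoin O ({t} : Set F)) :
    ∃ c : O, x - algebraMap O (Algebra.adjoin O ({t} : Set F)) c ∈ I := by
  obtain ⟨x, hx⟩ := x
  induction hx using Algebra.adjoin_induction with
  | mem y hy =>
    rw [Set.mem_singleton_iff] at hy
    subst hy
    exact ⟨0, by rw [map_zero, sub_zero]; exact ht⟩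
  | algebraMap r =>
    refine ⟨r, ?_⟩
    have : (⟨algebraMap O F r, (Algebra.adjoin O ({t} : Set F)).algebraMap_mem r⟩ :
        Algebra.adjoin O ({t} : Set F)) = algebraMap O _ r := rfl
    rw [this, sub_self]
    exact I.zero_mem
  | add y z hy hz ihy ihz =>
    obtain ⟨c, hc⟩ := ihy
    obtain ⟨d, hd⟩ := ihz
    refine ⟨c + d, ?_⟩
    have : (⟨y + z, add_mem hy hz⟩ : Algebra.adjoin O ({t} : Set F)) - algebraMap O _ (c + d) =
        ((⟨y, hy⟩ : Algebra.adjoin O ({t} : Set F)) - algebraMap O _ c) +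
          ((⟨z, hz⟩ : Algebra.adjoin O ({t} : Set F)) - algebraMap O _ d) := by
      rw [map_add]
      apply Subtype.ext
      push_cast
      ring
    rw [this]
    exact I.add_mem hc hd
  | mul y z hy hz ihy ihz =>
    obtain ⟨c, hc⟩ := ihy
    obtain ⟨d, hd⟩ := ihz
    refine ⟨c * d, ?_⟩
    have : (⟨y * z, mul_mem hy hz⟩ : Algebra.adjoin O ({t} : Set F)) - algebraMap O _ (c * d) =
        (⟨y, hy⟩ : Algebra.adjoin O ({t} : Set F)) *
          ((⟨z, hz⟩ : Algebra.adjoin O ({t} : Set F)) - algebraMap O _ d) +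
        ((⟨y, hy⟩ : Algebra.adjoin O ({t} : Set F)) - algebraMap O _ c) * algebraMap O _ d := by
      rw [map_mul]
      apply Subtype.ext
      push_cast
      ring
    rw [this]
    exact I.add_mem (I.mul_mem_left _ hd) (I.mul_mem_right _ hc)

/-- **A prime of the chart `R_t` containing `π` and `t` is maximal** (`(π)` maximal in `O`). -/
theorem isMaximal_of_gen_mem {π : O} (hπ : (Ideal.span {π}).IsMaximal)
    (𝔭 : Ideal (chartAlg O F {t})) [h𝔭 : 𝔭.IsPrime]
    (hπ𝔭 : algebraMap O (chartAlg O F {t}) π ∈ 𝔭) (ht𝔭 : gen t ∈ 𝔭) : 𝔭.IsMaximal := by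
  refine Ideal.isMaximal_of_isIntegral_of_isMaximal_comap' (adjIncl (O := O) t).toRingHom
    (fun y => isIntegralElem_adjIncl t y) 𝔭 ?_
  set I := 𝔭.comap (adjIncl (O := O) t).toRingHom with hI
  have htI : (⟨t, Algebra.subset_adjoin (Set.mem_singleton t)⟩ :
      Algebra.adjoin O ({t} : Set F)) ∈ I := by
    rw [hI, Ideal.mem_comap]
    exact ht𝔭
  have hconst : ∀ c : O, c ∈ Ideal.span {π} →
      algebraMap O (Algebra.adjoin O ({t} : Set F)) c ∈ I := by
    intro c hc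
    obtain ⟨d, rfl⟩ := Ideal.mem_span_singleton.1 hc
    rw [hI, Ideal.mem_comap]
    have : (adjIncl (O := O) t).toRingHom (algebraMap O _ (π * d)) =
        algebraMap O (chartAlg O F {t}) π * algebraMap O (chartAlg O F {t}) d := by
      rw [map_mul, map_mul]
      rfl
    rw [this]
    exact 𝔭.mul_mem_right _ hπ𝔭
  rw [Ideal.isMaximal_iff]
  refine ⟨fun h1 => h𝔭.ne_top ((Ideal.eq_top_iff_one _).2 ?_), fun J x hIJ hxI hxJ => ?_⟩
  · rw [hI, Ideal.mem_comap, map_one] at h1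
    exact h1
  · obtain ⟨c, hc⟩ := exists_const_sub_mem I htI x
    have hcJ : algebraMap O (Algebra.adjoin O ({t} : Set F)) c ∈ J := by
      have : algebraMap O (Algebra.adjoin O ({t} : Set F)) c =
          x - (x - algebraMap O (Algebra.adjoin O ({t} : Set F)) c) := by ring
      rw [this]
      exact J.sub_mem hxJ (hIJ hc)
    have hcπ : c ∉ Ideal.span {π} := by
      intro h
      apply hxI
      have : x = (x - algebraMap O (Algebra.adjoin O ({t} : Set F)) c) +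
          algebraMap O (Algebra.adjoin O ({t} : Set F)) c := by ring
      rw [this]
      exact I.add_mem hc (hconst c h)
    obtain ⟨y, i, hi, hyi⟩ := hπ.exists_inv hcπ
    have h1 : (1 : Algebra.adjoin O ({t} : Set F)) =
        algebraMap O _ y * algebraMap O _ c + algebraMap O _ i := by
      rw [← map_mul, ← map_add, hyi, map_one]
    rw [h1]
    exact J.add_mem (J.mul_mem_left _ hcJ) (hIJ (hconst i hi))

end Maximal

/-! ### The twin of a cusp point is a closed point -/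

section TwinMaximal

open Fermat.Agent.S36.Alg.ChartTransfer

variable {O F : Type*} [CommRing O] [Field F] [Algebra O F] {s t : F}
  [IsFractionRing (chartAlg O F {s}) F] [IsFractionRing (chartAlg O F {t}) F]
  (𝔫 : Ideal (chartAlg O F {s})) [h𝔫 : 𝔫.IsPrime] (ht : t ∈ locAt (F := F) 𝔫)

/-- If `π ∈ 𝔫` (`(π)` maximal in `O`) and `t` is a non-unit of `(R_s)_𝔫`, the twin prime is maximal. -/
theorem twin_isMaximal {π : O} (hπ : (Ideal.span {π}).IsMaximal)
    (hπ𝔫 : algebraMap O (chartAlg O F {s}) π ∈ 𝔫)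
    (htm : ¬ IsUnit (⟨t, ht⟩ : locAt (F := F) 𝔫)) : (twin 𝔫 ht).IsMaximal :=
  isMaximal_of_gen_mem hπ (twin 𝔫 ht) ((algebraMap_mem_twin_iff 𝔫 ht π).2 hπ𝔫)
    ((gen_mem_twin_iff 𝔫 ht).2 htm)

end TwinMaximal

end Fermat.Agent.S36.Cusp.TwoCharts
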