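/-
S36, block [CUSP] (helper17), part 14: **the cusp points of the chart at infinity of level `M₀ q²`,
instantiated** — the three per-point hypotheses `hone`, `hUFDc`, `hPIDc` of
`Descent/SpineRoots.localRoots_both` (= those of `LocalRootsInst.localRoots_chart_onlyOne` with
`P 𝔫 := gen s⁻¹ ∈ 𝔫`), `s = jF K (M₀ q²)`, for a family `V : Fin 3 → ValuationSubring (FF K (M₀q²))`
with `V 0 = gaussVS`, `V 1 = T.V11`, `V 2 = T.V02`, `T : ThreeVal K M₀ q O sv`.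

Remaining inputs: the chart hypotheses `Hm : ChartHyp V hVm π E` (block [C]/[D]), `π = q` in `K`,
and the Dedekind branches `hD`, `hnf` (block [BRANCH], `One/BranchTop`).
-/
import Mathlib
import Fermat.Agent.S36.Cusp.RelThreeVal
import Fermat.Agent.S36.Cusp.Plug
import Fermat.Agent.S36.Cusp.TwoCharts
import Fermat.Agent.S36.Alg.ChartTransfer

set_option autoImplicit false
set_option linter.unusedSectionVars false
set_option linter.unusedVariables false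
set_option linter.style.haveILetI false

open ModularCurve Fermat.Agent.S28.Gauss Fermat.Agent.N4.Chart Fermat.Agent.N4.Setting
  Fermat.Agent.N4.FibreEmbedding Fermat.Agent.N4F.E.GaussDVR Fermat.Agent.N4F.E.DegreeLevelRaise
  Fermat.Agent.P3G.SecondValuation Fermat.Agent.S36.V.ThreeVal Fermat.Agent.S36.Cusp.ModEqFF
  Fermat.Agent.N4.Cover.Globalize Fermat.Agent.P3G.Krull
  Fermat.Agent.S36.Local.LocalRoot Fermat.Agent.S36.D.ChartRoots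
  Fermat.Agent.S36.Alg.ChartTransfer Fermat.Agent.S36.Cusp.RelThreeVal
  Fermat.Agent.S36.Local.ChartSpread Fermat.Agent.S36.Local.Spread

namespace Fermat.Agent.S36.Cusp.Inst

variable {K : Type} [Field K] [CharZero K] {M0 q : ℕ} [NeZero M0] [hq : Fact q.Prime]
  {O : Subring K} [IsDiscreteValuationRing ↥O] [IsFractionRing ↥O K]
  [CharP (IsLocalRing.ResidueField ↥O) q]
  {sv : SecondVal K M0 q O} (T : ThreeVal K M0 q O sv)

variable [IsNoetherianRing ↥(Rinf K (M0 * q * q) O)]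
  [IsFractionRing ↥(Rinf K (M0 * q * q) O) (FF K (M0 * q * q))]
  {V : Fin 3 → ValuationSubring (FF K (M0 * q * q))}
  (hV0 : V 0 = gaussVS K (M0 * q * q) O) (hV1 : V 1 = T.V11) (hV2 : V 2 = T.V02)
  {hVm : ∀ i (r : ↥(Rinf K (M0 * q * q) O)),
    algebraMap ↥(Rinf K (M0 * q * q) O) (FF K (M0 * q * q)) r ∈
      V i}
  {π : ↥O} {E : ℕ} (Hm : ChartHyp V hVm π E) (hπq : ((π : ↥O) : K) = ((q : ℕ) : K))
  (hD : ∀ i, IsDedekindDomain
    (↥(Rinf K (M0 * q * q) O) ⧸ vCentre (V i) (hVm i)))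
  (hnf : ∀ i, ¬ IsField
    (↥(Rinf K (M0 * q * q) O) ⧸ vCentre (V i) (hVm i)))

include hπq in
theorem algebraMap_pi :
    algebraMap ↥(Rinf K (M0 * q * q) O) (FF K (M0 * q * q))
      (algebraMap ↥O ↥(Rinf K (M0 * q * q) O) π) =
      ((q : ℕ) : FF K (M0 * q * q)) := by
  show algebraMap K (FF K (M0 * q * q)) (π : K) = _
  rw [hπq, map_natCast]

theorem algebraMap_gen :
    algebraMap ↥(Rinf K (M0 * q * q) O) (FF K (M0 * q * q))
      (gen (O := ↥O) (jF K (M0 * q * q))⁻¹) = (jj K M0 q)⁻¹ := by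
  rw [jj_eq]
  rfl

instance isIntegrallyClosed_chart :
    IsIntegrallyClosed ↥(Rinf K (M0 * q * q) O) :=
  Fermat.Agent.S36.Cusp.TwoCharts.isIntegrallyClosed_chartAlg _

include Hm hπq hV0 hV1 hV2 in
/-- **`hone` of `SpineRoots.localRoots_both`** at the cusps of the chart at infinity. -/
theorem hone_top (𝔫 : Ideal ↥(Rinf K (M0 * q * q) O))
    [𝔫.IsPrime] (h𝔫 : 𝔫.IsMaximal)
    (hπ𝔫 : algebraMap ↥O ↥(Rinf K (M0 * q * q) O) π ∈ 𝔫)
    (ha𝔫 : gen (O := ↥O) (jF K (M0 * q * q))⁻¹ ∈ 𝔫) :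
    ∃ i₀, centre (V i₀) (hVm i₀) ≤ 𝔫 ∧ ∀ j, j ≠ i₀ → ¬ centre (V j) (hVm j) ≤ 𝔫 :=
  Fermat.Agent.S36.Cusp.Plug.hone_cusp Hm q (algebraMap_pi hπq) (jj_ne_zero K M0 q)
    (jj'_ne_zero K M0 q) (jj''_ne_zero K M0 q) (evZ_jj_jj' K M0 q) (evZ_jj'_jj'' K M0 q)
    (gen (O := ↥O) (jF K (M0 * q * q))⁻¹) algebraMap_gen
    (by rw [hV0]; exact h20a K M0 q O) (by rw [hV0]; exact h20c K M0 q O)
    (by rw [hV1]; exact h11a T) (by rw [hV1]; exact h11c T)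
    (by rw [hV2]; exact h02c T) (by rw [hV2]; exact h02a T) 𝔫 h𝔫 hπ𝔫 ha𝔫

include Hm hV0 in
theorem hunif20 (x : FF K (M0 * q * q)) (hx : x ∈ (V 0).nonunits) :
    x * (algebraMap ↥(Rinf K (M0 * q * q) O) (FF K (M0 * q * q))
      (algebraMap ↥O ↥(Rinf K (M0 * q * q) O) π))⁻¹ ∈ V 0 := by
  rw [hV0] at hx ⊢
  exact Fermat.Agent.S36.V.Transport.ram_one_gaussVS K O (M0 * q * q) Hm.irr x hx

include Hm hV2 in
theorem hunif02 (x : FF K (M0 * q * q)) (hx : x ∈ (V 2).nonunits) :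
    x * (algebraMap ↥(Rinf K (M0 * q * q) O) (FF K (M0 * q * q))
      (algebraMap ↥O ↥(Rinf K (M0 * q * q) O) π))⁻¹ ∈ V 2 := by
  rw [hV2] at hx ⊢
  exact T.ram_one_V02 π Hm.irr x hx

include Hm hπq hV0 hV1 hV2 hD hnf in
/-- **`hUFDc` of `SpineRoots.localRoots_both`** at the cusps of the chart at infinity. -/
theorem hUFD_top (𝔫 : Ideal ↥(Rinf K (M0 * q * q) O))
    [𝔫.IsPrime] (h𝔫 : 𝔫.IsMaximal)
    (hπ𝔫 : algebraMap ↥O ↥(Rinf K (M0 * q * q) O) π ∈ 𝔫)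
    (ha𝔫 : gen (O := ↥O) (jF K (M0 * q * q))⁻¹ ∈ 𝔫) :
    UniqueFactorizationMonoid (locAt (F := FF K (M0 * q * q)) 𝔫) := by
  obtain ⟨S, T', hST, hres⟩ := exists_hres_threeVal T
    (gen (O := ↥O) (jF K (M0 * q * q))⁻¹) algebraMap_gen
  exact Fermat.Agent.S36.Cusp.Plug.hUFD_cusp Hm q (algebraMap_pi hπq) (jj_ne_zero K M0 q)
    (jj'_ne_zero K M0 q) (jj''_ne_zero K M0 q) (evZ_jj_jj' K M0 q) (evZ_jj'_jj'' K M0 q)
    (gen (O := ↥O) (jF K (M0 * q * q))⁻¹) algebraMap_gen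
    (by rw [hV0]; exact h20a K M0 q O) (by rw [hV0]; exact h20c K M0 q O)
    (by rw [hV1]; exact h11a T) (by rw [hV1]; exact h11c T)
    (by rw [hV2]; exact h02c T) (by rw [hV2]; exact h02a T)
    (hunif20 hV0 Hm) (hunif02 T hV2 Hm) (by rw [hV1]; exact hram T) S T' hST
    (by rw [hV1]; exact hres) hD hnf 𝔫 h𝔫 hπ𝔫 ha𝔫

include Hm hπq hV0 hV1 hV2 hD hnf in
/-- **`hPIDc` of `SpineRoots.localRoots_both`** at the cusps of the chart at infinity. -/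
theorem hPID_top (𝔫 : Ideal ↥(Rinf K (M0 * q * q) O))
    [𝔫.IsPrime] (h𝔫 : 𝔫.IsMaximal)
    (hπ𝔫 : algebraMap ↥O ↥(Rinf K (M0 * q * q) O) π ∈ 𝔫)
    (ha𝔫 : gen (O := ↥O) (jF K (M0 * q * q))⁻¹ ∈ 𝔫) (i : Fin 3)
    (hi : centre (V i) (hVm i) ≤ 𝔫) :
    IsPrincipalIdealRing (locAt (F := FF K (M0 * q * q)) 𝔫 ⧸
      centre (V i) (fun b => locAt_le 𝔫 (V i) (hVm i) hi b)) := by
  obtain ⟨S, T', hST, hres⟩ := exists_hres_threeVal T
    (gen (O := ↥O) (jF K (M0 * q * q))⁻¹) algebraMap_gen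
  have h20a' : (V 0).valuation (jj K M0 q)⁻¹ = 1 := by rw [hV0]; exact h20a K M0 q O
  have h20c' : (V 0).valuation ((jj'' K M0 q)⁻¹ - (jj K M0 q)⁻¹ ^ (q ^ 2)) < 1 := by
    rw [hV0]; exact h20c K M0 q O
  have h11a' : (V 1).valuation (jj K M0 q)⁻¹ = 1 := by rw [hV1]; exact h11a T
  have h11c' : (V 1).valuation ((jj'' K M0 q)⁻¹ - (jj K M0 q)⁻¹) < 1 := by
    rw [hV1]; exact h11c T
  have h02c' : (V 2).valuation (jj'' K M0 q)⁻¹ = 1 := by rw [hV2]; exact h02c T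
  have h02a' : (V 2).valuation ((jj K M0 q)⁻¹ - (jj'' K M0 q)⁻¹ ^ (q ^ 2)) < 1 := by
    rw [hV2]; exact h02a T
  have hram' : ∀ x : FF K (M0 * q * q), x ∈ (V 1).nonunits →
      x ^ (q - 1) * ((q : ℕ) : FF K (M0 * q * q))⁻¹ ∈ V 1 := by rw [hV1]; exact hram T
  have hres' : (1 - jj K M0 q / jj'' K M0 q) ^ (q - 1) * ((q : ℕ) : FF K (M0 * q * q))⁻¹ *
      algebraMap ↥(Rinf K (M0 * q * q) O) (FF K (M0 * q * q)) S +
      algebraMap ↥(Rinf K (M0 * q * q) O) (FF K (M0 * q * q)) T' ∈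
        (V 1).nonunits := by rw [hV1]; exact hres
  exact Fermat.Agent.S36.Cusp.Plug.hPID_cusp (V := V) (hV := hVm) Hm q (algebraMap_pi hπq)
    (jj_ne_zero K M0 q)
    (jj'_ne_zero K M0 q) (jj''_ne_zero K M0 q) (evZ_jj_jj' K M0 q) (evZ_jj'_jj'' K M0 q)
    (gen (O := ↥O) (jF K (M0 * q * q))⁻¹) algebraMap_gen h20a' h20c' h11a' h11c' h02c' h02a'
    (hunif20 hV0 Hm) (hunif02 T hV2 Hm) hram' S T' hST hres' hD hnf 𝔫 h𝔫 hπ𝔫 ha𝔫 i hi

end Fermat.Agent.S36.Cusp.Inst
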