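/-
S36, block [CUSP] (helper17), part 15: **`hcusp` of `Descent/SpineRootsTop.rootsInterface_top`,
VERBATIM**: at every cusp `𝔫 ∋ q, 1/j` of the chart at infinity `Rinf K (M₀q²) O` the point lies on
exactly one vertical component and `(I-R)` holds there (`LocalRootsBoth.OnePoint`), for the family
`fam3 K M₀ q O T.V11 T.V02`, `T : ThreeVal K M₀ q O sv`, generic in `(K, O)`.

* `hcusp_of_branches` : any family `V` with `V 0 = gaussVS`, `V 1 = T.V11`, `V 2 = T.V02`, any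
  uniformiser `π` of `O` with `π = q` in `K`, from `hD hnf : ∀ i` (block [BRANCH]);
* `hcusp_top` : `V = fam3 …`, `π = q`; the branch `C02` is discharged by helper21's
  `One/BranchTopInf02`; remaining: the Dedekind branches `C20`, `C11` of the chart at infinity.
-/
import Mathlib
import Fermat.Agent.S36.Cusp.Inst
import Fermat.Agent.S36.One.BranchTopInf02
import Fermat.Agent.S36.Descent.LocalRootsBoth
import Fermat.Agent.S36.C.ThreeValCover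

set_option autoImplicit false
set_option linter.unusedSectionVars false
set_option linter.unusedVariables false
set_option linter.style.haveILetI false

open ModularCurve Fermat.Agent.S28.Gauss Fermat.Agent.N4.Chart Fermat.Agent.N4.Setting
  Fermat.Agent.N4.FibreEmbedding Fermat.Agent.N4F.E.GaussDVR Fermat.Agent.N4F.E.DegreeLevelRaise
  Fermat.Agent.P3G.SecondValuation Fermat.Agent.S36.V.ThreeVal
  Fermat.Agent.N4.Cover.Globalize Fermat.Agent.P3G.Krull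
  Fermat.Agent.S36.Local.LocalRoot Fermat.Agent.S36.D.ChartRoots
  Fermat.Agent.S36.Alg.ChartTransfer Fermat.Agent.S36.Cusp.Inst
  Fermat.Agent.S36.Local.ChartSpread Fermat.Agent.S36.Local.Spread
  Fermat.Agent.S36.Descent.LocalRootsBoth Fermat.Agent.S36.C.ThreeValCover
  Fermat.Agent.S36.One.BranchTopInf02

namespace Fermat.Agent.S36.Cusp.InstTop

variable {K : Type} [Field K] [CharZero K] {M0 q : ℕ} [NeZero M0] [hq : Fact q.Prime]
  {O : Subring K} [IsDiscreteValuationRing ↥O] [IsFractionRing ↥O K]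
  [CharP (IsLocalRing.ResidueField ↥O) q]
  {sv : SecondVal K M0 q O} (T : ThreeVal K M0 q O sv)

variable [IsNoetherianRing ↥(Rinf K (M0 * q * q) O)]
  [IsFractionRing ↥(Rinf K (M0 * q * q) O) (FF K (M0 * q * q))]

/-- **`hcusp` for any family `V = (V₂₀, V₁₁, V₀₂)`**, from the Dedekind branches. -/
theorem hcusp_of_branches {V : Fin 3 → ValuationSubring (FF K (M0 * q * q))}
    (hV0 : V 0 = gaussVS K (M0 * q * q) O) (hV1 : V 1 = T.V11) (hV2 : V 2 = T.V02)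
    {hVm : ∀ i (r : ↥(Rinf K (M0 * q * q) O)),
      algebraMap ↥(Rinf K (M0 * q * q) O) (FF K (M0 * q * q)) r ∈ V i}
    {π : ↥O} {E : ℕ} (Hm : ChartHyp V hVm π E) (hπq : ((π : ↥O) : K) = ((q : ℕ) : K))
    (hD : ∀ i, IsDedekindDomain (↥(Rinf K (M0 * q * q) O) ⧸ vCentre (V i) (hVm i)))
    (hnf : ∀ i, ¬ IsField (↥(Rinf K (M0 * q * q) O) ⧸ vCentre (V i) (hVm i)))
    (𝔫 : Ideal ↥(Rinf K (M0 * q * q) O)) [𝔫.IsPrime] (h𝔫 : 𝔫.IsMaximal)
    (hπ𝔫 : algebraMap ↥O ↥(Rinf K (M0 * q * q) O) π ∈ 𝔫)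
    (ha𝔫 : gen (O := ↥O) (jF K (M0 * q * q))⁻¹ ∈ 𝔫) : OnePoint V hVm 𝔫 := by
  obtain ⟨i₀, hle, hoth⟩ := hone_top T hV0 hV1 hV2 Hm hπq 𝔫 h𝔫 hπ𝔫 ha𝔫
  exact ⟨i₀, hle, hoth, hUFD_top T hV0 hV1 hV2 Hm hπq hD hnf 𝔫 h𝔫 hπ𝔫 ha𝔫,
    hPID_top T hV0 hV1 hV2 Hm hπq hD hnf 𝔫 h𝔫 hπ𝔫 ha𝔫 i₀ hle⟩

variable (hN : IsUnit ((M0 : ℕ) : ↥O))
  (hprimeInf : (fibreIdeal K M0 O (Rinf K M0 O)).IsPrime)
  (hDedInf : IsDedekindDomain (↥(Rinf K M0 O) ⧸ fibreIdeal K M0 O (Rinf K M0 O)))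
  (hA2 : ∀ x : ↥(gaussSubalgebra K M0 O),
    theta K M0 O x ∈ modularFunctionFieldFullC (IsLocalRing.ResidueField ↥O) M0)

include hN hprimeInf hDedInf hA2 in
/-- **`hcusp` of `SpineRootsTop.rootsInterface_top`** (`V = fam3`, `ϖ = q`); the branch `C₀₂` from
`One/BranchTopInf02`, the branches `C₂₀`, `C₁₁` of the chart at infinity as hypotheses. -/
theorem hcusp_top
    {hVm : ∀ i (r : ↥(Rinf K (M0 * q * q) O)),
      algebraMap ↥(Rinf K (M0 * q * q) O) (FF K (M0 * q * q)) r ∈ fam3 K M0 q O T.V11 T.V02 i}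
    {E : ℕ} (Hm : ChartHyp (fam3 K M0 q O T.V11 T.V02) hVm ((q : ℕ) : ↥O) E)
    (hD0 : IsDedekindDomain (↥(Rinf K (M0 * q * q) O) ⧸
      vCentre (gaussVS K (M0 * q * q) O) (hVm 0)))
    (hnf0 : ¬ IsField (↥(Rinf K (M0 * q * q) O) ⧸ vCentre (gaussVS K (M0 * q * q) O) (hVm 0)))
    (hD1 : IsDedekindDomain (↥(Rinf K (M0 * q * q) O) ⧸ vCentre T.V11 (hVm 1)))
    (hnf1 : ¬ IsField (↥(Rinf K (M0 * q * q) O) ⧸ vCentre T.V11 (hVm 1))) :
    ∀ (𝔫 : Ideal ↥(Rinf K (M0 * q * q) O)) [𝔫.IsPrime], 𝔫.IsMaximal →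
      algebraMap ↥O ↥(Rinf K (M0 * q * q) O) ((q : ℕ) : ↥O) ∈ 𝔫 →
      gen (O := ↥O) (jF K (M0 * q * q))⁻¹ ∈ 𝔫 → OnePoint (fam3 K M0 q O T.V11 T.V02) hVm 𝔫 := by
  intro 𝔫 _ h𝔫 hπ𝔫 ha𝔫
  have hD : ∀ i, IsDedekindDomain (↥(Rinf K (M0 * q * q) O) ⧸
      vCentre (fam3 K M0 q O T.V11 T.V02 i) (hVm i)) := by
    intro i
    fin_cases i
    · exact hD0
    · exact hD1
    · exact isDedekindDomain_quotient_V02 T hN hprimeInf hDedInf hA2
  have hnf : ∀ i, ¬ IsField (↥(Rinf K (M0 * q * q) O) ⧸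
      vCentre (fam3 K M0 q O T.V11 T.V02 i) (hVm i)) := by
    intro i
    fin_cases i
    · exact hnf0
    · exact hnf1
    · exact not_isField_quotient_V02 T hN hprimeInf hDedInf hA2
  exact hcusp_of_branches T rfl rfl rfl Hm (Subring.coe_natCast O q) hD hnf 𝔫 h𝔫 hπ𝔫 ha𝔫

end Fermat.Agent.S36.Cusp.InstTop
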