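/-
S36, block [CUSP] (helper17), part 16 (FINAL): **`hcusp` of
`Descent/SpineRootsTop.rootsInterface_top`, VERBATIM, with no open block hypothesis**: for
`T : ThreeVal K M₀ q O sv`, `V = fam3 K M₀ q O T.V11 T.V02`, `ϖ = q`, at every cusp `𝔫 ∋ q, 1/j` of
the chart at infinity `Rinf K (M₀q²) O`: `LocalRootsBoth.OnePoint V hVm 𝔫`.

Inputs: the chart hypotheses `Hm : ChartHyp V hVm q E` (block CH-I) and the base facts at level `M₀`
(`ι`, `q ∤ M₀`, `M₀ ∈ Oˣ`, `hA2`, `hprimeInf`, `hDedInf`: the vocabulary of `Descent/LevelFacts`).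
All six Dedekind branches from helper6's `One/BranchTopAll`.
-/
import Mathlib
import Fermat.Agent.S36.Cusp.InstTop
import Fermat.Agent.S36.One.BranchTopAll

set_option autoImplicit false
set_option linter.unusedSectionVars false
set_option linter.unusedVariables false
set_option linter.style.haveILetI false

open ModularCurve Fermat.Agent.S28.Gauss Fermat.Agent.N4.Chart Fermat.Agent.N4.Setting
  Fermat.Agent.N4.FibreEmbedding Fermat.Agent.N4F.E.GaussDVR Fermat.Agent.N4F.E.DegreeLevelRaise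
  Fermat.Agent.P3G.SecondValuation Fermat.Agent.S36.V.ThreeVal
  Fermat.Agent.N4.Cover.Globalize Fermat.Agent.P3G.Krull
  Fermat.Agent.S36.D.ChartRoots Fermat.Agent.S36.Alg.ChartTransfer
  Fermat.Agent.S36.Descent.LocalRootsBoth Fermat.Agent.S36.C.ThreeValCover
  Fermat.Agent.S36.Cusp.InstTop Fermat.Agent.S36.One.BranchTopAll

namespace Fermat.Agent.S36.Cusp.InstFinal

variable {K : Type} [Field K] [CharZero K] {M0 q : ℕ} [NeZero M0] [hq : Fact q.Prime]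
  {O : Subring K} [IsDiscreteValuationRing ↥O] [IsFractionRing ↥O K]
  [CharP (IsLocalRing.ResidueField ↥O) q]
  {sv : SecondVal K M0 q O} (T : ThreeVal K M0 q O sv)
  [IsNoetherianRing ↥(Rinf K (M0 * q * q) O)]
  [IsFractionRing ↥(Rinf K (M0 * q * q) O) (FF K (M0 * q * q))]
  (ι : K →+* ℂ) (hqM0 : ¬ q ∣ M0) (hN : IsUnit ((M0 : ℕ) : ↥O))
  (hA2 : ∀ x : ↥(gaussSubalgebra K M0 O),
    theta K M0 O x ∈ modularFunctionFieldFullC (IsLocalRing.ResidueField ↥O) M0)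
  (hprimeInf : (fibreIdeal K M0 O (Rinf K M0 O)).IsPrime)
  (hDedInf : IsDedekindDomain (↥(Rinf K M0 O) ⧸ fibreIdeal K M0 O (Rinf K M0 O)))

include ι hqM0 hN hA2 hprimeInf hDedInf in
/-- **`hcusp` of `SpineRootsTop.rootsInterface_top`, final form.** -/
theorem hcusp_final
    {hVm : ∀ i (r : ↥(Rinf K (M0 * q * q) O)),
      algebraMap ↥(Rinf K (M0 * q * q) O) (FF K (M0 * q * q)) r ∈ fam3 K M0 q O T.V11 T.V02 i}
    {E : ℕ} (Hm : ChartHyp (fam3 K M0 q O T.V11 T.V02) hVm ((q : ℕ) : ↥O) E) :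
    ∀ (𝔫 : Ideal ↥(Rinf K (M0 * q * q) O)) [𝔫.IsPrime], 𝔫.IsMaximal →
      algebraMap ↥O ↥(Rinf K (M0 * q * q) O) ((q : ℕ) : ↥O) ∈ 𝔫 →
      gen (O := ↥O) (jF K (M0 * q * q))⁻¹ ∈ 𝔫 → OnePoint (fam3 K M0 q O T.V11 T.V02) hVm 𝔫 :=
  fun 𝔫 _ h𝔫 hπ𝔫 ha𝔫 =>
    hcusp_of_branches T rfl rfl rfl Hm (Subring.coe_natCast O q)
      (hD_inf K M0 q O T ι hqM0 hN hA2 hprimeInf hDedInf hVm)
      (hnf_inf K M0 q O T ι hqM0 hN hA2 hprimeInf hDedInf hVm) 𝔫 h𝔫 hπ𝔫 ha𝔫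

end Fermat.Agent.S36.Cusp.InstFinal
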