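/-
S36, block [CUSP] / helper25: **(I-R) at EVERY cusp point of the chart at infinity, Fricke-free.**

`Cusp/AllCusps.cusp_point` needs the coordinate rings `R ⧸ vCentre (V i)` of all three branches on the
chart `R = chartAlg O F {1/j}` to be Dedekind.  For `i = 2` (`V₀₂`) this is not formal on that chart
(`1/j''` is not integral over `O[1/j]`).  Here the point is treated on the chart
`R' = chartAlg O F {1/j''}` instead, where the branch `V₀₂` IS formal (`BranchInf` with lift `β₂β₁`):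

at a cusp point `𝔫` of `R` (`ϖ, 1/j ∈ 𝔫`) we have `1/j'' ∈ 𝔪(R_𝔫)` (`Cusp/Package`), hence `R' ⊆ R_𝔫`;
the twin `𝔫' = 𝔪(R_𝔫) ∩ R'` is a closed point with `1/j'' ∈ 𝔫'`, and by the symmetric argument
`1/j ∈ 𝔪(R'_{𝔫'})`, so `R'_{𝔫'} = R_𝔫` (`Alg/ChartChange`).  `One/OneBranch.one_branch` at `𝔫'` for `V₀₂`
gives factoriality and smoothness of the branch, transported back along the equality.

* `exists_twin` : the twin point and its properties (closed point, same `ϖ`, same components);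
* `cusp_point_cc` : the conclusion of `AllCusps.cusp_point` with `hD 2 / hnf 2` replaced by their
  analogues on `R'`.
-/
import Mathlib
import Fermat.Agent.S36.Cusp.AllCusps
import Fermat.Agent.S36.Alg.ChartChange

set_option autoImplicit false
set_option linter.unusedSectionVars false
set_option linter.unusedVariables false
set_option linter.style.haveILetI false

namespace Fermat.Agent.S36.Cusp.CuspChange

open Fermat.Agent.N4.Chart Fermat.Agent.N4.Cover.Globalize Fermat.Agent.P3G.Krull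
open Fermat.Agent.N4.Kronecker Fermat.Agent.N4.ModPolyDescent Fermat.Agent.N4.ModPolyShape
open Fermat.Agent.S36.Cusp.Dichotomy Fermat.Agent.S36.Cusp.Package Fermat.Agent.S36.Cusp.Regular
open Fermat.Agent.S36.Cusp.AllCusps
open Fermat.Agent.S36.One.OneBranch Fermat.Agent.S36.One.Dictionary
open Fermat.Agent.S36.Local.LocalRoot Fermat.Agent.S36.Points.Classify
open Fermat.Agent.S36.Alg.ChartTransfer Fermat.Agent.S36.Alg.ChartChange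

variable {O F : Type*} [CommRing O] [Field F] [Algebra O F] {j j' j'' : F}
  [IsNoetherianRing (chartAlg O F {j⁻¹})] [IsFractionRing (chartAlg O F {j⁻¹}) F]
  [IsNoetherianRing (chartAlg O F {j''⁻¹})] [IsFractionRing (chartAlg O F {j''⁻¹}) F]

section Twin

variable (π : O) (q : ℕ) [hq : Fact q.Prime] (hπq : algebraMap O F π = (q : F))
  (hj0 : j ≠ 0) (hj'0 : j' ≠ 0) (hj''0 : j'' ≠ 0)
  (h₁ : evZ j j' (modPoly q) = 0) (h₂ : evZ j' j'' (modPoly q) = 0)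
  (𝔫 : Ideal (chartAlg O F {j⁻¹})) [h𝔫 : 𝔫.IsPrime]
  (hϖ𝔫 : algebraMap O (chartAlg O F {j⁻¹}) π ∈ 𝔫) (ha𝔫 : gen j⁻¹ ∈ 𝔫)

include hπq hj0 hj'0 hj''0 h₁ h₂ hϖ𝔫 ha𝔫 in
/-- At a cusp point of the chart of `1/j`, `1/j''` lies in the maximal ideal of the local ring. -/
theorem inMax_inv'' : InMax (locSub (F := F) 𝔫) j''⁻¹ :=
  (cuspData_at (F := F) (algebraMap O (chartAlg O F {j⁻¹}) π) q hπq hj0 hj'0 hj''0 h₁ h₂
    (gen j⁻¹) rfl 𝔫 hϖ𝔫 ha𝔫).hc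

include hj0 hj'0 hj''0 h₁ h₂ in
/-- The symmetric statement on the chart of `1/j''`. -/
theorem inMax_inv_of_gen_mem (𝔭 : Ideal (chartAlg O F {j''⁻¹})) [𝔭.IsPrime]
    (hc : gen j''⁻¹ ∈ 𝔭) : InMax (locSub (F := F) 𝔭) j⁻¹ := by
  haveI := isIntegrallyClosedIn_locSub (F := F) 𝔭
  have hc' : InMax (locSub (F := F) 𝔭) j''⁻¹ := inMax_of_mem 𝔭 hc
  have hb' : InMax (locSub (F := F) 𝔭) j'⁻¹ :=
    inMax_inv_of_inMax_inv q hj''0 hj'0 (evZ_modPoly_comm q h₂) hc'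
  exact inMax_inv_of_inMax_inv q hj'0 hj0 (evZ_modPoly_comm q h₁) hb'

include hπq hj0 hj'0 hj''0 h₁ h₂ hϖ𝔫 ha𝔫 in
/-- **The twin point.**  For a cusp point `𝔫` of the chart of `1/j` there is a prime `𝔫'` of the chart
of `1/j''` with the same local ring in `F`, containing `1/j''` and the same constants. -/
theorem exists_twin :
    ∃ (𝔫' : Ideal (chartAlg O F {j''⁻¹})) (_ : 𝔫'.IsPrime)
      (hR' : ∀ r' : chartAlg O F {j''⁻¹},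
        algebraMap (chartAlg O F {j''⁻¹}) F r' ∈ locAt (F := F) 𝔫),
      𝔫' = pull 𝔫 hR' ∧ gen j''⁻¹ ∈ 𝔫' ∧
      (∀ c : O, algebraMap O (chartAlg O F {j''⁻¹}) c ∈ 𝔫' ↔
        algebraMap O (chartAlg O F {j⁻¹}) c ∈ 𝔫) ∧
      (∀ r : chartAlg O F {j⁻¹}, algebraMap (chartAlg O F {j⁻¹}) F r ∈ locAt (F := F) 𝔫') ∧
      ∀ x : F, x ∈ locAt (F := F) 𝔫' ↔ x ∈ locAt (F := F) 𝔫 := by
  have htm := inMax_inv'' (F := F) π q hπq hj0 hj'0 hj''0 h₁ h₂ 𝔫 hϖ𝔫 ha𝔫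
  have ht : j''⁻¹ ∈ locAt (F := F) 𝔫 := htm.mem
  have hgen : gen j''⁻¹ ∈ twin 𝔫 ht := (gen_mem_twin_iff 𝔫 ht).2 htm
  have hs : j⁻¹ ∈ locAt (F := F) (twin 𝔫 ht) :=
    (inMax_inv_of_gen_mem (F := F) q hj0 hj'0 hj''0 h₁ h₂ (twin 𝔫 ht) hgen).mem
  exact ⟨twin 𝔫 ht, twin_isPrime 𝔫 ht, chart_le_locAt 𝔫 ht, rfl, hgen,
    algebraMap_mem_twin_iff 𝔫 ht, chart_le_locAt (twin 𝔫 ht) hs, mem_locAt_twin_iff 𝔫 ht hs⟩

end Twin

section Main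

variable (V : Fin 3 → ValuationSubring F)
  (hV : ∀ i (r : chartAlg O F {j⁻¹}), algebraMap (chartAlg O F {j⁻¹}) F r ∈ V i)
  (hV' : ∀ i (r : chartAlg O F {j''⁻¹}), algebraMap (chartAlg O F {j''⁻¹}) F r ∈ V i)
  (π : O) (hπ : (Ideal.span {π}).IsMaximal)
  (hsat : ∀ r : chartAlg O F {j⁻¹},
    (∀ i, algebraMap (chartAlg O F {j⁻¹}) F r *
      (algebraMap (chartAlg O F {j⁻¹}) F (algebraMap O (chartAlg O F {j⁻¹}) π))⁻¹ ∈ V i) →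
    algebraMap O (chartAlg O F {j⁻¹}) π ∣ r)
  (hsat' : ∀ r : chartAlg O F {j''⁻¹},
    (∀ i, algebraMap (chartAlg O F {j''⁻¹}) F r *
      (algebraMap (chartAlg O F {j''⁻¹}) F (algebraMap O (chartAlg O F {j''⁻¹}) π))⁻¹ ∈ V i) →
    algebraMap O (chartAlg O F {j''⁻¹}) π ∣ r)
  (E : ℕ)
  (hpow : ∀ i (x : F), x ∈ (V i).nonunits →
    x ^ E * (algebraMap (chartAlg O F {j⁻¹}) F (algebraMap O (chartAlg O F {j⁻¹}) π))⁻¹ ∈ V i)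
  (q : ℕ) [hq : Fact q.Prime]
  (hϖq : algebraMap (chartAlg O F {j⁻¹}) F (algebraMap O (chartAlg O F {j⁻¹}) π) = (q : F))
  (hj0 : j ≠ 0) (hj'0 : j' ≠ 0) (hj''0 : j'' ≠ 0)
  (h₁ : evZ j j' (modPoly q) = 0) (h₂ : evZ j' j'' (modPoly q) = 0)
  (h20a : (V 0).valuation j⁻¹ = 1) (h20c : (V 0).valuation (j''⁻¹ - j⁻¹ ^ (q ^ 2)) < 1)
  (h11a : (V 1).valuation j⁻¹ = 1) (h11c : (V 1).valuation (j''⁻¹ - j⁻¹) < 1)
  (h02c : (V 2).valuation j''⁻¹ = 1) (h02a : (V 2).valuation (j⁻¹ - j''⁻¹ ^ (q ^ 2)) < 1)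
  (hϖV : ∀ i, algebraMap (chartAlg O F {j⁻¹}) F (algebraMap O (chartAlg O F {j⁻¹}) π) ∈
    (V i).nonunits)
  (hunif20 : ∀ x : F, x ∈ (V 0).nonunits →
    x * (algebraMap (chartAlg O F {j⁻¹}) F (algebraMap O (chartAlg O F {j⁻¹}) π))⁻¹ ∈ V 0)
  (hunif02 : ∀ x : F, x ∈ (V 2).nonunits →
    x * (algebraMap (chartAlg O F {j⁻¹}) F (algebraMap O (chartAlg O F {j⁻¹}) π))⁻¹ ∈ V 2)
  (hram : ∀ x : F, x ∈ (V 1).nonunits → x ^ (q - 1) * (q : F)⁻¹ ∈ V 1)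
  (S T : chartAlg O F {j⁻¹})
  (hST : ∀ 𝔫 : Ideal (chartAlg O F {j⁻¹}), 𝔫.IsPrime → gen j⁻¹ ∈ 𝔫 → S ∉ 𝔫 ∧ T ∉ 𝔫)
  (hres : (1 - j / j'') ^ (q - 1) * (q : F)⁻¹ * algebraMap (chartAlg O F {j⁻¹}) F S +
    algebraMap (chartAlg O F {j⁻¹}) F T ∈ (V 1).nonunits)
  (hD0 : IsDedekindDomain (chartAlg O F {j⁻¹} ⧸ vCentre (V 0) (hV 0)))
  (hnf0 : ¬ IsField (chartAlg O F {j⁻¹} ⧸ vCentre (V 0) (hV 0)))
  (hD1 : IsDedekindDomain (chartAlg O F {j⁻¹} ⧸ vCentre (V 1) (hV 1)))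
  (hnf1 : ¬ IsField (chartAlg O F {j⁻¹} ⧸ vCentre (V 1) (hV 1)))
  (hD2' : IsDedekindDomain (chartAlg O F {j''⁻¹} ⧸ vCentre (V 2) (hV' 2)))
  (hnf2' : ¬ IsField (chartAlg O F {j''⁻¹} ⧸ vCentre (V 2) (hV' 2)))
  (𝔫 : Ideal (chartAlg O F {j⁻¹})) [h𝔫 : 𝔫.IsMaximal]
  (hϖ𝔫 : algebraMap O (chartAlg O F {j⁻¹}) π ∈ 𝔫) (ha𝔫 : gen j⁻¹ ∈ 𝔫)

include hπ hsat hsat' hpow hϖq hj0 hj'0 hj''0 h₁ h₂ h20a h20c h11a h11c h02c h02a hϖV hunif02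
  hD2' hnf2' hϖ𝔫 ha𝔫 in
/-- **(I-R) at a cusp point on the branch `V₀₂`, via the chart of `1/j''`.** -/
theorem cusp_point_02 (h : OnlyOne V hV 2 𝔫) :
    UniqueFactorizationMonoid (locAt (F := F) 𝔫) ∧
      IsPrincipalIdealRing
        (locAt (F := F) 𝔫 ⧸ centre (V 2) (mem_of_mem_locAt (V 2) (hV 2) 𝔫 h.1)) := by
  have hπq : algebraMap O F π = (q : F) := hϖq
  have htm := inMax_inv'' (F := F) π q hπq hj0 hj'0 hj''0 h₁ h₂ 𝔫 hϖ𝔫 ha𝔫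
  have ht : j''⁻¹ ∈ locAt (F := F) 𝔫 := htm.mem
  have hgen : gen j''⁻¹ ∈ twin 𝔫 ht := (gen_mem_twin_iff 𝔫 ht).2 htm
  have hs : j⁻¹ ∈ locAt (F := F) (twin 𝔫 ht) :=
    (inMax_inv_of_gen_mem (F := F) q hj0 hj'0 hj''0 h₁ h₂ (twin 𝔫 ht) hgen).mem
  have hR' := chart_le_locAt 𝔫 ht
  have hR := chart_le_locAt (twin 𝔫 ht) hs
  haveI hmax : (twin 𝔫 ht).IsMaximal := twin_isMaximal 𝔫 ht htm hπ hϖ𝔫
  have h' : OnlyOne V hV' 2 (twin 𝔫 ht) := (onlyOne_pull_iff 𝔫 hR' hR V hV hV' 2).2 h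
  have honly' : ∀ i, vCentre (V i) (hV' i) ≤ twin 𝔫 ht → i = 2 := by
    intro i hi
    by_contra hne
    exact h'.2 i hne hi
  obtain ⟨-, -, h3, h4⟩ := one_branch V hV' (algebraMap O (chartAlg O F {j''⁻¹}) π) hsat' E hpow
    (twin 𝔫 ht) 2 h'.1 honly' hunif02 (hϖV 2) hD2' hnf2'
  exact ⟨ufd_of_pull 𝔫 hR' hR h3, pir_of_pull 𝔫 hR' hR (V 2) _ _ h4⟩

include hπ hsat hsat' hpow hϖq hj0 hj'0 hj''0 h₁ h₂ h20a h20c h11a h11c h02c h02a hϖV hunif20 hunif02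
  hram hST hres hD0 hnf0 hD1 hnf1 hD2' hnf2' hϖ𝔫 ha𝔫 in
/-- **(I-R) at every cusp point of the chart of `1/j`**: the statement of `AllCusps.cusp_point`, the
Dedekind hypothesis for the branch `V₀₂` being made on the chart of `1/j''`. -/
theorem cusp_point_cc :
    ∃ (i₀ : Fin 3) (h : OnlyOne V hV i₀ 𝔫), UniqueFactorizationMonoid (locAt (F := F) 𝔫) ∧
      IsPrincipalIdealRing
        (locAt (F := F) 𝔫 ⧸ centre (V i₀) (mem_of_mem_locAt (V i₀) (hV i₀) 𝔫 h.1)) := by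
  obtain ⟨i₀, h⟩ := exists_onlyOne V hV (algebraMap O (chartAlg O F {j⁻¹}) π) hsat E hpow q hϖq
    hj0 hj'0 hj''0 h₁ h₂ (gen j⁻¹) rfl h20a h20c h11a h11c h02c h02a 𝔫 hϖ𝔫 ha𝔫
  refine ⟨i₀, h, ?_⟩
  have honly : ∀ i, vCentre (V i) (hV i) ≤ 𝔫 → i = i₀ := by
    intro i hi
    by_contra hne
    exact h.2 i hne hi
  obtain ⟨hS, hT⟩ := hST 𝔫 h𝔫.isPrime ha𝔫
  fin_cases i₀
  · obtain ⟨-, -, h3, h4⟩ := one_branch V hV (algebraMap O (chartAlg O F {j⁻¹}) π) hsat E hpow 𝔫 0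
      h.1 honly hunif20 (hϖV 0) hD0 hnf0
    exact ⟨h3, h4⟩
  · obtain ⟨τ, -, -, -, h3, h4⟩ := cusp_branch V hV (algebraMap O (chartAlg O F {j⁻¹}) π) hsat E
      hpow q hϖq hj0 hj'0 hj''0 h₁ h₂ (gen j⁻¹) rfl h20a h20c h11a h11c h02c h02a hram 𝔫 hϖ𝔫 ha𝔫
      h.1 S T hS hT hres hD1 hnf1
    exact ⟨h3, h4⟩
  · exact cusp_point_02 V hV hV' π hπ hsat hsat' E hpow q hϖq hj0 hj'0 hj''0 h₁ h₂ h20a h20c h11a
      h11c h02c h02a hϖV hunif02 hD2' hnf2' 𝔫 hϖ𝔫 ha𝔫 h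

end Main

end Fermat.Agent.S36.Cusp.CuspChange
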