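/-
S36, block [CUSP] (helper17), part 11: **cusp points are stable under every modular correspondence.**

For ANY level `N > 1`: if `Φ_N(j, j') = 0` then in every valuation ring `1/j` is a non-unit iff `1/j'` is,
hence for a local subring `B` integrally closed in `F`: `1/j ∈ 𝔪_B ⇒ 1/j' ∈ 𝔪_B`; in the `locAt` vocabulary:
at a prime `𝔫 ∋ a = 1/j` of a normal chart `R`, `1/j' ∈ 𝔪(R_𝔫)`.  (Generalises `Cusp/Package` from prime
level to any level; used by the Fricke transport of the cusp points, `j' = j(Q^N) = w_N(j)`.)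
-/
import Mathlib
import Fermat.Agent.S36.Cusp.Package
import Fermat.Agent.S36.Cusp.Regular

set_option autoImplicit false
set_option linter.unusedSectionVars false
set_option linter.unusedVariables false
set_option linter.style.haveILetI false

namespace Fermat.Agent.S36.Cusp.InvLevel

open Fermat.Agent.N4.Cover.Globalize Fermat.Agent.P3G.Krull
open Fermat.Agent.N4.Kronecker Fermat.Agent.N4.ModPolyDescent Fermat.Agent.N4.ModPolyShape
open Fermat.Agent.S36.Cusp.Dichotomy Fermat.Agent.S36.Cusp.Package Fermat.Agent.S36.Cusp.Regular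

variable {F : Type*} [Field F] (N : ℕ) [NeZero N]

/-- The swapped modular equation, any level `N > 1`. -/
theorem evZ_modPoly_comm_level (hN : 1 < N) {x y : F} (h : evZ x y (modPoly N) = 0) :
    evZ y x (modPoly N) = 0 := by
  rw [← evZ_swap, swap_modPoly_of_one_lt N hN]
  exact h

/-- In a valuation ring, `1/j` is a non-unit iff `1/j'` is (any level). -/
theorem valuation_inv_lt_one_level (hN : 1 < N) (V : ValuationSubring F) {j j' : F} (hj0 : j ≠ 0)
    (hj'0 : j' ≠ 0) (h : evZ j j' (modPoly N) = 0) (ha : V.valuation j⁻¹ < 1) :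
    V.valuation j'⁻¹ < 1 := by
  by_contra hcon
  rw [not_lt, map_inv₀, one_le_inv₀ (zero_lt_iff.2 ((Valuation.ne_zero_iff _).2 hj'0))] at hcon
  have hj' : j' ∈ V := (V.valuation_le_one_iff j').1 hcon
  have hj : j ∈ V := mem_of_evZ_eq_zero V (modPoly_monic N) (evZ_modPoly_comm_level N hN h) hj'
  have h1 : V.valuation j ≤ 1 := (V.valuation_le_one_iff j).2 hj
  rw [map_inv₀, inv_lt_one₀ (zero_lt_iff.2 ((Valuation.ne_zero_iff _).2 hj0))] at ha
  exact absurd h1 (not_le.2 ha)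

/-- At a cusp point, `1/j'` lies in the maximal ideal as soon as `1/j` does (any level). -/
theorem inMax_inv_level (hN : 1 < N) {B : LocalSubring F} [IsIntegrallyClosedIn B.toSubring F]
    {j j' : F} (hj0 : j ≠ 0) (hj'0 : j' ≠ 0) (h : evZ j j' (modPoly N) = 0) (ha : InMax B j⁻¹) :
    InMax B j'⁻¹ :=
  inMax_of_forall_dominating fun V hV =>
    valuation_inv_lt_one_level N hN V hj0 hj'0 h (valuation_lt_one_of_inMax hV ha)

/-- **`locAt` form**: at a prime `𝔫 ∋ a = 1/j` of a normal chart, `1/j' ∈ 𝔪(R_𝔫)`. -/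
theorem inv_mem_maximalIdeal_locAt (hN : 1 < N) {R : Type*} [CommRing R] [IsDomain R]
    [IsNoetherianRing R] [IsIntegrallyClosed R] [Algebra R F] [IsFractionRing R F]
    {j j' : F} (hj0 : j ≠ 0) (hj'0 : j' ≠ 0) (h : evZ j j' (modPoly N) = 0)
    (a : R) (haj : algebraMap R F a = j⁻¹) (𝔫 : Ideal R) [𝔫.IsPrime] (ha𝔫 : a ∈ 𝔫) :
    ∃ p s : R, p ∈ 𝔫 ∧ s ∉ 𝔫 ∧ j'⁻¹ * algebraMap R F s = algebraMap R F p := by
  haveI := isIntegrallyClosedIn_locSub (F := F) 𝔫
  have haB : InMax (locSub (F := F) 𝔫) j⁻¹ := by rw [← haj]; exact inMax_of_mem 𝔫 ha𝔫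
  exact (inMax_locSub_iff 𝔫).1 (inMax_inv_level N hN hj0 hj'0 h haB)

/-- The same, as membership in `locAt 𝔫`. -/
theorem inv_mem_locAt_level (hN : 1 < N) {R : Type*} [CommRing R] [IsDomain R]
    [IsNoetherianRing R] [IsIntegrallyClosed R] [Algebra R F] [IsFractionRing R F]
    {j j' : F} (hj0 : j ≠ 0) (hj'0 : j' ≠ 0) (h : evZ j j' (modPoly N) = 0)
    (a : R) (haj : algebraMap R F a = j⁻¹) (𝔫 : Ideal R) [𝔫.IsPrime] (ha𝔫 : a ∈ 𝔫) :
    j'⁻¹ ∈ locAt (F := F) 𝔫 := by
  obtain ⟨p, s, -, hs, h⟩ := inv_mem_maximalIdeal_locAt N hN hj0 hj'0 h a haj 𝔫 ha𝔫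
  exact (mem_locAt_iff 𝔫 _).2 ⟨p, s, hs, h⟩

end Fermat.Agent.S36.Cusp.InvLevel
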