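/-
S36, block [CUSP] (helper17), part 10: **the cusp points in the `ChartHyp` vocabulary, with the `C₀₂`-cusps
delegated** (helper21's warning: on the chart at infinity `R ⧸ vCentre V₀₂` cannot be identified with
`RbarInf` formally, so `(I-R)` at the cusp points of `C₀₂` comes from the Fricke transport of the cusp
points of `C₂₀`, block [W-TR] (a3)).

Same statements as `Cusp/Plug.hUFD_cusp`, `hPID_cusp`, but the Dedekind hypothesis is only required for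
the branches `V₂₀`, `V₁₁`, and `(I-R)` at a point of `C₀₂` is an explicit hypothesis `h02`.
-/
import Mathlib
import Fermat.Agent.S36.Cusp.Plug

set_option autoImplicit false
set_option linter.unusedSectionVars false
set_option linter.unusedVariables false
set_option linter.style.haveILetI false

namespace Fermat.Agent.S36.Cusp.PlugSplit

open Fermat.Agent.N4.Cover.Globalize Fermat.Agent.P3G.Krull
open Fermat.Agent.N4.Kronecker Fermat.Agent.N4.ModPolyDescent Fermat.Agent.N4.ModPolyShape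
open Fermat.Agent.S36.Cusp.Regular Fermat.Agent.S36.Cusp.AllCusps Fermat.Agent.S36.Cusp.Plug
open Fermat.Agent.S36.One.OneBranch
open Fermat.Agent.S36.Local.LocalRoot Fermat.Agent.S36.Local.Spread
  Fermat.Agent.S36.Local.ChartSpread Fermat.Agent.S36.D.ChartRoots
  Fermat.Agent.S36.Points.Classify Fermat.Agent.S36.Points.ClassifyChart

universe u

variable {O : Type*} [CommRing O] [IsDomain O] [IsDiscreteValuationRing O]
variable {R : Type*} [CommRing R] [IsDomain R] [IsNoetherianRing R] [IsIntegrallyClosed R]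
  [Algebra O R]
variable {F : Type u} [Field F] [Algebra R F] [IsFractionRing R F]
variable {V : Fin 3 → ValuationSubring F} {hV : ∀ i (r : R), algebraMap R F r ∈ V i}
  {π : O} {E : ℕ}

variable (H : ChartHyp V hV π E)
  (q : ℕ) [hq : Fact q.Prime] (hπq : algebraMap R F (algebraMap O R π) = (q : F))
  {j j' j'' : F} (hj0 : j ≠ 0) (hj'0 : j' ≠ 0) (hj''0 : j'' ≠ 0)
  (h₁ : evZ j j' (modPoly q) = 0) (h₂ : evZ j' j'' (modPoly q) = 0)
  (a : R) (haj : algebraMap R F a = j⁻¹)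
  (h20a : (V 0).valuation j⁻¹ = 1) (h20c : (V 0).valuation (j''⁻¹ - j⁻¹ ^ (q ^ 2)) < 1)
  (h11a : (V 1).valuation j⁻¹ = 1) (h11c : (V 1).valuation (j''⁻¹ - j⁻¹) < 1)
  (h02c : (V 2).valuation j''⁻¹ = 1) (h02a : (V 2).valuation (j⁻¹ - j''⁻¹ ^ (q ^ 2)) < 1)
  (hunif20 : ∀ x : F, x ∈ (V 0).nonunits → x * (algebraMap R F (algebraMap O R π))⁻¹ ∈ V 0)
  (hram : ∀ x : F, x ∈ (V 1).nonunits → x ^ (q - 1) * (q : F)⁻¹ ∈ V 1)
  (S T : R) (hST : ∀ 𝔫 : Ideal R, 𝔫.IsPrime → a ∈ 𝔫 → S ∉ 𝔫 ∧ T ∉ 𝔫)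
  (hres : (1 - j / j'') ^ (q - 1) * (q : F)⁻¹ * algebraMap R F S + algebraMap R F T ∈
    (V 1).nonunits)
  (hD0 : IsDedekindDomain (R ⧸ vCentre (V 0) (hV 0)))
  (hnf0 : ¬ IsField (R ⧸ vCentre (V 0) (hV 0)))
  (hD1 : IsDedekindDomain (R ⧸ vCentre (V 1) (hV 1)))
  (hnf1 : ¬ IsField (R ⧸ vCentre (V 1) (hV 1)))

include H hπq hj0 hj'0 hj''0 h₁ h₂ haj h20a h20c h11a h11c h02c h02a hunif20 hram hST hres
  hD0 hnf0 hD1 hnf1 in
/-- **`(I-R)` at a cusp point, the `C₀₂`-case delegated.** -/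
theorem ufd_and_pid_cusp (𝔫 : Ideal R) [𝔫.IsPrime] (h𝔫 : 𝔫.IsMaximal)
    (hπ𝔫 : algebraMap O R π ∈ 𝔫) (ha𝔫 : a ∈ 𝔫)
    (h02 : ∀ hi : centre (V 2) (hV 2) ≤ 𝔫, UniqueFactorizationMonoid (locAt (F := F) 𝔫) ∧
      IsPrincipalIdealRing (locAt (F := F) 𝔫 ⧸
        centre (V 2) (fun b => locAt_le 𝔫 (V 2) (hV 2) hi b))) :
    UniqueFactorizationMonoid (locAt (F := F) 𝔫) ∧
      ∀ (i : Fin 3) (hi : centre (V i) (hV i) ≤ 𝔫), IsPrincipalIdealRing (locAt (F := F) 𝔫 ⧸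
        centre (V i) (fun b => locAt_le 𝔫 (V i) (hV i) hi b)) := by
  haveI := h𝔫
  obtain ⟨i₀, hi₀, honly⟩ := hone_cusp H q hπq hj0 hj'0 hj''0 h₁ h₂ a haj h20a h20c h11a h11c
    h02c h02a 𝔫 h𝔫 hπ𝔫 ha𝔫
  have hi₀' : vCentre (V i₀) (hV i₀) ≤ 𝔫 := by rw [vCentre_eq_centre']; exact hi₀
  have honly' : ∀ i, vCentre (V i) (hV i) ≤ 𝔫 → i = i₀ := by
    intro i hi
    by_contra hne
    exact honly i hne (by rw [← vCentre_eq_centre']; exact hi)
  have key : UniqueFactorizationMonoid (locAt (F := F) 𝔫) ∧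
      IsPrincipalIdealRing (locAt (F := F) 𝔫 ⧸
        centre (V i₀) (fun b => locAt_le 𝔫 (V i₀) (hV i₀) hi₀ b)) := by
    obtain ⟨hS, hT⟩ := hST 𝔫 inferInstance ha𝔫
    fin_cases i₀
    · obtain ⟨-, -, h3, h4⟩ := one_branch V hV (algebraMap O R π) (hsat_of_chartHyp' H) E
        (hpow_of_chartHyp' H) 𝔫 0 hi₀' honly' hunif20 (H.mem 0) hD0 hnf0
      exact ⟨h3, h4⟩
    · obtain ⟨τ, -, -, -, h3, h4⟩ := cusp_branch V hV (algebraMap O R π) (hsat_of_chartHyp' H) E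
        (hpow_of_chartHyp' H) q hπq hj0 hj'0 hj''0 h₁ h₂ a haj h20a h20c h11a h11c h02c h02a hram
        𝔫 hπ𝔫 ha𝔫 hi₀' S T hS hT hres hD1 hnf1
      exact ⟨h3, h4⟩
    · exact h02 hi₀
  refine ⟨key.1, fun i hi => ?_⟩
  have hii : i = i₀ := by
    by_contra hne
    exact honly i hne hi
  subst hii
  exact key.2

end Fermat.Agent.S36.Cusp.PlugSplit
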